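import Fermat.Agent.DS.H.AbelianLower

/-!
# Program DS, package H, row H3': the abelian case, two-sided

`dsh_abelian` VERBATIM as in `DS/H/Spec.lean`, from H3 `dsh_abelian_lower` and the bookkeeping of
H0 (`dsh_total`, `dsh_DS_eq_sum`).  Private prefix `dshab_`.
-/

set_option autoImplicit false

namespace Fermat.Agent.DS

open NumberField IsDedekindDomain Fermat.Agent.S14

theorem dshab_univ_eq_sum {K E : Type} [Field K] [NumberField K] [Field E] [NumberField E]
    [Algebra K E] [IsGalois K E] [Fintype (E ≃ₐ[K] E)] (B : Finset ℕ) {s : ℝ} (hs : 1 < s) :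
    dshDS K E B Set.univ s = ∑ g : E ≃ₐ[K] E, dshD K E B g s := by
  rw [dsh_DS_eq_sum B Set.univ hs, finsum_eq_sum_of_fintype]
  exact Fintype.sum_equiv (Equiv.Set.univ _) _ _ (fun g => rfl)

/-- **(H3')** abelian case, two-sided. -/
theorem dsh_abelian {K E : Type} [Field K] [NumberField K] [Field E] [NumberField E]
    [Algebra K E] [IsGalois K E] (hcomm : ∀ a b : E ≃ₐ[K] E, a * b = b * a) (B : Finset ℕ)
    (hB : ∀ v, IsGoodPlace K B v → IsUnramifiedIn K E v) (σ : E ≃ₐ[K] E) (ε : ℝ) (hε : 0 < ε) :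
    ∃ C : ℝ, ∀ s : ℝ, 1 < s → s < 2 →
      |(Module.finrank K E : ℝ) * (dshD K E B σ s + dshD K E B σ⁻¹ s) -
        2 * Real.log (1 / (s - 1))| ≤ ε * Real.log (1 / (s - 1)) + C := by
  classical
  have : Finite (E ≃ₐ[K] E) := inferInstance
  let _ : Fintype (E ≃ₐ[K] E) := Fintype.ofFinite _
  have hcard : (Fintype.card (E ≃ₐ[K] E) : ℝ) = (Module.finrank K E : ℝ) := by
    rw [← Nat.card_eq_fintype_card, IsGalois.card_aut_eq_finrank]
  set n : ℝ := (Module.finrank K E : ℝ) with hn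
  have hn1 : 1 ≤ n := by
    rw [hn]
    exact_mod_cast Module.finrank_pos (R := K) (M := E)
  have hn0 : 0 < n := by linarith
  have hε' : 0 < ε / n := div_pos hε hn0
  have hlow := fun g : E ≃ₐ[K] E => dsh_abelian_lower hcomm B hB g (ε / n) hε'
  choose Cg hCg using hlow
  obtain ⟨C₀, hC₀⟩ := dsh_total (K := K) (L := E) B
  refine ⟨2 * n * |C₀| + ∑ g, |Cg g|, fun s hs1 hs2 => ?_⟩
  have hL := dshal_log_nonneg hs1 hs2
  set L := Real.log (1 / (s - 1)) with hLdef
  set D : (E ≃ₐ[K] E) → ℝ := fun g => dshD K E B g s with hD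
  have hT := hC₀ s hs1 hs2
  rw [dshab_univ_eq_sum B hs1] at hT
  set T : ℝ := ∑ g : E ≃ₐ[K] E, D g with hTdef
  -- `∑_g (D g + D g⁻¹) = 2 T`
  have hinv : ∑ g : E ≃ₐ[K] E, D g⁻¹ = T :=
    Fintype.sum_equiv (Equiv.inv _) _ _ (fun g => rfl)
  have hsum : ∑ g : E ≃ₐ[K] E, n * (D g + D g⁻¹) = 2 * n * T := by
    rw [← Finset.mul_sum, Finset.sum_add_distrib, hinv]
    ring
  -- lower bounds
  have hlb : ∀ g, (2 - ε / n) * L - |Cg g| ≤ n * (D g + D g⁻¹) := by
    intro g
    have := hCg g s hs1 hs2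
    have := le_abs_self (Cg g)
    linarith
  -- split off `σ`
  have hsplit : ∑ g : E ≃ₐ[K] E, n * (D g + D g⁻¹) =
      n * (D σ + D σ⁻¹) + ∑ g ∈ Finset.univ.erase σ, n * (D g + D g⁻¹) :=
    (Finset.add_sum_erase _ _ (Finset.mem_univ σ)).symm
  have herase : ∑ g ∈ Finset.univ.erase σ, ((2 - ε / n) * L - |Cg g|) ≤
      ∑ g ∈ Finset.univ.erase σ, n * (D g + D g⁻¹) :=
    Finset.sum_le_sum fun g _ => hlb g
  have hcardE : ((Finset.univ.erase σ).card : ℝ) = n - 1 := by
    rw [Finset.card_erase_of_mem (Finset.mem_univ σ), Finset.card_univ,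
      Nat.cast_sub Fintype.card_pos, hcard, Nat.cast_one]
  have herase' : ∑ g ∈ Finset.univ.erase σ, ((2 - ε / n) * L - |Cg g|) =
      (n - 1) * ((2 - ε / n) * L) - ∑ g ∈ Finset.univ.erase σ, |Cg g| := by
    rw [Finset.sum_sub_distrib, Finset.sum_const, nsmul_eq_mul, hcardE]
  have hCle : ∑ g ∈ Finset.univ.erase σ, |Cg g| ≤ ∑ g, |Cg g| :=
    Finset.sum_le_sum_of_subset_of_nonneg (Finset.subset_univ _) (fun g _ _ => abs_nonneg _)
  have hCσ : |Cg σ| ≤ ∑ g, |Cg g| :=
    Finset.single_le_sum (f := fun g => |Cg g|) (fun g _ => abs_nonneg _) (Finset.mem_univ σ)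
  have hTub : T ≤ L + |C₀| := by
    have := (abs_le.mp hT).2
    have := le_abs_self C₀
    linarith
  have hεn : ε / n * n = ε := div_mul_cancel₀ ε hn0.ne'
  have hεle : ε / n * L ≤ ε * L := by
    have : ε / n ≤ ε := div_le_self hε.le hn1
    exact mul_le_mul_of_nonneg_right this hL
  have hC0 : 0 ≤ 2 * n * |C₀| := by positivity
  have hCs : 0 ≤ ∑ g, |Cg g| := Finset.sum_nonneg fun g _ => abs_nonneg _
  rw [abs_le]
  constructor
  · have := hlb σ
    nlinarith
  · -- upper bound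
    have h1 : n * (D σ + D σ⁻¹) ≤ 2 * n * T - ((n - 1) * ((2 - ε / n) * L) -
        ∑ g ∈ Finset.univ.erase σ, |Cg g|) := by
      have := hsplit
      rw [hsum] at this
      linarith
    have h2 : 2 * n * T ≤ 2 * n * (L + |C₀|) :=
      mul_le_mul_of_nonneg_left hTub (by positivity)
    have h3 : (n - 1) * ((2 - ε / n) * L) = 2 * n * L - 2 * L - ε * L + ε / n * L := by
      have : (n - 1) * (ε / n) = ε - ε / n := by
        field_simp
      calc (n - 1) * ((2 - ε / n) * L) = (2 * (n - 1) - (n - 1) * (ε / n)) * L := by ring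
        _ = _ := by rw [this]; ring
    have h4 : 0 ≤ ε / n * L := mul_nonneg hε'.le hL
    linarith

end Fermat.Agent.DS
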