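import Fermat.Agent.DS.H.Defs

/-!
# Program DS, package H, row H2b: `hprin` for even characters (`dsh_artin_even`)

If `θ (Frob_w) = N(w) mod r` for all `w ∤ r` and `ψ` kills `θ⁻¹ {±1}`, then the additive Artin symbol
`ψ ((x))` of a principal divisor with `x ≡ 1 mod× r` vanishes: `N((a)) = |Nm a| ≡ ± Nm a`, and
congruent integers have congruent norms.
-/

set_option autoImplicit false

namespace Fermat.Agent.DS

open NumberField IsDedekindDomain Fermat.Agent.S14 Fermat.Agent.S55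

/-- congruent integers have congruent norms (private copy of row H2a). -/
private theorem dshae_norm_congr {L : Type} [Field L] [NumberField L] (r : ℕ) (a b : 𝓞 L)
    (h : a - b ∈ Ideal.span {(r : 𝓞 L)}) :
    ((Algebra.norm ℤ a : ℤ) : ZMod r) = ((Algebra.norm ℤ b : ℤ) : ZMod r) := by
  obtain ⟨c, hc⟩ := Ideal.mem_span_singleton'.mp h
  have hab : a = b + c * (r : 𝓞 L) := by rw [hc]; ring
  rw [Algebra.norm_eq_matrix_det (RingOfIntegers.basis L) a,
    Algebra.norm_eq_matrix_det (RingOfIntegers.basis L) b]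
  show (Int.castRingHom (ZMod r)) _ = (Int.castRingHom (ZMod r)) _
  rw [RingHom.map_det, RingHom.map_det]
  congr 1
  rw [hab, map_add, map_mul, map_natCast, map_add, map_mul, map_natCast]
  have h0 : ((r : ℕ) : Matrix (Module.Free.ChooseBasisIndex ℤ (𝓞 L))
      (Module.Free.ChooseBasisIndex ℤ (𝓞 L)) (ZMod r)) = 0 := by
    ext i j
    simp [Matrix.natCast_apply]
  rw [h0, mul_zero, add_zero]

private theorem dshae_natAbs_cast (r : ℕ) (n : ℤ) :
    ((n.natAbs : ℕ) : ZMod r) = (n : ZMod r) ∨ ((n.natAbs : ℕ) : ZMod r) = -(n : ZMod r) := by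
  rcases Int.natAbs_eq n with h | h
  · left
    conv_rhs => rw [h]
    exact (Int.cast_natCast _).symm
  · right
    conv_rhs => rw [h]
    rw [Int.cast_neg, Int.cast_natCast, neg_neg]

/-- every divisor is "represented" by a Galois element, compatibly with `θ` and `ψ`. -/
private theorem dshae_exists_elt {L M : Type} [Field L] [NumberField L] [Field M] [NumberField M]
    [Algebra L M] [IsGalois L M] {r : ℕ} (θ : (M ≃ₐ[L] M) →* (ZMod r)ˣ)
    {e : ℕ} (ψ : (M ≃ₐ[L] M) →* Multiplicative (ZMod e)) (D : S14.Div L) :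
    ∃ h : M ≃ₐ[L] M, θ h = D.prod (fun w n => θ (frobAt L M w) ^ n) ∧
      Multiplicative.toAdd (ψ h) = artin L M ψ D := by
  induction D using Finsupp.induction_linear with
  | zero => exact ⟨1, by simp, by simp⟩
  | add D E hD hE =>
    obtain ⟨h1, h1θ, h1ψ⟩ := hD
    obtain ⟨h2, h2θ, h2ψ⟩ := hE
    refine ⟨h1 * h2, ?_, ?_⟩
    · rw [map_mul, h1θ, h2θ, Finsupp.prod_add_index' (by simp)
        (by intro w a b; exact zpow_add _ a b)]
    · rw [map_mul, toAdd_mul, h1ψ, h2ψ, map_add]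
  | single w n =>
    refine ⟨frobAt L M w ^ n, ?_, ?_⟩
    · rw [map_zpow, Finsupp.prod_single_index (by simp)]
    · rw [map_zpow, toAdd_zpow, artin_single, zsmul_eq_mul]

/-- `∏_w N(w)^(ord_w a) = |Nm a|` as natural numbers, for a nonzero integer `a`. -/
private theorem dshae_prod_nat {L : Type} [Field L] [NumberField L] (a : 𝓞 L) (ha : a ≠ 0) :
    ∏ w ∈ (divOf L (a : L)).support, (Ideal.absNorm w.asIdeal) ^ (divOf L (a : L) w).toNat =
      (Algebra.norm ℤ a).natAbs := by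
  have haL : (a : L) ≠ 0 := by
    simpa using ha
  have h := prod_absNorm_pow_divOf (F := L) (a : L) haL
  have hnorm : Algebra.norm ℚ (a : L) = ((Algebra.norm ℤ a : ℤ) : ℚ) :=
    (Algebra.coe_norm_int a).symm
  apply Nat.cast_injective (R := ℚ)
  rw [Nat.cast_prod, Nat.cast_natAbs, Int.cast_abs, ← hnorm, ← h, Finsupp.prod]
  refine Finset.prod_congr rfl fun w _ => ?_
  have hnn : 0 ≤ divOf L (a : L) w := (divOf_algebraMap_nonneg a ha w).1
  rw [Nat.cast_pow, ← zpow_natCast, Int.toNat_of_nonneg hnn]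

/-- `θ` of the Galois element attached to `(a)` is `|Nm a| mod r`. -/
private theorem dshae_prod_eq {L M : Type} [Field L] [NumberField L] [Field M] [NumberField M]
    [Algebra L M] [IsGalois L M] (r : ℕ) (θ : (M ≃ₐ[L] M) →* (ZMod r)ˣ)
    (hfrob : ∀ w : HeightOneSpectrum (𝓞 L), (r : 𝓞 L) ∉ w.asIdeal →
      ((θ (frobAt L M w) : (ZMod r)ˣ) : ZMod r) = (Ideal.absNorm w.asIdeal : ZMod r))
    (a : 𝓞 L) (ha : a ≠ 0) (hcop : IsCoprime (Ideal.span {a}) (Ideal.span {(r : 𝓞 L)})) :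
    (((divOf L (a : L)).prod (fun w n => θ (frobAt L M w) ^ n) : (ZMod r)ˣ) : ZMod r) =
      (((Algebra.norm ℤ a).natAbs : ℕ) : ZMod r) := by
  rw [← dshae_prod_nat a ha, Finsupp.prod, Units.coe_prod, Nat.cast_prod]
  refine Finset.prod_congr rfl fun w hw => ?_
  have hnn : 0 ≤ divOf L (a : L) w := (divOf_algebraMap_nonneg a ha w).1
  have hne : divOf L (a : L) w ≠ 0 := Finsupp.mem_support_iff.mp hw
  have haw : a ∈ w.asIdeal := by
    by_contra hnot
    exact hne ((divOf_algebraMap_nonneg a ha w).2.mpr hnot)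
  have hrw : (r : 𝓞 L) ∉ w.asIdeal := by
    intro hr
    have hle : Ideal.span {a} ⊔ Ideal.span {(r : 𝓞 L)} ≤ w.asIdeal :=
      sup_le ((Ideal.span_singleton_le_iff_mem _).mpr haw)
        ((Ideal.span_singleton_le_iff_mem _).mpr hr)
    rw [Ideal.isCoprime_iff_sup_eq.mp hcop] at hle
    exact w.isPrime.ne_top (top_le_iff.mp hle)
  obtain ⟨k, hk⟩ := Int.eq_ofNat_of_zero_le hnn
  rw [hk, zpow_natCast, Int.toNat_natCast, Units.val_pow_eq_pow_val, hfrob w hrw, Nat.cast_pow]

/-- (H2b) `hprin` for EVEN characters: if `θ (Frob_w) = N(w) mod r` for all `w ∤ r` and `ψ` kills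
`θ⁻¹ {±1}`, then the Artin symbol `ψ ((x))` of a principal divisor with `x ≡ 1 mod× r` is trivial
(NO condition at the infinite places: `N((x)) = |Nm x| ≡ ± 1`). -/
theorem dsh_artin_even {L M : Type} [Field L] [NumberField L] [Field M] [NumberField M]
    [Algebra L M] [IsGalois L M] (r : ℕ) [Fact r.Prime]
    (θ : (M ≃ₐ[L] M) →* (ZMod r)ˣ)
    (hfrob : ∀ w : HeightOneSpectrum (𝓞 L), (r : 𝓞 L) ∉ w.asIdeal →
      ((θ (frobAt L M w) : (ZMod r)ˣ) : ZMod r) = (Ideal.absNorm w.asIdeal : ZMod r))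
    {e : ℕ} (ψ : (M ≃ₐ[L] M) →* Multiplicative (ZMod e))
    (hψ : ∀ h : M ≃ₐ[L] M, (θ h = 1 ∨ θ h = -1) → ψ h = 1) (x : L)
    (hx : gdOneMod L (Ideal.span {(r : 𝓞 L)}) x) :
    artin L M ψ (divOf L x) = 0 := by
  obtain ⟨a, b, ha, hb, hca, hcb, hab, rfl⟩ := hx
  have haL : (a : L) ≠ 0 := by simpa using ha
  have hbL : (b : L) ≠ 0 := by simpa using hb
  have hdiv : divOf L ((a : L) / (b : L)) = divOf L (a : L) - divOf L (b : L) := by
    rw [div_eq_mul_inv, divOf_mul _ _ haL (inv_ne_zero hbL), divOf_inv, sub_eq_add_neg]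
  obtain ⟨ga, gaθ, gaψ⟩ := dshae_exists_elt θ ψ (divOf L (a : L))
  obtain ⟨gb, gbθ, gbψ⟩ := dshae_exists_elt θ ψ (divOf L (b : L))
  rw [hdiv, map_sub, ← gaψ, ← gbψ, sub_eq_zero]
  -- the two norms
  have hνa := dshae_prod_eq r θ hfrob a ha hca
  have hνb := dshae_prod_eq r θ hfrob b hb hcb
  rw [← gaθ] at hνa
  rw [← gbθ] at hνb
  have hcong := dshae_norm_congr r a b hab
  have hsign : θ ga = θ gb ∨ θ ga = -θ gb := by
    rcases dshae_natAbs_cast r (Algebra.norm ℤ a) with h1 | h1 <;>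
    rcases dshae_natAbs_cast r (Algebra.norm ℤ b) with h2 | h2
    · left
      apply Units.ext
      rw [hνa, hνb, h1, h2, hcong]
    · right
      apply Units.ext
      rw [Units.val_neg, hνa, hνb, h1, h2, hcong, neg_neg]
    · right
      apply Units.ext
      rw [Units.val_neg, hνa, hνb, h1, h2, hcong]
    · left
      apply Units.ext
      rw [hνa, hνb, h1, h2, hcong]
  have hker : ψ (ga * gb⁻¹) = 1 := by
    apply hψ
    rw [map_mul, map_inv]
    rcases hsign with h | h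
    · left; rw [h, mul_inv_cancel]
    · right; rw [h, neg_mul, mul_inv_cancel]
  rw [map_mul, map_inv, mul_inv_eq_one] at hker
  rw [hker]

end Fermat.Agent.DS
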