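import Fermat.Agent.DS.H.CyclicChar
import Fermat.Agent.DS.H.ArtinEven

/-!
# Program DS, package H, row H2: the cyclotomic case (`dsh_cyc`)

`Gal(M/L) ↪ (ℤ/r)ˣ` through `θ` (`θ (Frob_w) = N(w) mod r`), `θ c = -1`: the good places with
`Frob_w ∈ {g, gc}` or `{g⁻¹, g⁻¹c}` have density `4/[M:L]`.
-/

set_option autoImplicit false

namespace Fermat.Agent.DS

open NumberField IsDedekindDomain Fermat.Agent.S14 Fermat.Agent.S55

/-- a good place (relative to `B ∋ r`) does not divide `r` -/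
private theorem dshcy_not_le {L : Type} [Field L] [NumberField L] (r : ℕ) [Fact r.Prime]
    (B : Finset ℕ) (hrB : r ∈ B) (w : HeightOneSpectrum (𝓞 L)) (hw : IsGoodPlace L B w) :
    ¬ Ideal.span {(r : 𝓞 L)} ≤ w.asIdeal := by
  intro hle
  have hr : (r : 𝓞 L) ∈ w.asIdeal := hle (Ideal.subset_span rfl)
  have hp : ((Ideal.absNorm w.asIdeal : ℕ) : 𝓞 L) ∈ w.asIdeal := Ideal.absNorm_mem w.asIdeal
  have hne : Ideal.absNorm w.asIdeal ≠ r := fun h => hw.2 (h ▸ hrB)
  have hcop : Nat.Coprime (Ideal.absNorm w.asIdeal) r :=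
    (Nat.coprime_primes hw.1 (Fact.out : r.Prime)).mpr hne
  obtain ⟨a, b, hab⟩ := Nat.isCoprime_iff_coprime.mpr hcop
  have h1 : (1 : 𝓞 L) ∈ w.asIdeal := by
    have h2 : ((a : ℤ) : 𝓞 L) * ((Ideal.absNorm w.asIdeal : ℕ) : 𝓞 L) +
        ((b : ℤ) : 𝓞 L) * (r : 𝓞 L) = 1 := by
      have := congrArg (fun z : ℤ => (z : 𝓞 L)) hab
      simpa using this
    rw [← h2]
    exact Ideal.add_mem _ (Ideal.mul_mem_left _ _ hp) (Ideal.mul_mem_left _ _ hr)
  exact w.isPrime.ne_top ((Ideal.eq_top_iff_one _).mpr h1)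

/-- **(H2) the cyclotomic case** -/
theorem dsh_cyc {L M : Type} [Field L] [NumberField L] [Field M] [NumberField M]
    [Algebra L M] [IsGalois L M] (r : ℕ) [Fact r.Prime] (hr2 : 2 < r) (B : Finset ℕ)
    (hrB : r ∈ B) (hB : ∀ w, IsGoodPlace L B w → IsUnramifiedIn L M w)
    (θ : (M ≃ₐ[L] M) →* (ZMod r)ˣ) (hθ : Function.Injective θ)
    (hfrob : ∀ w : HeightOneSpectrum (𝓞 L), (r : 𝓞 L) ∉ w.asIdeal →
      ((θ (frobAt L M w) : (ZMod r)ˣ) : ZMod r) = (Ideal.absNorm w.asIdeal : ZMod r))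
    (c : M ≃ₐ[L] M) (hc : θ c = -1) (g : M ≃ₐ[L] M) :
    ∃ C : ℝ, ∀ s : ℝ, 1 < s → s < 2 →
      |(Module.finrank L M : ℝ) / 2 *
          (dshDS L M B {h | h = g ∨ h = g * c} s + dshDS L M B {h | h = g⁻¹ ∨ h = g⁻¹ * c} s) -
        2 * Real.log (1 / (s - 1))| ≤ C := by
  classical
  -- the group is commutative and cyclic
  have hcomm : ∀ a b : M ≃ₐ[L] M, a * b = b * a := fun a b => hθ (by
    rw [map_mul, map_mul, mul_comm])
  haveI : IsCyclic (M ≃ₐ[L] M) := isCyclic_of_injective θ hθ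
  -- `c` has order two
  have hneg : (-1 : (ZMod r)ˣ) ≠ 1 := by
    intro h
    have h1 : ((-1 : (ZMod r)ˣ) : ZMod r) = ((1 : (ZMod r)ˣ) : ZMod r) := by rw [h]
    rw [Units.val_neg, Units.val_one] at h1
    have h2 : (2 : ZMod r) = 0 := by
      have : (1 : ZMod r) + 1 = 0 := by
        nth_rewrite 1 [← h1]
        ring
      rw [← this]; norm_num
    have h3 : ((2 : ℕ) : ZMod r) = 0 := by exact_mod_cast h2
    rw [ZMod.natCast_eq_zero_iff] at h3
    exact absurd (Nat.le_of_dvd (by norm_num) h3) (by omega)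
  have hc1 : c ≠ 1 := fun h => hneg (by rw [← hc, h, map_one])
  have hc2 : c * c = 1 := hθ (by rw [map_mul, hc, map_one]; simp)
  have hcinv : c⁻¹ = c := inv_eq_of_mul_eq_one_right hc2
  set H : Subgroup (M ≃ₐ[L] M) := Subgroup.zpowers c with hH
  haveI hHn : H.Normal := ⟨fun n hn x => by rwa [hcomm x n, mul_inv_cancel_right]⟩
  have hmemH : ∀ x : M ≃ₐ[L] M, x ∈ H ↔ x = 1 ∨ x = c := by
    intro x
    constructor
    · intro hx
      obtain ⟨k, rfl⟩ := Subgroup.mem_zpowers_iff.mp hx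
      rcases Int.even_or_odd k with ⟨j, rfl⟩ | ⟨j, rfl⟩
      · left
        rw [← two_mul, zpow_mul, zpow_two, hc2, one_zpow]
      · right
        rw [zpow_add, zpow_mul, zpow_two, hc2, one_zpow, one_mul, zpow_one]
    · rintro (h | h)
      · rw [h]; exact H.one_mem
      · rw [h]; exact Subgroup.mem_zpowers c
  have hcardH : Nat.card H = 2 := by
    rw [hH, Nat.card_zpowers]
    exact orderOf_eq_prime (by rw [pow_two]; exact hc2) hc1
  -- the quotient and its cardinal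
  set Q := (M ≃ₐ[L] M) ⧸ H with hQ
  haveI : IsCyclic Q := isCyclic_of_surjective (QuotientGroup.mk' H) (QuotientGroup.mk'_surjective H)
  set e : ℕ := Nat.card Q with he
  haveI : NeZero e := ⟨Nat.card_pos.ne'⟩
  have hcard : (e : ℝ) = (Module.finrank L M : ℝ) / 2 := by
    have h1 : Nat.card (M ≃ₐ[L] M) = Nat.card Q * Nat.card H :=
      Subgroup.card_eq_card_quotient_mul_card_subgroup H
    rw [hcardH, IsGalois.card_aut_eq_finrank] at h1
    rw [h1]
    push_cast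
    ring
  -- the character
  let ι : Q ≃* Multiplicative (ZMod e) := (zmodCyclicMulEquiv (inferInstance : IsCyclic Q)).symm
  let ψ : (M ≃ₐ[L] M) →* Multiplicative (ZMod e) := ι.toMonoidHom.comp (QuotientGroup.mk' H)
  have hψsurj : Function.Surjective ψ :=
    ι.surjective.comp (QuotientGroup.mk'_surjective H)
  have hψeq : ∀ x y : M ≃ₐ[L] M, ψ x = ψ y ↔ (x = y ∨ x = y * c) := by
    intro x y
    have h1 : ψ x = ψ y ↔ (QuotientGroup.mk' H x) = (QuotientGroup.mk' H y) := by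
      show ι _ = ι _ ↔ _
      exact ι.injective.eq_iff
    rw [h1, QuotientGroup.mk'_apply, QuotientGroup.mk'_apply, QuotientGroup.eq, hmemH]
    constructor
    · rintro (h | h)
      · left
        exact inv_mul_eq_one.mp h
      · right
        have h2 : y = x * c := eq_mul_of_inv_mul_eq h
        rw [h2, mul_assoc, hc2, mul_one]
    · rintro (rfl | rfl)
      · left; exact inv_mul_cancel _
      · right
        rw [mul_inv_rev, hcinv, mul_assoc, inv_mul_cancel, mul_one]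
  have hψker : ∀ h : M ≃ₐ[L] M, (θ h = 1 ∨ θ h = -1) → ψ h = 1 := by
    intro h hh
    rw [← map_one ψ, hψeq]
    rcases hh with hh | hh
    · left; exact hθ (hh.trans (map_one θ).symm)
    · right; rw [one_mul]; exact hθ (hh.trans hc.symm)
  have hr0 : (r : 𝓞 L) ≠ 0 := by
    exact_mod_cast (Fact.out : r.Prime).ne_zero
  have h𝔪 : Ideal.span {(r : 𝓞 L)} ≠ ⊥ := by
    rw [Ne, Ideal.span_singleton_eq_bot]
    exact hr0
  obtain ⟨C, hC⟩ := dsh_cyclic_char hcomm B hB (Ideal.span {(r : 𝓞 L)}) h𝔪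
    (dshcy_not_le r B hrB) ψ hψsurj (fun x hx => dsh_artin_even r θ hfrob ψ hψker x hx) (ψ g)
  refine ⟨C, fun s hs1 hs2 => ?_⟩
  have h := hC s hs1 hs2
  have hs1' : {h | ψ h = ψ g} = {h | h = g ∨ h = g * c} := by
    ext x; exact hψeq x g
  have hs2' : {h | ψ h = (ψ g)⁻¹} = {h | h = g⁻¹ ∨ h = g⁻¹ * c} := by
    ext x
    rw [Set.mem_setOf_eq, ← map_inv, hψeq]
    rfl
  rw [hs1', hs2', hcard] at h
  exact h

end Fermat.Agent.DS
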