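import Fermat.Agent.DS.H.Defs
import Fermat.Agent.S56.Frob.Tower
import Fermat.Agent.S14.AuxFrob

/-!
# Program DS, package H, row H3b: the fibre identity in a tower (`dsh_fibre`)

`K ⊆ L ⊆ M`, `M/K` abelian, `h ∈ Gal(M/L)`:
`[L:K] ∑_{v good, Frob_{M/K} v = h} N(v)^(-s) = ∑_{w good, Frob_{M/L} w = h} N(w)^(-s)`.
-/

set_option autoImplicit false

namespace Fermat.Agent.DS

open NumberField IsDedekindDomain Fermat.Agent.S14 Fermat.Agent.S56

section

variable {K M : Type} [Field K] [NumberField K] [Field M] [NumberField M]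
  [Algebra K M] [IsGalois K M]

/-- an intermediate field of an abelian extension is Galois over the base. -/
private theorem dshfb_isGalois (hcomm : ∀ a b : M ≃ₐ[K] M, a * b = b * a)
    (L : IntermediateField K M) : IsGalois K L := by
  have : (L.fixingSubgroup).Normal := fd_normal_of_comm K M hcomm _
  have h : IsGalois K (IntermediateField.fixedField L.fixingSubgroup) :=
    IsGalois.of_fixedField_normal_subgroup L.fixingSubgroup
  have e : IntermediateField.fixedField L.fixingSubgroup = L :=
    IsGalois.fixedField_fixingSubgroup L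
  exact e ▸ h

/-- the Frobenius of `M/L` at a place of degree one over `K` is the Frobenius of `M/K` below. -/
private theorem dshfb_frobAt_restrictScalars (hcomm : ∀ a b : M ≃ₐ[K] M, a * b = b * a)
    (L : IntermediateField K M) (w : HeightOneSpectrum (𝓞 L))
    (hv : IsUnramifiedIn K M (placeBelow K L w))
    (hN : Ideal.absNorm w.asIdeal = Ideal.absNorm (placeBelow K L w).asIdeal) :
    (frobAt L M w).restrictScalars K = frobAt K M (placeBelow K L w) := by
  set P := primeAbove L M w with hP
  have hγ : IsArithFrobAt (𝓞 L) (frobAt L M w) P := isArithFrobAt_frobAt L M w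
  have hPL : P.under (𝓞 L) = w.asIdeal := ((primeAbove_liesOver L M w).over).symm
  have hPK : P.under (𝓞 K) = (placeBelow K L w).asIdeal := by
    rw [← Ideal.under_under (B := 𝓞 L), hPL]
    rfl
  have hcard : Nat.card (𝓞 L ⧸ P.under (𝓞 L)) = Nat.card (𝓞 K ⧸ P.under (𝓞 K)) := by
    rw [hPL, hPK]
    have h1 : Ideal.absNorm w.asIdeal = Nat.card (𝓞 L ⧸ w.asIdeal) := by
      rw [Ideal.absNorm_apply, Submodule.cardQuot_apply]
    have h2 : Ideal.absNorm (placeBelow K L w).asIdeal =
        Nat.card (𝓞 K ⧸ (placeBelow K L w).asIdeal) := by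
      rw [Ideal.absNorm_apply, Submodule.cardQuot_apply]
    rw [← h1, ← h2, hN]
  have hfr := auxfrob_restrictScalars (K := K) (F := L) (M := M) hγ hcard
  have hlies : P.LiesOver (placeBelow K L w).asIdeal := ⟨hPK.symm⟩
  exact frobAt_eq_of_isArithFrobAt K M hcomm (placeBelow K L w) hv P hlies _ hfr

/-- an element of `Gal(M/L)` restricts to the identity on `L`. -/
private theorem dshfb_restrictNormalHom_eq_one (L : IntermediateField K M) [IsGalois K L]
    (h : M ≃ₐ[L] M) : AlgEquiv.restrictNormalHom L (h.restrictScalars K) = 1 := by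
  ext x
  show algebraMap L M ((h.restrictScalars K).restrictNormal L x) = algebraMap L M x
  rw [AlgEquiv.restrictNormal_commutes]
  exact h.commutes x

end

/-- (H3b) the fibre identity in a tower `K ⊆ L ⊆ M`, `M/K` abelian, for `h ∈ Gal(M/L)`:
`[L:K] ∑_{v good, Frob_{M/K} v = h} N(v)^(-s) = ∑_{w good, Frob_{M/L} w = h} N(w)^(-s)`. -/
theorem dsh_fibre {K M : Type} [Field K] [NumberField K] [Field M] [NumberField M]
    [Algebra K M] [IsGalois K M] (hcomm : ∀ a b : M ≃ₐ[K] M, a * b = b * a) (B : Finset ℕ)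
    (hB : ∀ v, IsGoodPlace K B v → IsUnramifiedIn K M v) (L : IntermediateField K M)
    (h : M ≃ₐ[L] M) {s : ℝ} (hs : 1 < s) :
    (Module.finrank K L : ℝ) * dshD K M B (h.restrictScalars K) s = dshD L M B h s := by
  classical
  have : IsGalois K L := dshfb_isGalois hcomm L
  have hB' : ∀ v, IsGoodPlace K B v → IsUnramifiedIn K L v := fun v hv =>
    fd_isUnramifiedIn_tower K L M v (hB v hv)
  have hsumL : Summable fun w : HeightOneSpectrum (𝓞 L) => nvPow L w s := primeSum_summable L hs
  unfold dshD
  rw [← tsum_mul_left]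
  symm
  refine fd_fibre_tsum_eq K L (hsumL.indicator _) fun v => ?_
  have : Finite {w : HeightOneSpectrum (𝓞 L) // placeBelow K L w = v} :=
    (card_placesAbove_le K L v).1
  have := Fintype.ofFinite {w : HeightOneSpectrum (𝓞 L) // placeBelow K L w = v}
  rw [tsum_fintype]
  by_cases hv : IsGoodPlace K B v ∧ frobAt K M v = h.restrictScalars K
  · rw [Set.indicator_of_mem
      (show v ∈ {v | IsGoodPlace K B v ∧ frobAt K M v = h.restrictScalars K} from hv)]
    have hfrobL : frobAt K L v = 1 := by
      rw [← fd_frobAt_restrict K L M hcomm v (hB v hv.1), hv.2]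
      exact dshfb_restrictNormalHom_eq_one L h
    have h2 : ∀ w : {w : HeightOneSpectrum (𝓞 L) // placeBelow K L w = v},
        Set.indicator {w | IsGoodPlace L B w ∧ frobAt L M w = h}
          (fun w => nvPow L w s) w.1 = nvPow K v s := by
      intro w
      have hN := (absNorm_eq_of_frobAt_eq_one K L v (hB' v hv.1) hfrobL w.1 w.2).1
      have hgood : IsGoodPlace L B w.1 := ⟨hN ▸ hv.1.1, hN ▸ hv.1.2⟩
      have hfr : frobAt L M w.1 = h := by
        have h3 := dshfb_frobAt_restrictScalars hcomm L w.1 (by rw [w.2]; exact hB v hv.1)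
          (by rw [w.2]; exact hN)
        rw [w.2, hv.2] at h3
        exact AlgEquiv.restrictScalars_injective K h3
      rw [Set.indicator_of_mem
        (show w.1 ∈ {w | IsGoodPlace L B w ∧ frobAt L M w = h} from ⟨hgood, hfr⟩)]
      simp only [nvPow, hN]
    simp only [h2, Finset.sum_const, Finset.card_univ, nsmul_eq_mul]
    rw [← Nat.card_eq_fintype_card, card_placesAbove_of_frobAt_eq_one K L v (hB' v hv.1) hfrobL]
  · rw [Set.indicator_of_notMem
      (show v ∉ {v | IsGoodPlace K B v ∧ frobAt K M v = h.restrictScalars K} from hv), mul_zero]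
    refine Finset.sum_eq_zero fun w _ => ?_
    refine Set.indicator_of_notMem ?_ _
    rintro ⟨hw, hfr⟩
    apply hv
    have hgv := (fd_isGoodPlace_above_iff K L B hB' w.1).mp hw
    rw [w.2] at hgv
    refine ⟨hgv.1, ?_⟩
    have hN := (absNorm_eq_of_frobAt_eq_one K L v (hB' v hgv.1) hgv.2 w.1 w.2).1
    have h3 := dshfb_frobAt_restrictScalars hcomm L w.1 (by rw [w.2]; exact hB v hgv.1)
      (by rw [w.2]; exact hN)
    rw [w.2, hfr] at h3
    exact h3.symm

end Fermat.Agent.DS
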