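import Fermat.Agent.DS.H.CrossField
import Fermat.Agent.DS.H.Cyc
import Fermat.Agent.DS.H.Fibre

/-!
# Program DS, package H, row H3d: THE CROSSING LEMMA `dsh_cross`

`M = E(ζ_r)` (`exists_cyclotomic_compositum`), `g = (σ, a)`, `c = (1, -1)`, `Z = ⟨g, c⟩`,
`L = M^Z`, `θ = autToPow L` on `Gal(M/L)` (injective by the group lemma), `dsh_cyc` over `L`,
`dsh_fibre` down to `K`, identification of the Frobenius of `M/K` by its two components, and the
passage from the enlarged excluded set `fdBad K M B` back to `B`.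
-/

set_option autoImplicit false
set_option linter.unusedSectionVars false

namespace Fermat.Agent.DS

open NumberField IsDedekindDomain Fermat.Agent.S14 Fermat.Agent.S56

section sums

variable (K : Type) [Field K] [NumberField K]

/-- indicator sums over a disjoint union -/
theorem dshcr_tsum_union (A₁ A₂ : Set (HeightOneSpectrum (𝓞 K))) (hd : Disjoint A₁ A₂) {s : ℝ}
    (hs : 1 < s) :
    ∑' v : HeightOneSpectrum (𝓞 K), Set.indicator (A₁ ∪ A₂) (fun v => nvPow K v s) v =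
      (∑' v : HeightOneSpectrum (𝓞 K), Set.indicator A₁ (fun v => nvPow K v s) v) +
        ∑' v : HeightOneSpectrum (𝓞 K), Set.indicator A₂ (fun v => nvPow K v s) v := by
  rw [← ((primeSum_summable K hs).indicator A₁).tsum_add ((primeSum_summable K hs).indicator A₂)]
  refine tsum_congr fun v => ?_
  rw [Set.indicator_union_of_disjoint hd]

/-- indicator sums are monotone -/
theorem dshcr_tsum_mono {A A' : Set (HeightOneSpectrum (𝓞 K))} (h : A ⊆ A') {s : ℝ}
    (hs : 1 < s) :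
    (∑' v : HeightOneSpectrum (𝓞 K), Set.indicator A (fun v => nvPow K v s) v) ≤
      ∑' v : HeightOneSpectrum (𝓞 K), Set.indicator A' (fun v => nvPow K v s) v := by
  refine Summable.tsum_le_tsum (fun v => ?_) ((primeSum_summable K hs).indicator A)
    ((primeSum_summable K hs).indicator A')
  exact Set.indicator_le_indicator_of_subset h (fun v => dens_nvPow_nonneg K v s) v

/-- the sum over `A` is at most the sum over `A'` plus the sum over `D` when `A ⊆ A' ∪ D` -/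
theorem dshcr_tsum_le_add {A A' D : Set (HeightOneSpectrum (𝓞 K))} (h : A ⊆ A' ∪ D) {s : ℝ}
    (hs : 1 < s) :
    (∑' v : HeightOneSpectrum (𝓞 K), Set.indicator A (fun v => nvPow K v s) v) ≤
      (∑' v : HeightOneSpectrum (𝓞 K), Set.indicator A' (fun v => nvPow K v s) v) +
        ∑' v : HeightOneSpectrum (𝓞 K), Set.indicator D (fun v => nvPow K v s) v := by
  rw [← ((primeSum_summable K hs).indicator A').tsum_add ((primeSum_summable K hs).indicator D)]
  refine Summable.tsum_le_tsum (fun v => ?_) ((primeSum_summable K hs).indicator A)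
    (((primeSum_summable K hs).indicator A').add ((primeSum_summable K hs).indicator D))
  have h0 := dens_nvPow_nonneg K v s
  have h1 := Set.indicator_nonneg (s := D) (fun v _ => dens_nvPow_nonneg K v s) v
  have h2 := Set.indicator_nonneg (s := A') (fun v _ => dens_nvPow_nonneg K v s) v
  by_cases hv : v ∈ A
  · rw [Set.indicator_of_mem hv]
    rcases h hv with h3 | h3
    · rw [Set.indicator_of_mem h3]
      linarith
    · rw [Set.indicator_of_mem h3]
      linarith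
  · rw [Set.indicator_of_notMem hv]
    linarith

end sums

section pair

variable (K L : Type) [Field K] [NumberField K] [Field L] [NumberField L] [Algebra K L]
  [IsGalois K L]

/-- the sum over a set of two elements -/
theorem dshcr_DS_pair (B : Finset ℕ) (g₁ g₂ : L ≃ₐ[K] L) (hne : g₁ ≠ g₂) {s : ℝ} (hs : 1 < s) :
    dshDS K L B {h | h = g₁ ∨ h = g₂} s = dshD K L B g₁ s + dshD K L B g₂ s := by
  unfold dshDS dshD
  rw [← dshcr_tsum_union K _ _ _ hs]
  · congr 1
    funext v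
    congr 1
    ext v
    simp only [Set.mem_ofPred_eq, Set.mem_union]
    tauto
  · rw [Set.disjoint_left]
    rintro v ⟨-, h1⟩ ⟨-, h2⟩
    exact hne (h1.symm.trans h2)

/-- enlarging the excluded set changes `dshDN` by `O(1)` -/
theorem dshcr_DN_change_B (B B' : Finset ℕ) (hBB' : B ⊆ B') (r : ℕ) :
    ∃ C : ℝ, 0 ≤ C ∧ ∀ (σ : L ≃ₐ[K] L) (a : ZMod r) (s : ℝ), 1 < s → s < 2 →
      dshDN K L B' r σ a s ≤ dshDN K L B r σ a s ∧
        dshDN K L B r σ a s ≤ dshDN K L B' r σ a s + C := by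
  obtain ⟨M, hM⟩ := primeSum_not_good_le K B'
  refine ⟨max M 0, le_max_right _ _, fun σ a s hs1 hs2 => ⟨?_, ?_⟩⟩
  · unfold dshDN
    refine dshcr_tsum_mono K (fun v hv => ?_) hs1
    exact ⟨⟨hv.1.1, fun h => hv.1.2 (hBB' h)⟩, hv.2⟩
  · unfold dshDN
    refine (dshcr_tsum_le_add K (D := {v | ¬ IsGoodPlace K B' v}) (fun v hv => ?_) hs1).trans
      (add_le_add_right ((hM s hs1 hs2).trans (le_max_left _ _)) _)
    by_cases h : IsGoodPlace K B' v
    · exact Or.inl ⟨h, hv.2⟩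
    · exact Or.inr h

end pair

section ident

variable {K E M : Type} [Field K] [NumberField K] [Field E] [NumberField E] [Field M]
  [NumberField M] [Algebra K E] [Algebra K M] [Algebra E M] [IsScalarTower K E M] [IsGalois K E]
  [IsGalois K M] {r : ℕ} [Fact r.Prime] {ζ : M} (hζ : IsPrimitiveRoot ζ r)

/-- `-1 ≠ 1` in `(ℤ/r)ˣ` for `r > 2` -/
theorem dshcr_neg_one_ne_one (hr2 : 2 < r) : (-1 : (ZMod r)ˣ) ≠ 1 := by
  have : Fact (2 < r) := ⟨hr2⟩
  intro h
  have h1 := congrArg (fun u : (ZMod r)ˣ => (u : ZMod r)) h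
  simp only [Units.val_neg, Units.val_one] at h1
  exact ZMod.neg_one_ne_one h1

/-- `D(g₀) + D(g₀ c) = DN(res g₀, χ g₀)` -/
theorem dshcr_D_pair_eq_DN (hr2 : 2 < r)
    (hinj : ∀ σ : M ≃ₐ[K] M, (∀ x : E, σ (algebraMap E M x) = algebraMap E M x) → σ ζ = ζ → σ = 1)
    (hcommM : ∀ a b : M ≃ₐ[K] M, a * b = b * a) (B' : Finset ℕ) (hrB' : r ∈ B')
    (hB' : ∀ v, IsGoodPlace K B' v → IsUnramifiedIn K M v) (c : M ≃ₐ[K] M)
    (hc1 : AlgEquiv.restrictNormalHom E c = 1) (hc2 : hζ.autToPow K c = -1) (g₀ : M ≃ₐ[K] M)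
    {s : ℝ} (hs : 1 < s) :
    dshD K M B' g₀ s + dshD K M B' (g₀ * c) s =
      dshDN K E B' r (AlgEquiv.restrictNormalHom E g₀)
        ((hζ.autToPow K g₀ : (ZMod r)ˣ) : ZMod r) s := by
  unfold dshD dshDN
  rw [← dshcr_tsum_union K _ _ _ hs]
  · congr 1
    funext v
    congr 1
    ext v
    simp only [Set.mem_ofPred_eq, Set.mem_union]
    by_cases hv : IsGoodPlace K B' v
    · have hvr := dshcr_not_mem_of_good B' hrB' v hv
      rw [dshcr_frobAt_eq_iff hζ hinj hcommM v (hB' v hv) hvr g₀,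
        dshcr_frobAt_eq_iff hζ hinj hcommM v (hB' v hv) hvr (g₀ * c)]
      rw [map_mul, map_mul, hc1, hc2, mul_one, mul_neg_one, Units.val_neg]
      tauto
    · tauto
  · rw [Set.disjoint_left]
    rintro v ⟨-, h1⟩ ⟨-, h2⟩
    have h3 : g₀ = g₀ * c := h1.symm.trans h2
    have h4 : c = 1 := by
      have := mul_left_cancel (a := g₀) (b := 1) (c := c) (by rw [mul_one]; exact h3)
      exact this.symm
    rw [h4, map_one] at hc2
    exact dshcr_neg_one_ne_one hr2 hc2.symm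

end ident

/-- **(H3d) THE CROSSING LEMMA** (Chebotarev 1922).  `E/K` abelian, `r > 2` a prime unramified in
`E`, `σ ∈ Gal(E/K)`, `a ∈ (ℤ/r)ˣ` such that `ord σ ∣ ord (a mod ±1)`.  Then the good places of `K`
with `(Frob_v, N(v) mod ± r) = (σ, ± a)` or `(σ⁻¹, ± a⁻¹)` have density `4/([E:K](r-1))`
(multiplicity counted), with an `O(1)` error.  [Proof: `M = E(ζ_r)` (`exists_cyclotomic_compositum`),
`g = (σ, a)`, `c = (1, -1)`, `L = M^⟨g, c⟩`, `Gal(M/L) ↪ (ℤ/r)ˣ`, `dsh_cyc` over `L`, `dsh_fibre`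
down to `K`, `dsh_change_B`.] -/
theorem dsh_cross {K E : Type} [Field K] [NumberField K] [Field E] [NumberField E]
    [Algebra K E] [IsGalois K E] (hcomm : ∀ a b : E ≃ₐ[K] E, a * b = b * a)
    (r : ℕ) [Fact r.Prime] (hr2 : 2 < r)
    (hrE : ∀ (P : Ideal (𝓞 E)) [P.IsPrime], (r : 𝓞 E) ∈ P → P.ramificationIdx ℤ = 1)
    (B : Finset ℕ) (hrB : r ∈ B) (hB : ∀ v, IsGoodPlace K B v → IsUnramifiedIn K E v)
    (σ : E ≃ₐ[K] E) (a : (ZMod r)ˣ)
    (hord : orderOf σ ∣ orderOf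
      (QuotientGroup.mk a : (ZMod r)ˣ ⧸ Subgroup.zpowers (-1 : (ZMod r)ˣ))) :
    ∃ C : ℝ, ∀ s : ℝ, 1 < s → s < 2 →
      |(Module.finrank K E : ℝ) * ((r : ℝ) - 1) / 2 *
          (dshDN K E B r σ (a : ZMod r) s + dshDN K E B r σ⁻¹ ((a⁻¹ : (ZMod r)ˣ) : ZMod r) s) -
        2 * Real.log (1 / (s - 1))| ≤ C := by
  obtain ⟨M, _, _, _, _, _, _, ζ, hζ, hsurj, hinj⟩ :=
    exists_cyclotomic_compositum (K := K) (L := E) r hrE
  have hcommM : ∀ x y : M ≃ₐ[K] M, x * y = y * x := dshcr_comm hζ hcomm hinj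
  obtain ⟨g, hg1, hg2⟩ := dshcr_exists hζ hsurj σ a
  obtain ⟨c, hc1, hc2⟩ := dshcr_exists hζ hsurj 1 (-1)
  have hord' : orderOf (AlgEquiv.restrictNormalHom E g) ∣ orderOf
      (QuotientGroup.mk (hζ.autToPow K g) : (ZMod r)ˣ ⧸ Subgroup.zpowers (-1 : (ZMod r)ˣ)) := by
    rw [hg1, hg2]
    exact hord
  -- the subgroup `Z = ⟨g, c⟩` and its fixed field
  let Z : Subgroup (M ≃ₐ[K] M) := Subgroup.closure {g, c}
  let L : IntermediateField K M := IntermediateField.fixedField Z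
  obtain ⟨g', hg'⟩ := dshcr_exists_lift Z g (Subgroup.subset_closure (by simp))
  obtain ⟨c', hc'⟩ := dshcr_exists_lift Z c (Subgroup.subset_closure (by simp))
  let θ : (M ≃ₐ[L] M) →* (ZMod r)ˣ := hζ.autToPow L
  have hθ : ∀ τ : M ≃ₐ[L] M, θ τ = hζ.autToPow K (τ.restrictScalars K) := fun τ =>
    (dshcr_autToPow_restrictScalars hζ L τ).symm
  have hθinj : Function.Injective θ := by
    rw [injective_iff_map_eq_one]
    intro τ hτ
    rw [hθ] at hτ
    have h1 := dshcr_group hcommM (AlgEquiv.restrictNormalHom E) (hζ.autToPow K)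
      (dshcr_hinj hζ hinj) g c hc1 hc2 hord' _ (dshcr_restrictScalars_mem Z τ) hτ
    exact AlgEquiv.restrictScalars_injective K h1
  -- the enlarged excluded set
  let B' : Finset ℕ := fdBad K M B
  have hBB' : B ⊆ B' := fd_subset_fdBad K M B
  have hrB' : r ∈ B' := hBB' hrB
  have hB'K : ∀ v, IsGoodPlace K B' v → IsUnramifiedIn K M v := fd_isUnramifiedIn_of_fdBad K M B
  have hB'L : ∀ w, IsGoodPlace L B' w → IsUnramifiedIn L M w := dshcr_unram_top L B' hB'K
  have hfrob : ∀ w : HeightOneSpectrum (𝓞 L), (r : 𝓞 L) ∉ w.asIdeal →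
      ((θ (frobAt L M w) : (ZMod r)ˣ) : ZMod r) = (Ideal.absNorm w.asIdeal : ZMod r) :=
    fun w hw => dshcr_autToPow_frobAt hζ w hw
  have hc'θ : θ c' = -1 := by rw [hθ, hc', hc2]
  obtain ⟨C₁, hC₁⟩ := dsh_cyc r hr2 B' hrB' hB'L θ hθinj hfrob c' hc'θ g'
  obtain ⟨C₂, hC₂0, hC₂⟩ := dshcr_DN_change_B K E B B' hBB' r
  refine ⟨C₁ + (Module.finrank K E : ℝ) * ((r : ℝ) - 1) * C₂, fun s hs1 hs2 => ?_⟩
  -- the sums over `L` in terms of the sums over `K`
  have hc'ne : c' ≠ 1 := by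
    intro h
    rw [h, map_one] at hc'θ
    exact dshcr_neg_one_ne_one hr2 hc'θ.symm
  have key : ∀ g₀' : M ≃ₐ[L] M, dshDS L M B' {h | h = g₀' ∨ h = g₀' * c'} s =
      (Module.finrank K L : ℝ) * dshDN K E B' r
        (AlgEquiv.restrictNormalHom E (g₀'.restrictScalars K))
        ((hζ.autToPow K (g₀'.restrictScalars K) : (ZMod r)ˣ) : ZMod r) s := by
    intro g₀'
    have hne : g₀' ≠ g₀' * c' := by
      intro h
      apply hc'ne
      have := mul_left_cancel (a := g₀') (b := 1) (c := c') (by rw [mul_one]; exact h)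
      exact this.symm
    have hmul : (g₀' * c').restrictScalars K = g₀'.restrictScalars K * c := by
      rw [← hc']
      rfl
    rw [dshcr_DS_pair L M B' g₀' (g₀' * c') hne hs1, ← dsh_fibre hcommM B' hB'K L g₀' hs1,
      ← dsh_fibre hcommM B' hB'K L (g₀' * c') hs1, ← mul_add, hmul,
      dshcr_D_pair_eq_DN hζ hr2 hinj hcommM B' hrB' hB'K c hc1 hc2 _ hs1]
  have hinv : (g'⁻¹).restrictScalars K = g⁻¹ := by
    rw [← hg']
    rfl
  have h1 := hC₁ s hs1 hs2
  rw [key g', key g'⁻¹, hg', hinv, hg1, map_inv, map_inv, hg1, hg2, ← mul_add] at h1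
  -- degrees
  have hdeg : (Module.finrank L M : ℝ) * (Module.finrank K L : ℝ) =
      (Module.finrank K E : ℝ) * ((r : ℝ) - 1) := by
    have h2 := Module.finrank_mul_finrank K L M
    have h3 := dshcr_finrank hζ hsurj hinj
    have h4 : 1 ≤ r := (Fact.out : r.Prime).one_lt.le
    rw [mul_comm, ← Nat.cast_mul, h2, h3, Nat.cast_mul, Nat.cast_sub h4, Nat.cast_one]
  -- change of the excluded set
  obtain ⟨h5, h6⟩ := hC₂ σ (a : ZMod r) s hs1 hs2
  obtain ⟨h7, h8⟩ := hC₂ σ⁻¹ ((a⁻¹ : (ZMod r)ˣ) : ZMod r) s hs1 hs2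
  have hF : 0 ≤ (Module.finrank K E : ℝ) * ((r : ℝ) - 1) := by
    rw [← hdeg]
    positivity
  set X' : ℝ := dshDN K E B' r σ (a : ZMod r) s +
    dshDN K E B' r σ⁻¹ ((a⁻¹ : (ZMod r)ˣ) : ZMod r) s with hX'
  set X : ℝ := dshDN K E B r σ (a : ZMod r) s +
    dshDN K E B r σ⁻¹ ((a⁻¹ : (ZMod r)ˣ) : ZMod r) s with hX
  have h9 : (Module.finrank L M : ℝ) / 2 * ((Module.finrank K L : ℝ) * X') =
      (Module.finrank K E : ℝ) * ((r : ℝ) - 1) / 2 * X' := by
    rw [← hdeg]
    ring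
  rw [h9] at h1
  have h10 : X' ≤ X := by rw [hX, hX']; linarith
  have h11 : X ≤ X' + 2 * C₂ := by rw [hX, hX']; linarith
  rw [abs_le] at h1 ⊢
  constructor
  · have := mul_le_mul_of_nonneg_left h10 hF
    have h12 : 0 ≤ (Module.finrank K E : ℝ) * ((r : ℝ) - 1) * C₂ := mul_nonneg hF hC₂0
    nlinarith [h1.1]
  · have := mul_le_mul_of_nonneg_left h11 hF
    nlinarith [h1.2]

end Fermat.Agent.DS
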