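import Fermat.Agent.DS.H.Defs

/-!
# Program DS, package H, row H3c: partition of the places with Frobenius `σ` by the class of
`N(v)` in `(ℤ/r)ˣ/±1`
-/

set_option autoImplicit false

namespace Fermat.Agent.DS

open NumberField IsDedekindDomain Fermat.Agent.S14

private lemma dshdn_neg_ne {r : ℕ} [Fact r.Prime] (hr2 : 2 < r) (u : (ZMod r)ˣ) : u ≠ -u := by
  intro h
  have h1 : ((u : (ZMod r)ˣ) : ZMod r) = -((u : (ZMod r)ˣ) : ZMod r) := by
    conv_lhs => rw [h]
    rw [Units.val_neg]
  have h2 : (2 : ZMod r) * (u : ZMod r) = 0 := by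
    rw [two_mul]
    nth_rewrite 1 [h1]
    exact neg_add_cancel _
  have h3 : (2 : ZMod r) = 0 := by
    rcases mul_eq_zero.1 h2 with h | h
    · exact h
    · exact absurd h u.ne_zero
  have h4 : ((2 : ℕ) : ZMod r) = 0 := by exact_mod_cast h3
  rw [ZMod.natCast_eq_zero_iff] at h4
  have := Nat.le_of_dvd (by norm_num) h4
  omega

private lemma dshdn_card {r : ℕ} [Fact r.Prime] (hr2 : 2 < r) (u : (ZMod r)ˣ) :
    (Finset.univ.filter (fun a : (ZMod r)ˣ => (u : ZMod r) = (a : ZMod r) ∨
      (u : ZMod r) = -(a : ZMod r))).card = 2 := by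
  classical
  have h : Finset.univ.filter (fun a : (ZMod r)ˣ => (u : ZMod r) = (a : ZMod r) ∨
      (u : ZMod r) = -(a : ZMod r)) = {u, -u} := by
    ext a
    simp only [Finset.mem_filter, Finset.mem_univ, true_and, Finset.mem_insert,
      Finset.mem_singleton]
    constructor
    · rintro (h | h)
      · left; exact (Units.ext h).symm
      · right
        apply Units.ext
        rw [Units.val_neg, h, neg_neg]
    · rintro (h | h)
      · left; rw [h]
      · right; rw [h, Units.val_neg, neg_neg]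
  rw [h, Finset.card_pair (dshdn_neg_ne hr2 u)]

/-- (H3c) partition of the places with Frobenius `σ` by the class of `N(v)` in `(ℤ/r)ˣ/±1`
(every class is hit by its two representatives). -/
theorem dsh_DN_sum {K E : Type} [Field K] [NumberField K] [Field E] [NumberField E]
    [Algebra K E] [IsGalois K E] (B : Finset ℕ) (r : ℕ) [Fact r.Prime] (hr2 : 2 < r)
    (hrB : r ∈ B) (σ : E ≃ₐ[K] E) {s : ℝ} (hs : 1 < s) :
    ∑ a : (ZMod r)ˣ, dshDN K E B r σ (a : ZMod r) s = 2 * dshD K E B σ s := by
  classical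
  have hsum : ∀ T : Set (HeightOneSpectrum (𝓞 K)),
      Summable (Set.indicator T (fun v => nvPow K v s)) :=
    fun T => (primeSum_summable K hs).indicator T
  unfold dshDN dshD
  rw [← Summable.tsum_finsetSum (fun a _ => hsum _), ← tsum_mul_left]
  congr 1
  ext v
  by_cases hv : IsGoodPlace K B v ∧ frobAt K E v = σ
  · have hp : (Ideal.absNorm v.asIdeal).Prime := hv.1.1
    have hne : Ideal.absNorm v.asIdeal ≠ r := fun h => hv.1.2 (h ▸ hrB)
    have hcop : Nat.Coprime (Ideal.absNorm v.asIdeal) r :=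
      (Nat.coprime_primes hp (Fact.out : r.Prime)).2 hne
    obtain ⟨u, hu⟩ : ∃ u : (ZMod r)ˣ, (u : ZMod r) = (Ideal.absNorm v.asIdeal : ZMod r) :=
      ⟨ZMod.unitOfCoprime _ hcop, ZMod.coe_unitOfCoprime _ hcop⟩
    rw [Set.indicator_of_mem (show v ∈ {v | IsGoodPlace K B v ∧ frobAt K E v = σ} from hv)]
    have h1 : ∀ a : (ZMod r)ˣ,
        Set.indicator {v | IsGoodPlace K B v ∧ frobAt K E v = σ ∧
          ((Ideal.absNorm v.asIdeal : ZMod r) = (a : ZMod r) ∨
            (Ideal.absNorm v.asIdeal : ZMod r) = -(a : ZMod r))} (fun v => nvPow K v s) v =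
        if ((u : ZMod r) = (a : ZMod r) ∨ (u : ZMod r) = -(a : ZMod r)) then nvPow K v s
          else 0 := by
      intro a
      rw [hu]
      by_cases ha : ((Ideal.absNorm v.asIdeal : ZMod r) = (a : ZMod r) ∨
            (Ideal.absNorm v.asIdeal : ZMod r) = -(a : ZMod r))
      · rw [if_pos ha, Set.indicator_of_mem]
        exact ⟨hv.1, hv.2, ha⟩
      · rw [if_neg ha, Set.indicator_of_notMem]
        exact fun h => ha h.2.2
    rw [Finset.sum_congr rfl (fun a _ => h1 a), ← Finset.sum_filter, Finset.sum_const,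
      dshdn_card hr2 u, nsmul_eq_mul]
    norm_num
  · rw [Set.indicator_of_notMem (show v ∉ {v | IsGoodPlace K B v ∧ frobAt K E v = σ} from hv),
      mul_zero]
    refine Finset.sum_eq_zero (fun a _ => ?_)
    rw [Set.indicator_of_notMem]
    exact fun h => hv ⟨h.1, h.2.1⟩

end Fermat.Agent.DS
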