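import Mathlib

/-!
# Program DS, package H, row H3a: a prime `r` such that all but an `ε`-proportion of the elements
of `(ℤ/r)ˣ/±1` have order divisible by `f`
-/

set_option autoImplicit false

namespace Fermat.Agent.DS

/-- valuation step. -/
private lemma dshep_dvd_step {p j k d e : ℕ} (hp : p.Prime) (hde : d * e ≠ 0)
    (h1 : p ^ (j + k) ∣ d * e) (h2 : ¬ p ^ j ∣ d) : p ^ (k + 1) ∣ e := by
  have := Fact.mk hp
  have hd : d ≠ 0 := left_ne_zero_of_mul hde
  have he : e ≠ 0 := right_ne_zero_of_mul hde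
  rw [padicValNat_dvd_iff_le hde, padicValNat.mul hd he] at h1
  rw [padicValNat_dvd_iff_le hd] at h2
  rw [padicValNat_dvd_iff_le he]
  omega

/-- an element whose class has order not divisible by `f` is killed by a small exponent. -/
private lemma dshep_bad {G : Type} [Group G] [Fintype G] (H : Subgroup G) [H.Normal]
    (hH : ∀ h ∈ H, h ^ 2 = 1) (f k : ℕ) (hf : 0 < f) (hfk : f ^ (k + 1) ∣ Fintype.card G) (a : G)
    (ha : ¬ f ∣ orderOf (QuotientGroup.mk a : G ⧸ H)) :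
    ∃ p ∈ f.primeFactors, a ^ (2 * (Fintype.card G / p ^ (k + 1))) = 1 := by
  have hdn : orderOf (QuotientGroup.mk a : G ⧸ H) ∣ Fintype.card G := by
    apply orderOf_dvd_of_pow_eq_one
    rw [← QuotientGroup.mk_pow, pow_card_eq_one, QuotientGroup.mk_one]
  obtain ⟨e, he⟩ := hdn
  rw [Nat.dvd_iff_prime_pow_dvd_dvd] at ha
  push Not at ha
  obtain ⟨p, j, hp, hpjf, hpjd⟩ := ha
  have hj : j ≠ 0 := by
    rintro rfl
    simp at hpjd
  have hpf : p ∣ f := dvd_trans (dvd_pow_self p hj) hpjf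
  refine ⟨p, Nat.mem_primeFactors.2 ⟨hp, hpf, hf.ne'⟩, ?_⟩
  have hn0 : Fintype.card G ≠ 0 := Fintype.card_ne_zero
  have h1 : p ^ (j + k) ∣ orderOf (QuotientGroup.mk a : G ⧸ H) * e := by
    rw [← he]
    refine dvd_trans ?_ hfk
    rw [pow_add, pow_succ']
    exact mul_dvd_mul hpjf (pow_dvd_pow_of_dvd hpf k)
  have h2 : p ^ (k + 1) ∣ e := dshep_dvd_step hp (he ▸ hn0) h1 hpjd
  obtain ⟨e', he'⟩ := h2
  have h3 : Fintype.card G / p ^ (k + 1) = orderOf (QuotientGroup.mk a : G ⧸ H) * e' := by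
    rw [he, he', ← mul_assoc, mul_comm (orderOf _), mul_assoc,
      Nat.mul_div_cancel_left _ (pow_pos hp.pos _)]
  have h4 : (QuotientGroup.mk a : G ⧸ H) ^ (Fintype.card G / p ^ (k + 1)) = 1 := by
    rw [h3, pow_mul, pow_orderOf_eq_one, one_pow]
  rw [← QuotientGroup.mk_pow, QuotientGroup.eq_one_iff] at h4
  rw [mul_comm, pow_mul]
  exact hH _ h4

/-- the count of the bad elements in a finite cyclic group. -/
private lemma dshep_count {G : Type} [CommGroup G] [Fintype G] [IsCyclic G] [DecidableEq G]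
    (H : Subgroup G)
    (hH : ∀ h ∈ H, h ^ 2 = 1) (f k : ℕ) (hf : 0 < f) (hfk : f ^ (k + 1) ∣ Fintype.card G)
    [DecidablePred fun a : G => f ∣ orderOf (QuotientGroup.mk a : G ⧸ H)] :
    ((Finset.univ.filter (fun a : G => ¬ f ∣ orderOf (QuotientGroup.mk a : G ⧸ H))).card : ℝ) ≤
      (f : ℝ) * (Fintype.card G : ℝ) / 2 ^ k := by
  have hn0 : 0 < Fintype.card G := Fintype.card_pos
  have hsub : Finset.univ.filter (fun a : G => ¬ f ∣ orderOf (QuotientGroup.mk a : G ⧸ H)) ⊆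
      f.primeFactors.biUnion (fun p => Finset.univ.filter
        (fun a : G => a ^ (2 * (Fintype.card G / p ^ (k + 1))) = 1)) := by
    intro a ha
    rw [Finset.mem_filter] at ha
    obtain ⟨p, hp, hpa⟩ := dshep_bad H hH f k hf hfk a ha.2
    exact Finset.mem_biUnion.2 ⟨p, hp, Finset.mem_filter.2 ⟨Finset.mem_univ _, hpa⟩⟩
  have hterm : ∀ p ∈ f.primeFactors, ((Finset.univ.filter
        (fun a : G => a ^ (2 * (Fintype.card G / p ^ (k + 1))) = 1)).card : ℝ) ≤
      (Fintype.card G : ℝ) / 2 ^ k := by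
    intro p hp
    have hpp : p.Prime := (Nat.mem_primeFactors.1 hp).1
    have hpf : p ∣ f := (Nat.mem_primeFactors.1 hp).2.1
    have hdvd : p ^ (k + 1) ∣ Fintype.card G :=
      dvd_trans (pow_dvd_pow_of_dvd hpf (k + 1)) hfk
    have hpos : 0 < 2 * (Fintype.card G / p ^ (k + 1)) := by
      have := Nat.div_pos (Nat.le_of_dvd hn0 hdvd) (pow_pos hpp.pos _)
      omega
    have h1 := IsCyclic.card_pow_eq_one_le (α := G) hpos
    have h2 : ((2 * (Fintype.card G / p ^ (k + 1)) : ℕ) : ℝ) ≤ (Fintype.card G : ℝ) / 2 ^ k := by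
      rw [Nat.cast_mul, Nat.cast_div hdvd (by exact_mod_cast (pow_pos hpp.pos _).ne')]
      have hp2 : (2 : ℝ) ^ (k + 1) ≤ ((p ^ (k + 1) : ℕ) : ℝ) := by
        rw [Nat.cast_pow]
        exact pow_le_pow_left₀ (by norm_num) (by exact_mod_cast hpp.two_le) _
      have hc : (0 : ℝ) ≤ (Fintype.card G : ℝ) := Nat.cast_nonneg _
      calc ((2 : ℕ) : ℝ) * ((Fintype.card G : ℝ) / ((p ^ (k + 1) : ℕ) : ℝ))
          ≤ ((2 : ℕ) : ℝ) * ((Fintype.card G : ℝ) / (2 : ℝ) ^ (k + 1)) := by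
            apply mul_le_mul_of_nonneg_left _ (by norm_num)
            exact div_le_div_of_nonneg_left hc (by positivity) hp2
        _ = (Fintype.card G : ℝ) / 2 ^ k := by
            rw [pow_succ, Nat.cast_ofNat]
            field_simp
    exact le_trans (by exact_mod_cast h1) h2
  calc ((Finset.univ.filter
          (fun a : G => ¬ f ∣ orderOf (QuotientGroup.mk a : G ⧸ H))).card : ℝ)
      ≤ ((f.primeFactors.biUnion (fun p => Finset.univ.filter
        (fun a : G => a ^ (2 * (Fintype.card G / p ^ (k + 1))) = 1))).card : ℝ) := by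
        exact_mod_cast Finset.card_le_card hsub
    _ ≤ ((∑ p ∈ f.primeFactors, (Finset.univ.filter
        (fun a : G => a ^ (2 * (Fintype.card G / p ^ (k + 1))) = 1)).card : ℕ) : ℝ) := by
        exact_mod_cast Finset.card_biUnion_le
    _ = ∑ p ∈ f.primeFactors, ((Finset.univ.filter
        (fun a : G => a ^ (2 * (Fintype.card G / p ^ (k + 1))) = 1)).card : ℝ) := by
        rw [Nat.cast_sum]
    _ ≤ ∑ _p ∈ f.primeFactors, (Fintype.card G : ℝ) / 2 ^ k := Finset.sum_le_sum hterm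
    _ = (f.primeFactors.card : ℝ) * ((Fintype.card G : ℝ) / 2 ^ k) := by
        rw [Finset.sum_const, nsmul_eq_mul]
    _ ≤ (f : ℝ) * ((Fintype.card G : ℝ) / 2 ^ k) := by
        apply mul_le_mul_of_nonneg_right _ (by positivity)
        have : f.primeFactors.card ≤ f := by
          calc f.primeFactors.card ≤ (Finset.range (f + 1)).card - 1 := by
                have hs : f.primeFactors ⊆ (Finset.range (f + 1)).erase 0 := by
                  intro p hp
                  have hpp := (Nat.mem_primeFactors.1 hp)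
                  rw [Finset.mem_erase, Finset.mem_range]
                  exact ⟨hpp.1.pos.ne', Nat.lt_succ_of_le (Nat.le_of_dvd hf hpp.2.1)⟩
                have := Finset.card_le_card hs
                rwa [Finset.card_erase_of_mem (Finset.mem_range.2 (Nat.succ_pos f))] at this
            _ = f := by rw [Finset.card_range]; rfl
        exact_mod_cast this
    _ = (f : ℝ) * (Fintype.card G : ℝ) / 2 ^ k := by ring

/-- (H3a) Dirichlet + cyclic groups: a prime `r ∉ B` such that all but an `ε`-proportion of the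
elements of `(ℤ/r)ˣ/±1` have order divisible by `f`. -/
theorem dsh_exists_prime (f : ℕ) (hf : 0 < f) (B : Finset ℕ) (ε : ℝ) (hε : 0 < ε) :
    ∃ r : ℕ, r.Prime ∧ r ∉ B ∧ 2 < r ∧
      (1 - ε) * ((r : ℝ) - 1) ≤
        (Nat.card {a : (ZMod r)ˣ // f ∣ orderOf
          (QuotientGroup.mk a : (ZMod r)ˣ ⧸ Subgroup.zpowers (-1 : (ZMod r)ˣ))} : ℝ) := by
  classical
  obtain ⟨k, hk⟩ : ∃ k : ℕ, (f : ℝ) / ε < 2 ^ k := pow_unbounded_of_one_lt _ one_lt_two
  have hq : NeZero (f ^ (k + 1)) := ⟨(pow_pos hf _).ne'⟩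
  obtain ⟨r, hrgt, hrp, hrmod⟩ := Nat.forall_exists_prime_gt_and_eq_mod
    (q := f ^ (k + 1)) (a := 1) isUnit_one (B.sup id + 2)
  have hfact : Fact r.Prime := ⟨hrp⟩
  have hr2 : 2 < r := by omega
  have hrB : r ∉ B := by
    intro h
    have : r ≤ B.sup id := Finset.le_sup (f := id) h
    omega
  refine ⟨r, hrp, hrB, hr2, ?_⟩
  have hcard : Fintype.card (ZMod r)ˣ = r - 1 := ZMod.card_units r
  have hfk : f ^ (k + 1) ∣ Fintype.card (ZMod r)ˣ := by
    rw [hcard]
    have h1 : ((r : ℕ) : ZMod (f ^ (k + 1))) = ((1 : ℕ) : ZMod (f ^ (k + 1))) := by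
      rw [hrmod, Nat.cast_one]
    rw [ZMod.natCast_eq_natCast_iff] at h1
    exact (Nat.modEq_iff_dvd' (by omega)).1 h1.symm
  have hH : ∀ h ∈ Subgroup.zpowers (-1 : (ZMod r)ˣ), h ^ 2 = 1 := by
    intro h hh
    obtain ⟨n, rfl⟩ := Subgroup.mem_zpowers_iff.1 hh
    rw [← zpow_natCast, ← zpow_mul, mul_comm, zpow_mul, zpow_natCast, neg_one_sq, one_zpow]
  have hbad := dshep_count (Subgroup.zpowers (-1 : (ZMod r)ˣ)) hH f k hf hfk
  have hsplit := Finset.card_filter_add_card_filter_not (s := (Finset.univ : Finset (ZMod r)ˣ))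
    (fun a : (ZMod r)ˣ => f ∣ orderOf
      (QuotientGroup.mk a : (ZMod r)ˣ ⧸ Subgroup.zpowers (-1 : (ZMod r)ˣ)))
  rw [Finset.card_univ] at hsplit
  rw [Nat.card_eq_fintype_card, Fintype.card_subtype]
  have hsplitR : ((Finset.univ.filter (fun a : (ZMod r)ˣ => f ∣ orderOf
      (QuotientGroup.mk a : (ZMod r)ˣ ⧸ Subgroup.zpowers (-1 : (ZMod r)ˣ)))).card : ℝ) +
      ((Finset.univ.filter (fun a : (ZMod r)ˣ => ¬ f ∣ orderOf
      (QuotientGroup.mk a : (ZMod r)ˣ ⧸ Subgroup.zpowers (-1 : (ZMod r)ˣ)))).card : ℝ) =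
      (Fintype.card (ZMod r)ˣ : ℝ) := by
    exact_mod_cast hsplit
  have hn : (Fintype.card (ZMod r)ˣ : ℝ) = (r : ℝ) - 1 := by
    rw [hcard, Nat.cast_sub (by omega), Nat.cast_one]
  have hnpos : (0 : ℝ) ≤ (r : ℝ) - 1 := by
    rw [← hn]; positivity
  have hfe : (f : ℝ) / 2 ^ k ≤ ε := by
    rw [div_le_iff₀ (by positivity)]
    rw [div_lt_iff₀ hε] at hk
    linarith
  have hb2 : (f : ℝ) * (Fintype.card (ZMod r)ˣ : ℝ) / 2 ^ k ≤ ε * ((r : ℝ) - 1) := by
    rw [hn, mul_div_right_comm]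
    exact mul_le_mul_of_nonneg_right hfe hnpos
  rw [hn] at hsplitR
  nlinarith [hbad, hb2, hsplitR]

end Fermat.Agent.DS
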