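import Fermat.Agent.DS.H.Book
import Fermat.Agent.DS.H.ExistsPrime
import Fermat.Agent.DS.H.DNSum
import Fermat.Agent.DS.H.Cross
import Fermat.Agent.S14.NormDiv

/-!
# Program DS, package H, row H3: the abelian case, lower bound

`dsh_abelian_lower` VERBATIM as in `DS/H/Spec.lean`, from the black boxes H3a `dsh_exists_prime`,
H3c `dsh_DN_sum`, H3d `dsh_cross` and the bookkeeping of H0.  Private prefix `dshal_`.
-/

set_option autoImplicit false

namespace Fermat.Agent.DS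

open NumberField IsDedekindDomain Fermat.Agent.S14

theorem dshal_log_nonneg {s : ℝ} (hs1 : 1 < s) (hs2 : s < 2) : 0 ≤ Real.log (1 / (s - 1)) := by
  apply Real.log_nonneg
  rw [le_div_iff₀ (by linarith)]
  linarith

section

variable (K E : Type) [Field K] [NumberField K] [Field E] [NumberField E] [Algebra K E]
  [IsGalois K E]

theorem dshal_D_nonneg (B : Finset ℕ) (g : E ≃ₐ[K] E) (s : ℝ) : 0 ≤ dshD K E B g s :=
  dshbk_tsum_indicator_nonneg K _ s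

theorem dshal_DN_nonneg (B : Finset ℕ) (r : ℕ) (g : E ≃ₐ[K] E) (a : ZMod r) (s : ℝ) :
    0 ≤ dshDN K E B r g a s :=
  dshbk_tsum_indicator_nonneg K _ s

theorem dshal_D_mono {B B' : Finset ℕ} (hBB' : B ⊆ B') (g : E ≃ₐ[K] E) {s : ℝ} (hs : 1 < s) :
    dshD K E B' g s ≤ dshD K E B g s := by
  unfold dshD
  refine dshbk_tsum_indicator_mono K (fun v hv => ?_) hs
  exact ⟨dshbk_isGoodPlace_mono K hBB' hv.1, hv.2⟩

end

/-- **(H3)** abelian case, lower bound with an `O(1)` error (for every `ε`). -/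
theorem dsh_abelian_lower {K E : Type} [Field K] [NumberField K] [Field E] [NumberField E]
    [Algebra K E] [IsGalois K E] (hcomm : ∀ a b : E ≃ₐ[K] E, a * b = b * a) (B : Finset ℕ)
    (hB : ∀ v, IsGoodPlace K B v → IsUnramifiedIn K E v) (σ : E ≃ₐ[K] E) (ε : ℝ) (hε : 0 < ε) :
    ∃ C : ℝ, ∀ s : ℝ, 1 < s → s < 2 →
      (2 - ε) * Real.log (1 / (s - 1)) - C ≤
        (Module.finrank K E : ℝ) * (dshD K E B σ s + dshD K E B σ⁻¹ s) := by
  classical
  have : Finite (E ≃ₐ[K] E) := inferInstance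
  have hf : 0 < orderOf σ := orderOf_pos σ
  obtain ⟨B₀, hB₀⟩ := exists_finset_ramified E
  obtain ⟨r, hr, hrB, hr2, hcount⟩ := dsh_exists_prime (orderOf σ) hf (B ∪ B₀) (ε / 2) (by linarith)
  have : Fact r.Prime := ⟨hr⟩
  have hrB1 : r ∉ B := fun h => hrB (Finset.mem_union_left _ h)
  have hrB0 : r ∉ B₀ := fun h => hrB (Finset.mem_union_right _ h)
  have hrE : ∀ (P : Ideal (𝓞 E)) [P.IsPrime], (r : 𝓞 E) ∈ P → P.ramificationIdx ℤ = 1 :=
    fun P _ hP => hB₀ r hr hrB0 P hP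
  set B' : Finset ℕ := insert r B with hB'def
  have hBB' : B ⊆ B' := Finset.subset_insert _ _
  have hrB' : r ∈ B' := Finset.mem_insert_self _ _
  have hB' : ∀ v, IsGoodPlace K B' v → IsUnramifiedIn K E v :=
    fun v hv => hB v (dshbk_isGoodPlace_mono K hBB' hv)
  -- the good classes
  set Good : Finset (ZMod r)ˣ := Finset.univ.filter (fun a => orderOf σ ∣ orderOf
    (QuotientGroup.mk a : (ZMod r)ˣ ⧸ Subgroup.zpowers (-1 : (ZMod r)ˣ))) with hGood
  have hcardGood : (Nat.card {a : (ZMod r)ˣ // orderOf σ ∣ orderOf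
      (QuotientGroup.mk a : (ZMod r)ˣ ⧸ Subgroup.zpowers (-1 : (ZMod r)ˣ))} : ℝ)
      = (Good.card : ℝ) := by
    rw [Nat.card_eq_fintype_card, Fintype.card_subtype]
  rw [hcardGood] at hcount
  -- the crossing constants
  have hcross : ∀ a ∈ Good, ∃ C : ℝ, ∀ s : ℝ, 1 < s → s < 2 →
      |(Module.finrank K E : ℝ) * ((r : ℝ) - 1) / 2 *
          (dshDN K E B' r σ (a : ZMod r) s +
            dshDN K E B' r σ⁻¹ ((a⁻¹ : (ZMod r)ˣ) : ZMod r) s) -
        2 * Real.log (1 / (s - 1))| ≤ C := by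
    intro a ha
    exact dsh_cross hcomm r hr2 hrE B' hrB' hB' σ a (Finset.mem_filter.mp ha).2
  choose! Ca hCa using hcross
  have hr1 : (0 : ℝ) < (r : ℝ) - 1 := by
    have : (2 : ℝ) < r := by exact_mod_cast hr2
    linarith
  refine ⟨(∑ a ∈ Good, Ca a) / ((r : ℝ) - 1), fun s hs1 hs2 => ?_⟩
  have hL := dshal_log_nonneg hs1 hs2
  set L := Real.log (1 / (s - 1)) with hLdef
  set n : ℝ := (Module.finrank K E : ℝ) with hn
  have hn0 : 0 ≤ n := Nat.cast_nonneg _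
  -- sum of the crossing lower bounds
  have h1 : ∀ a ∈ Good, 2 * L - Ca a ≤ n * ((r : ℝ) - 1) / 2 *
      (dshDN K E B' r σ (a : ZMod r) s +
        dshDN K E B' r σ⁻¹ ((a⁻¹ : (ZMod r)ˣ) : ZMod r) s) := by
    intro a ha
    have := (abs_le.mp (hCa a ha s hs1 hs2)).1
    linarith
  have h2 : (Good.card : ℝ) * (2 * L) - ∑ a ∈ Good, Ca a ≤
      n * ((r : ℝ) - 1) / 2 * ∑ a ∈ Good, (dshDN K E B' r σ (a : ZMod r) s +
        dshDN K E B' r σ⁻¹ ((a⁻¹ : (ZMod r)ˣ) : ZMod r) s) := by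
    rw [Finset.mul_sum]
    calc (Good.card : ℝ) * (2 * L) - ∑ a ∈ Good, Ca a
        = ∑ a ∈ Good, (2 * L - Ca a) := by
          rw [Finset.sum_sub_distrib, Finset.sum_const, nsmul_eq_mul]
      _ ≤ _ := Finset.sum_le_sum h1
  -- the sum over the good classes is at most the sum over all classes
  have h3 : ∑ a ∈ Good, dshDN K E B' r σ (a : ZMod r) s ≤ 2 * dshD K E B' σ s := by
    rw [← dsh_DN_sum B' r hr2 hrB' σ hs1]
    exact Finset.sum_le_sum_of_subset_of_nonneg (Finset.subset_univ _)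
      (fun a _ _ => dshal_DN_nonneg K E B' r σ _ s)
  have h4 : ∑ a ∈ Good, dshDN K E B' r σ⁻¹ ((a⁻¹ : (ZMod r)ˣ) : ZMod r) s
      ≤ 2 * dshD K E B' σ⁻¹ s := by
    rw [← dsh_DN_sum B' r hr2 hrB' σ⁻¹ hs1]
    refine (Finset.sum_le_sum_of_subset_of_nonneg (Finset.subset_univ _)
      (fun a _ _ => dshal_DN_nonneg K E B' r σ⁻¹ _ s)).trans (le_of_eq ?_)
    exact Fintype.sum_equiv (Equiv.inv (ZMod r)ˣ) _ _ (fun a => rfl)
  have h5 : (Good.card : ℝ) * (2 * L) - ∑ a ∈ Good, Ca a ≤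
      n * ((r : ℝ) - 1) * (dshD K E B' σ s + dshD K E B' σ⁻¹ s) := by
    refine h2.trans ?_
    rw [Finset.sum_add_distrib]
    have hc : 0 ≤ n * ((r : ℝ) - 1) / 2 := by positivity
    calc n * ((r : ℝ) - 1) / 2 * (∑ a ∈ Good, dshDN K E B' r σ (a : ZMod r) s +
          ∑ a ∈ Good, dshDN K E B' r σ⁻¹ ((a⁻¹ : (ZMod r)ˣ) : ZMod r) s)
        ≤ n * ((r : ℝ) - 1) / 2 * (2 * dshD K E B' σ s + 2 * dshD K E B' σ⁻¹ s) :=
          mul_le_mul_of_nonneg_left (add_le_add h3 h4) hc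
      _ = _ := by ring
  have h6 : dshD K E B' σ s + dshD K E B' σ⁻¹ s ≤ dshD K E B σ s + dshD K E B σ⁻¹ s :=
    add_le_add (dshal_D_mono K E hBB' σ hs1) (dshal_D_mono K E hBB' σ⁻¹ hs1)
  have h7 : (1 - ε / 2) * ((r : ℝ) - 1) * (2 * L) ≤ (Good.card : ℝ) * (2 * L) :=
    mul_le_mul_of_nonneg_right hcount (by linarith)
  have h8 : n * ((r : ℝ) - 1) * (dshD K E B' σ s + dshD K E B' σ⁻¹ s) ≤
      n * ((r : ℝ) - 1) * (dshD K E B σ s + dshD K E B σ⁻¹ s) :=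
    mul_le_mul_of_nonneg_left h6 (by positivity)
  -- divide by `r - 1`
  have h9 : ((2 - ε) * L - (∑ a ∈ Good, Ca a) / ((r : ℝ) - 1)) * ((r : ℝ) - 1) ≤
      (n * (dshD K E B σ s + dshD K E B σ⁻¹ s)) * ((r : ℝ) - 1) := by
    have e1 : ((2 - ε) * L - (∑ a ∈ Good, Ca a) / ((r : ℝ) - 1)) * ((r : ℝ) - 1)
        = (1 - ε / 2) * ((r : ℝ) - 1) * (2 * L) - ∑ a ∈ Good, Ca a := by
      field_simp
    rw [e1]
    linarith
  exact le_of_mul_le_mul_right h9 hr1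

end Fermat.Agent.DS
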