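import Fermat.Agent.DS.H.Defs

/-!
# Program DS, package H, row H0: bookkeeping for the prime sums

`dsh_change_B`, `dsh_DS_eq_sum`, `dsh_total` VERBATIM as in `DS/H/Spec.lean`, together with a few
small helper lemmas (prefix `dshbk_`).
-/

set_option autoImplicit false

namespace Fermat.Agent.DS

open NumberField IsDedekindDomain Fermat.Agent.S14

section

variable (K L : Type) [Field K] [NumberField K] [Field L] [NumberField L] [Algebra K L]
  [IsGalois K L]

/-- Every indicator sum of `nvPow` is summable for `s > 1`. -/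
theorem dshbk_summable_indicator (A : Set (HeightOneSpectrum (𝓞 K))) {s : ℝ} (hs : 1 < s) :
    Summable fun v : HeightOneSpectrum (𝓞 K) => Set.indicator A (fun v => nvPow K v s) v :=
  (primeSum_summable K hs).indicator A

/-- Indicator sums of `nvPow` are monotone in the set. -/
theorem dshbk_tsum_indicator_mono {A A' : Set (HeightOneSpectrum (𝓞 K))} (h : A ⊆ A') {s : ℝ}
    (hs : 1 < s) :
    (∑' v : HeightOneSpectrum (𝓞 K), Set.indicator A (fun v => nvPow K v s) v) ≤
      ∑' v : HeightOneSpectrum (𝓞 K), Set.indicator A' (fun v => nvPow K v s) v := by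
  refine Summable.tsum_le_tsum (fun v => ?_) (dshbk_summable_indicator K A hs)
    (dshbk_summable_indicator K A' hs)
  exact Set.indicator_le_indicator_of_subset h (fun v => dens_nvPow_nonneg K v s) v

/-- Indicator sums of `nvPow` are nonnegative. -/
theorem dshbk_tsum_indicator_nonneg (A : Set (HeightOneSpectrum (𝓞 K))) (s : ℝ) :
    0 ≤ ∑' v : HeightOneSpectrum (𝓞 K), Set.indicator A (fun v => nvPow K v s) v :=
  tsum_nonneg fun v => Set.indicator_nonneg (fun v _ => dens_nvPow_nonneg K v s) v

/-- The sum over `A` is at most the sum over `A'` plus the sum over the places in `A` that are not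
in `A'`. -/
theorem dshbk_tsum_indicator_le_add {A A' D : Set (HeightOneSpectrum (𝓞 K))}
    (h : A ⊆ A' ∪ D) {s : ℝ} (hs : 1 < s) :
    (∑' v : HeightOneSpectrum (𝓞 K), Set.indicator A (fun v => nvPow K v s) v) ≤
      (∑' v : HeightOneSpectrum (𝓞 K), Set.indicator A' (fun v => nvPow K v s) v) +
        ∑' v : HeightOneSpectrum (𝓞 K), Set.indicator D (fun v => nvPow K v s) v := by
  rw [← (dshbk_summable_indicator K A' hs).tsum_add (dshbk_summable_indicator K D hs)]
  refine Summable.tsum_le_tsum (fun v => ?_) (dshbk_summable_indicator K A hs)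
    ((dshbk_summable_indicator K A' hs).add (dshbk_summable_indicator K D hs))
  have h0 := dens_nvPow_nonneg K v s
  by_cases hv : v ∈ A
  · rw [Set.indicator_of_mem hv]
    rcases h hv with h1 | h1
    · rw [Set.indicator_of_mem h1]
      have := Set.indicator_nonneg (s := D) (fun v _ => dens_nvPow_nonneg K v s) v
      linarith
    · rw [Set.indicator_of_mem h1]
      have := Set.indicator_nonneg (s := A') (fun v _ => dens_nvPow_nonneg K v s) v
      linarith
  · rw [Set.indicator_of_notMem hv]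
    have h1 := Set.indicator_nonneg (s := D) (fun v _ => dens_nvPow_nonneg K v s) v
    have h2 := Set.indicator_nonneg (s := A') (fun v _ => dens_nvPow_nonneg K v s) v
    linarith

theorem dshbk_isGoodPlace_mono {B B' : Finset ℕ} (hBB' : B ⊆ B') {v : HeightOneSpectrum (𝓞 K)}
    (hv : IsGoodPlace K B' v) : IsGoodPlace K B v :=
  ⟨hv.1, fun h => hv.2 (hBB' h)⟩

end

/-- (H0a) enlarging the excluded set `B` changes the sums by `O(1)`. -/
theorem dsh_change_B {K L : Type} [Field K] [NumberField K] [Field L] [NumberField L]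
    [Algebra K L] [IsGalois K L] (B B' : Finset ℕ) (hBB' : B ⊆ B') :
    ∃ C : ℝ, ∀ (S : Set (L ≃ₐ[K] L)) (s : ℝ), 1 < s → s < 2 →
      dshDS K L B' S s ≤ dshDS K L B S s ∧ dshDS K L B S s ≤ dshDS K L B' S s + C := by
  obtain ⟨M, hM⟩ := primeSum_not_good_le K B'
  refine ⟨M, fun S s hs1 hs2 => ⟨?_, ?_⟩⟩
  · unfold dshDS
    refine dshbk_tsum_indicator_mono K (fun v hv => ?_) hs1
    exact ⟨dshbk_isGoodPlace_mono K hBB' hv.1, hv.2⟩
  · unfold dshDS
    refine (dshbk_tsum_indicator_le_add K (D := {v | ¬ IsGoodPlace K B' v}) (fun v hv => ?_)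
      hs1).trans (add_le_add_right (hM s hs1 hs2) _)
    by_cases h : IsGoodPlace K B' v
    · exact Or.inl ⟨h, hv.2⟩
    · exact Or.inr h

/-- (H0b) finite additivity. -/
theorem dsh_DS_eq_sum {K L : Type} [Field K] [NumberField K] [Field L] [NumberField L]
    [Algebra K L] [IsGalois K L] (B : Finset ℕ) (S : Set (L ≃ₐ[K] L)) {s : ℝ} (hs : 1 < s) :
    dshDS K L B S s = ∑ᶠ g : S, dshD K L B g.1 s := by
  classical
  haveI : Finite (L ≃ₐ[K] L) := inferInstance
  haveI : Fintype S := Fintype.ofFinite S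
  rw [finsum_eq_sum_of_fintype]
  unfold dshDS dshD
  rw [← Summable.tsum_finsetSum (fun g _ => dshbk_summable_indicator K _ hs)]
  refine tsum_congr fun v => ?_
  by_cases hv : IsGoodPlace K B v ∧ frobAt K L v ∈ S
  · rw [Set.indicator_of_mem (show v ∈ {v | IsGoodPlace K B v ∧ frobAt K L v ∈ S} from hv)]
    rw [Finset.sum_eq_single (⟨frobAt K L v, hv.2⟩ : S)]
    · rw [Set.indicator_of_mem]
      exact ⟨hv.1, rfl⟩
    · intro g _ hne
      refine Set.indicator_of_notMem ?_ _
      rintro ⟨_, h⟩
      exact hne (Subtype.ext h.symm)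
    · intro h
      exact absurd (Finset.mem_univ _) h
  · rw [Set.indicator_of_notMem (show v ∉ {v | IsGoodPlace K B v ∧ frobAt K L v ∈ S} from hv)]
    symm
    refine Finset.sum_eq_zero fun g _ => ?_
    refine Set.indicator_of_notMem ?_ _
    rintro ⟨h1, h2⟩
    exact hv ⟨h1, h2 ▸ g.2⟩

/-- (H0c) total mass: `∑_{v good} N(v)^(-s) = log (1/(s-1)) + O(1)`. -/
theorem dsh_total {K L : Type} [Field K] [NumberField K] [Field L] [NumberField L]
    [Algebra K L] [IsGalois K L] (B : Finset ℕ) :
    ∃ C : ℝ, ∀ s : ℝ, 1 < s → s < 2 →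
      |dshDS K L B Set.univ s - Real.log (1 / (s - 1))| ≤ C := by
  obtain ⟨M1, hM1⟩ := primeSum_sub_log_bounded K
  obtain ⟨M2, hM2⟩ := primeSum_not_good_le K B
  refine ⟨M1 + M2, fun s hs1 hs2 => ?_⟩
  have h1 := hM1 s hs1 hs2
  have h2 := hM2 s hs1 hs2
  have h3 : (∑' v : HeightOneSpectrum (𝓞 K), nvPow K v s) =
      dshDS K L B Set.univ s + ∑' v : HeightOneSpectrum (𝓞 K),
        Set.indicator {v | ¬ IsGoodPlace K B v} (fun v => nvPow K v s) v := by
    unfold dshDS
    rw [← (dshbk_summable_indicator K _ hs1).tsum_add (dshbk_summable_indicator K _ hs1)]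
    refine tsum_congr fun v => ?_
    by_cases hv : IsGoodPlace K B v
    · rw [Set.indicator_of_mem (show v ∈ {v | IsGoodPlace K B v ∧ frobAt K L v ∈ Set.univ} from
        ⟨hv, Set.mem_univ _⟩), Set.indicator_of_notMem (show v ∉ {v | ¬ IsGoodPlace K B v} from
        fun h => h hv), add_zero]
    · rw [Set.indicator_of_notMem (show v ∉ {v | IsGoodPlace K B v ∧ frobAt K L v ∈ Set.univ}
        from fun h => hv h.1), Set.indicator_of_mem (show v ∈ {v | ¬ IsGoodPlace K B v} from hv),
        zero_add]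
  have h4 := dshbk_tsum_indicator_nonneg K {v | ¬ IsGoodPlace K B v} s
  rw [h3] at h1
  rw [abs_le] at h1 ⊢
  constructor <;> linarith [h1.1, h1.2]

end Fermat.Agent.DS
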