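import Mathlib

/-!
# Program DS, package H, row H2c: orthogonality of the cosines of the characters of `ℤ/e`
-/

set_option autoImplicit false

namespace Fermat.Agent.DS

open Complex in
private theorem dshco_cos_eq {e : ℕ} [NeZero e] (x : ZMod e) :
    Real.cos (2 * Real.pi * (x.val : ℝ) / e) = (ZMod.stdAddChar x).re := by
  rw [ZMod.stdAddChar_apply, ZMod.toCircle_apply]
  have h : (2 * (Real.pi : ℂ) * I * (x.val : ℂ) / (e : ℂ)) =
      ((2 * Real.pi * (x.val : ℝ) / e : ℝ) : ℂ) * I := by
    push_cast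
    ring
  rw [h, Complex.exp_ofReal_mul_I_re]

private theorem dshco_re_mul_re (z w : ℂ) :
    z.re * w.re = ((z * (starRingEnd ℂ) w).re + (z * w).re) / 2 := by
  simp only [Complex.mul_re, Complex.conj_re, Complex.conj_im]
  ring

private theorem dshco_sum_re {e : ℕ} [NeZero e] (c : ZMod e) :
    ∑ k : ZMod e, (ZMod.stdAddChar (k * c)).re = if c = 0 then (e : ℝ) else 0 := by
  have h := AddChar.sum_mulShift (R := ZMod e) (R' := ℂ) c (ZMod.isPrimitive_stdAddChar e)
  have h2 : (∑ k : ZMod e, ZMod.stdAddChar (k * c)).re =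
      ∑ k : ZMod e, (ZMod.stdAddChar (k * c)).re := Complex.re_sum _ _
  rw [← h2, h]
  split_ifs
  · rw [ZMod.card]
    simp
  · simp

/-- (H2c) orthogonality of the cosines of the characters of a finite cyclic group. -/
theorem dsh_cos_orthogonality {e : ℕ} [NeZero e] (a b : ZMod e) :
    ∑ k : ZMod e, Real.cos (2 * Real.pi * ((k * a).val : ℝ) / e) *
        Real.cos (2 * Real.pi * ((k * b).val : ℝ) / e) =
      (e : ℝ) / 2 * ((if b = a then 1 else 0) + (if b = -a then 1 else 0)) := by
  have h1 : ∀ k : ZMod e, Real.cos (2 * Real.pi * ((k * a).val : ℝ) / e) *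
      Real.cos (2 * Real.pi * ((k * b).val : ℝ) / e) =
      ((ZMod.stdAddChar (k * (a - b))).re + (ZMod.stdAddChar (k * (a + b))).re) / 2 := by
    intro k
    rw [dshco_cos_eq, dshco_cos_eq, dshco_re_mul_re, ← AddChar.map_neg_eq_conj,
      ← AddChar.map_add_eq_mul, ← AddChar.map_add_eq_mul]
    congr 3 <;> ring_nf
  rw [Finset.sum_congr rfl fun k _ => h1 k, ← Finset.sum_div, Finset.sum_add_distrib,
    dshco_sum_re, dshco_sum_re]
  have e1 : (a - b = 0) ↔ (b = a) := by rw [sub_eq_zero, eq_comm]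
  have e2 : (a + b = 0) ↔ (b = -a) := by rw [add_comm, add_eq_zero_iff_eq_neg]
  simp only [e1, e2]
  split_ifs <;> ring

end Fermat.Agent.DS
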