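import Mathlib

/-!
# Program DS, package H, row H3d: the group lemma of the crossing

`Γ` abelian with two homomorphisms `res : Γ → G₁`, `χ : Γ → (ℤ/r)ˣ` which are jointly injective,
`c ∈ Γ` with `(res c, χ c) = (1, -1)`, `g ∈ Γ` with `ord (res g) ∣ ord (χ g mod ±1)`.  Then `χ` is
injective on `Z = ⟨g, c⟩`.
-/

set_option autoImplicit false

namespace Fermat.Agent.DS

/-- the group lemma of the crossing: `χ` is injective on `⟨g, c⟩` -/
theorem dshcr_group {Γ G₁ : Type*} [Group Γ] [Group G₁] (hcomm : ∀ x y : Γ, x * y = y * x)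
    {r : ℕ} (res : Γ →* G₁) (χ : Γ →* (ZMod r)ˣ)
    (hinj : ∀ x : Γ, res x = 1 → χ x = 1 → x = 1)
    (g c : Γ) (hc1 : res c = 1) (hc2 : χ c = -1)
    (hord : orderOf (res g) ∣ orderOf
      (QuotientGroup.mk (χ g) : (ZMod r)ˣ ⧸ Subgroup.zpowers (-1 : (ZMod r)ˣ)))
    (h : Γ) (hh : h ∈ Subgroup.closure {g, c}) (hχ : χ h = 1) : h = 1 := by
  let _ : CommGroup Γ := { (inferInstance : Group Γ) with mul_comm := hcomm }
  obtain ⟨m, n, rfl⟩ := Subgroup.mem_closure_pair.mp hh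
  rw [map_mul, map_zpow, map_zpow, hc2] at hχ
  -- `(χ g)^m ∈ ⟨-1⟩`
  have h1 : (QuotientGroup.mk (χ g) : (ZMod r)ˣ ⧸ Subgroup.zpowers (-1 : (ZMod r)ˣ)) ^ m = 1 := by
    rw [← QuotientGroup.mk_zpow, QuotientGroup.eq_one_iff]
    have : χ g ^ m = ((-1 : (ZMod r)ˣ) ^ n)⁻¹ := eq_inv_of_mul_eq_one_left hχ
    rw [this]
    exact Subgroup.inv_mem _ (Subgroup.zpow_mem_zpowers _ n)
  have h2 : (orderOf (res g) : ℤ) ∣ m :=
    (Int.natCast_dvd_natCast.mpr hord).trans (orderOf_dvd_iff_zpow_eq_one.mpr h1)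
  have h3 : res g ^ m = 1 := orderOf_dvd_iff_zpow_eq_one.mp h2
  apply hinj
  · rw [map_mul, map_zpow, map_zpow, hc1, h3, one_zpow, one_mul]
  · rw [map_mul, map_zpow, map_zpow, hc2]
    exact hχ

/-- consequence: an element of `⟨g, c⟩` is determined by its image under `χ` -/
theorem dshcr_group_eq {Γ G₁ : Type*} [Group Γ] [Group G₁] (hcomm : ∀ x y : Γ, x * y = y * x)
    {r : ℕ} (res : Γ →* G₁) (χ : Γ →* (ZMod r)ˣ)
    (hinj : ∀ x : Γ, res x = 1 → χ x = 1 → x = 1)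
    (g c : Γ) (hc1 : res c = 1) (hc2 : χ c = -1)
    (hord : orderOf (res g) ∣ orderOf
      (QuotientGroup.mk (χ g) : (ZMod r)ˣ ⧸ Subgroup.zpowers (-1 : (ZMod r)ˣ)))
    (h h' : Γ) (hh : h ∈ Subgroup.closure {g, c}) (hh' : h' ∈ Subgroup.closure {g, c})
    (hχ : χ h = χ h') : h = h' := by
  have h1 := dshcr_group hcomm res χ hinj g c hc1 hc2 hord (h * h'⁻¹)
    (Subgroup.mul_mem _ hh (Subgroup.inv_mem _ hh')) (by rw [map_mul, map_inv, hχ, mul_inv_cancel])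
  exact mul_inv_eq_one.mp h1

end Fermat.Agent.DS
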