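import Fermat.Agent.DS.H.Defs
import Fermat.Agent.DS.H.CrossGroup
import Fermat.Agent.S14.Crossing
import Fermat.Agent.S56.Frob.Tower

/-!
# Program DS, package H, row H3d: the field setup of the crossing

`M = E(ζ_r)`, `Γ = Gal(M/K)`, `res = restrictNormalHom E`, `χ = autToPow K`.
-/

set_option autoImplicit false
set_option linter.unusedSectionVars false

namespace Fermat.Agent.DS

open NumberField IsDedekindDomain Fermat.Agent.S14 Fermat.Agent.S56

section setup

variable {K E M : Type} [Field K] [NumberField K] [Field E] [NumberField E] [Field M]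
  [NumberField M] [Algebra K E] [Algebra K M] [Algebra E M] [IsScalarTower K E M] [IsGalois K E]
  [IsGalois K M] {r : ℕ} [Fact r.Prime] {ζ : M} (hζ : IsPrimitiveRoot ζ r)

/-- `res x = 1` and `χ x = 1` force `x = 1` -/
theorem dshcr_hinj
    (hinj : ∀ σ : M ≃ₐ[K] M, (∀ x : E, σ (algebraMap E M x) = algebraMap E M x) → σ ζ = ζ → σ = 1)
    (x : M ≃ₐ[K] M) (h1 : AlgEquiv.restrictNormalHom E x = 1) (h2 : hζ.autToPow K x = 1) :
    x = 1 := by
  apply hinj
  · intro e
    have h3 := AlgEquiv.restrictNormal_commutes x E e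
    rw [← h3]
    have h4 : x.restrictNormal E = 1 := h1
    rw [h4]
    rfl
  · have h3 := hζ.autToPow_spec K x
    rw [h2] at h3
    rw [← h3, Units.val_one, ZMod.val_one, pow_one]

include hζ in
/-- `Gal(M/K)` is abelian -/
theorem dshcr_comm (hcomm : ∀ a b : E ≃ₐ[K] E, a * b = b * a)
    (hinj : ∀ σ : M ≃ₐ[K] M, (∀ x : E, σ (algebraMap E M x) = algebraMap E M x) → σ ζ = ζ → σ = 1)
    (x y : M ≃ₐ[K] M) : x * y = y * x := by
  have h := dshcr_hinj hζ hinj (x * y * (y * x)⁻¹) ?_ ?_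
  · exact mul_inv_eq_one.mp h
  · rw [map_mul, map_inv, map_mul, map_mul, hcomm (AlgEquiv.restrictNormalHom E y),
      mul_inv_cancel]
  · rw [map_mul, map_inv, map_mul, map_mul, mul_comm (hζ.autToPow K x), mul_inv_cancel]

/-- the pair `(res, χ)` is onto -/
theorem dshcr_exists
    (hsurj : ∀ (h : E ≃ₐ[K] E) (u : (ZMod r)ˣ), ∃ σ : M ≃ₐ[K] M,
        (∀ x : E, σ (algebraMap E M x) = algebraMap E M (h x)) ∧ σ ζ = ζ ^ (u : ZMod r).val)
    (h : E ≃ₐ[K] E) (u : (ZMod r)ˣ) :
    ∃ σ : M ≃ₐ[K] M, AlgEquiv.restrictNormalHom E σ = h ∧ hζ.autToPow K σ = u := by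
  obtain ⟨σ, h1, h2⟩ := hsurj h u
  exact ⟨σ, cross_restrictNormalHom_eq h1, cross_autToPow_eq hζ h2⟩

include hζ in
/-- `[M:K] = [E:K] (r - 1)` -/
theorem dshcr_finrank
    (hsurj : ∀ (h : E ≃ₐ[K] E) (u : (ZMod r)ˣ), ∃ σ : M ≃ₐ[K] M,
        (∀ x : E, σ (algebraMap E M x) = algebraMap E M (h x)) ∧ σ ζ = ζ ^ (u : ZMod r).val)
    (hinj : ∀ σ : M ≃ₐ[K] M, (∀ x : E, σ (algebraMap E M x) = algebraMap E M x) → σ ζ = ζ → σ = 1) :
    Module.finrank K M = Module.finrank K E * (r - 1) := by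
  have hbij : Function.Bijective
      (fun x : M ≃ₐ[K] M => (AlgEquiv.restrictNormalHom E x, hζ.autToPow K x)) := by
    constructor
    · intro x y hxy
      have h1 : AlgEquiv.restrictNormalHom E x = AlgEquiv.restrictNormalHom E y :=
        congrArg Prod.fst hxy
      have h2 : hζ.autToPow K x = hζ.autToPow K y := congrArg Prod.snd hxy
      have h3 := dshcr_hinj hζ hinj (x * y⁻¹) (by rw [map_mul, map_inv, h1, mul_inv_cancel])
        (by rw [map_mul, map_inv, h2, mul_inv_cancel])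
      exact mul_inv_eq_one.mp h3
    · rintro ⟨h, u⟩
      obtain ⟨σ, h1, h2⟩ := dshcr_exists hζ hsurj h u
      exact ⟨σ, Prod.ext h1 h2⟩
  have h1 := Nat.card_congr (Equiv.ofBijective _ hbij)
  rw [Nat.card_prod, IsGalois.card_aut_eq_finrank, IsGalois.card_aut_eq_finrank,
    Nat.card_eq_fintype_card (α := (ZMod r)ˣ), ZMod.card_units_eq_totient,
    Nat.totient_prime (Fact.out : r.Prime)] at h1
  exact h1

end setup

section frob

/-- the cyclotomic character of the Frobenius at a place prime to `r` is the absolute norm -/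
theorem dshcr_autToPow_frobAt {k M : Type} [Field k] [NumberField k] [Field M] [NumberField M]
    [Algebra k M] [IsGalois k M] {r : ℕ} [Fact r.Prime] {ζ : M} (hζ : IsPrimitiveRoot ζ r)
    (w : HeightOneSpectrum (𝓞 k)) (hw : (r : 𝓞 k) ∉ w.asIdeal) :
    ((hζ.autToPow k (frobAt k M w) : (ZMod r)ˣ) : ZMod r) = (Ideal.absNorm w.asIdeal : ZMod r) := by
  have h𝔓 : (primeAbove k M w).under (𝓞 k) = w.asIdeal := ((primeAbove_liesOver k M w).over).symm
  have hr𝔓 : (r : 𝓞 M) ∉ primeAbove k M w :=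
    auxfrob_natCast_not_mem (F := k) (by rw [h𝔓]; exact hw)
  have h2 := auxfrob_apply_zeta (isArithFrobAt_frobAt k M w) hζ.pow_eq_one hr𝔓
  have hq : Nat.card (𝓞 k ⧸ (primeAbove k M w).under (𝓞 k)) = Ideal.absNorm w.asIdeal := by
    rw [h𝔓, Ideal.absNorm_apply, Submodule.cardQuot_apply]
  rw [hq] at h2
  exact auxfrob_autToPow_eq hζ _ _ h2

/-- a good place for a set containing `r` is prime to `r` -/
theorem dshcr_not_mem_of_good {k : Type} [Field k] [NumberField k] {r : ℕ} [Fact r.Prime]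
    (B : Finset ℕ) (hrB : r ∈ B) (w : HeightOneSpectrum (𝓞 k)) (hw : IsGoodPlace k B w) :
    (r : 𝓞 k) ∉ w.asIdeal := by
  intro hmem
  have hne : Ideal.absNorm w.asIdeal ≠ r := fun h => hw.2 (h ▸ hrB)
  have hcop : Nat.Coprime (Ideal.absNorm w.asIdeal) r :=
    (Nat.coprime_primes hw.1 (Fact.out : r.Prime)).mpr hne
  have h1 : IsCoprime ((Ideal.absNorm w.asIdeal : ℤ)) (r : ℤ) := Nat.isCoprime_iff_coprime.mpr hcop
  obtain ⟨a, b, hab⟩ := h1
  have h2 : ((a : 𝓞 k)) * (Ideal.absNorm w.asIdeal : 𝓞 k) + (b : 𝓞 k) * (r : 𝓞 k) = 1 := by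
    have := congrArg (Int.cast (R := 𝓞 k)) hab
    push_cast at this
    exact this
  have h3 : (1 : 𝓞 k) ∈ w.asIdeal := by
    rw [← h2]
    exact Ideal.add_mem _ (Ideal.mul_mem_left _ _ (Ideal.absNorm_mem w.asIdeal))
      (Ideal.mul_mem_left _ _ hmem)
  exact w.isPrime.ne_top ((Ideal.eq_top_iff_one _).mpr h3)

/-- a good place of an intermediate field lies over a good place -/
theorem dshcr_good_below {K M : Type} [Field K] [NumberField K] [Field M] [NumberField M]
    [Algebra K M] (L : IntermediateField K M) (B : Finset ℕ) (w : HeightOneSpectrum (𝓞 L))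
    (hw : IsGoodPlace L B w) : IsGoodPlace K B (placeBelow K L w) := by
  have hpow := absNorm_eq_pow_inertiaDeg K L w
  obtain ⟨h1, -⟩ := (Nat.Prime.pow_eq_iff hw.1).mp hpow.symm
  exact ⟨h1 ▸ hw.1, h1 ▸ hw.2⟩

/-- good places of an intermediate field are unramified in the top field -/
theorem dshcr_unram_top {K M : Type} [Field K] [NumberField K] [Field M] [NumberField M]
    [Algebra K M] (L : IntermediateField K M) (B : Finset ℕ)
    (hB : ∀ v, IsGoodPlace K B v → IsUnramifiedIn K M v) (w : HeightOneSpectrum (𝓞 L))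
    (hw : IsGoodPlace L B w) : IsUnramifiedIn L M w := by
  intro P _ hP
  have hv := dshcr_good_below L B w hw
  have h1 : (w.asIdeal).LiesOver (placeBelow K L w).asIdeal := ⟨rfl⟩
  have h2 : P.LiesOver (placeBelow K L w).asIdeal :=
    Ideal.LiesOver.trans P w.asIdeal (placeBelow K L w).asIdeal
  have h3 : Algebra.IsUnramifiedAt (𝓞 K) P := hB _ hv P h2
  exact Algebra.IsUnramifiedAt.of_restrictScalars (𝓞 K) P

end frob

section fixed

variable {K M : Type} [Field K] [NumberField K] [Field M] [NumberField M] [Algebra K M]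
  [IsGalois K M]

/-- elements of `Gal(M/M^Z)` restrict into `Z` -/
theorem dshcr_restrictScalars_mem (Z : Subgroup (M ≃ₐ[K] M))
    (τ : M ≃ₐ[IntermediateField.fixedField Z] M) : τ.restrictScalars K ∈ Z := by
  have h : τ.restrictScalars K ∈ (IntermediateField.fixedField Z).fixingSubgroup := by
    rw [IntermediateField.mem_fixingSubgroup_iff]
    intro x hx
    exact τ.commutes ⟨x, hx⟩
  rwa [IntermediateField.fixingSubgroup_fixedField] at h

/-- elements of `Z` come from `Gal(M/M^Z)` -/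
theorem dshcr_exists_lift (Z : Subgroup (M ≃ₐ[K] M)) (z : M ≃ₐ[K] M) (hz : z ∈ Z) :
    ∃ τ : M ≃ₐ[IntermediateField.fixedField Z] M, τ.restrictScalars K = z := by
  have hfix : ∀ x ∈ IntermediateField.fixedField Z, z x = x := by
    rw [← IntermediateField.mem_fixingSubgroup_iff, IntermediateField.fixingSubgroup_fixedField]
    exact hz
  exact ⟨AlgEquiv.ofRingEquiv (f := z.toRingEquiv) (fun x => hfix x x.2), AlgEquiv.ext fun x => rfl⟩

/-- the cyclotomic character over an intermediate field is the restriction of the cyclotomic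
character over `K` -/
theorem dshcr_autToPow_restrictScalars {r : ℕ} [Fact r.Prime] {ζ : M} (hζ : IsPrimitiveRoot ζ r)
    (L : IntermediateField K M) (τ : M ≃ₐ[L] M) :
    hζ.autToPow K (τ.restrictScalars K) = hζ.autToPow L τ := by
  apply cross_autToPow_eq hζ
  exact (hζ.autToPow_spec L τ).symm

end fixed

section ident

variable {K E M : Type} [Field K] [NumberField K] [Field E] [NumberField E] [Field M]
  [NumberField M] [Algebra K E] [Algebra K M] [Algebra E M] [IsScalarTower K E M] [IsGalois K E]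
  [IsGalois K M] {r : ℕ} [Fact r.Prime] {ζ : M} (hζ : IsPrimitiveRoot ζ r)

/-- identification of the Frobenius of `M/K` at a good place by its two components -/
theorem dshcr_frobAt_eq_iff
    (hinj : ∀ σ : M ≃ₐ[K] M, (∀ x : E, σ (algebraMap E M x) = algebraMap E M x) → σ ζ = ζ → σ = 1)
    (hcommM : ∀ a b : M ≃ₐ[K] M, a * b = b * a) (v : HeightOneSpectrum (𝓞 K))
    (hv : IsUnramifiedIn K M v) (hvr : (r : 𝓞 K) ∉ v.asIdeal) (g₀ : M ≃ₐ[K] M) :
    frobAt K M v = g₀ ↔ frobAt K E v = AlgEquiv.restrictNormalHom E g₀ ∧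
      (Ideal.absNorm v.asIdeal : ZMod r) = ((hζ.autToPow K g₀ : (ZMod r)ˣ) : ZMod r) := by
  have h1 := fd_frobAt_restrict K E M hcommM v hv
  have h2 := dshcr_autToPow_frobAt hζ v hvr
  constructor
  · rintro rfl
    exact ⟨h1.symm, h2.symm⟩
  · rintro ⟨h3, h4⟩
    have h5 := dshcr_hinj hζ hinj (frobAt K M v * g₀⁻¹)
      (by rw [map_mul, map_inv, h1, h3, mul_inv_cancel])
      (by
        rw [map_mul, map_inv, mul_inv_eq_one]
        exact Units.ext (h2.trans h4))
    exact mul_inv_eq_one.mp h5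

end ident

end Fermat.Agent.DS
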