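import Fermat.Agent.DS.H.Defs
import Fermat.Agent.DS.H.Cos
import Fermat.Agent.S56.Frob.Abelian

/-!
# Program DS, package H, row H2d: the ANALYTIC CORE

Dirichlet's theorem for a cyclic ray class character `ψ : Gal(M/L) ↠ ℤ/e` (`dsh_cyclic_char`).
-/

set_option autoImplicit false

namespace Fermat.Agent.DS

open NumberField IsDedekindDomain Fermat.Agent.S14 Fermat.Agent.S55 Fermat.Agent.S56

section

variable {L M : Type} [Field L] [NumberField L] [Field M] [NumberField M] [Algebra L M]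
  [IsGalois L M]

/-- the class `ψ(Frob_w) ∈ ℤ/e` -/
private noncomputable def dshccA {e : ℕ} (ψ : (M ≃ₐ[L] M) →* Multiplicative (ZMod e))
    (w : HeightOneSpectrum (𝓞 L)) : ZMod e :=
  Multiplicative.toAdd (ψ (frobAt L M w))

/-- the general term of the cosine prime sum -/
private noncomputable def dshccT {e : ℕ} (ψ : (M ≃ₐ[L] M) →* Multiplicative (ZMod e))
    (k : ZMod e) (s : ℝ) (w : HeightOneSpectrum (𝓞 L)) : ℝ :=
  Real.cos (2 * Real.pi * ((k * dshccA ψ w).val : ℝ) / (e : ℝ)) * nvPow L w s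

/-- the cosine prime sum `C_k(s)` -/
private noncomputable def dshccC {e : ℕ} (ψ : (M ≃ₐ[L] M) →* Multiplicative (ZMod e))
    (k : ZMod e) (s : ℝ) : ℝ :=
  ∑' w : HeightOneSpectrum (𝓞 L), dshccT ψ k s w

private theorem dshcc_summable {e : ℕ} (ψ : (M ≃ₐ[L] M) →* Multiplicative (ZMod e))
    (k : ZMod e) {s : ℝ} (hs : 1 < s) : Summable (dshccT ψ k s) :=
  gde_summable_cos_mul_nvPow
    (fun w => 2 * Real.pi * ((k * dshccA ψ w).val : ℝ) / (e : ℝ)) hs

private theorem dshcc_summable_ind (P : Set (HeightOneSpectrum (𝓞 L))) {s : ℝ} (hs : 1 < s) :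
    Summable fun w => Set.indicator P (fun w => nvPow L w s) w :=
  (primeSum_summable L hs).indicator P

private theorem dshcc_C_zero {e : ℕ} [NeZero e] (ψ : (M ≃ₐ[L] M) →* Multiplicative (ZMod e))
    (s : ℝ) : dshccC ψ 0 s = ∑' w : HeightOneSpectrum (𝓞 L), nvPow L w s := by
  unfold dshccC dshccT
  refine tsum_congr fun w => ?_
  rw [zero_mul, ZMod.val_zero]
  simp

/-- the twisted Artin map `k • artin ψ` -/
private noncomputable def dshccF {e : ℕ} (ψ : (M ≃ₐ[L] M) →* Multiplicative (ZMod e))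
    (k : ZMod e) : S14.Div L →+ ZMod e :=
  (AddMonoidHom.mulLeft k).comp (artin L M ψ)

private theorem dshccF_single {e : ℕ} (ψ : (M ≃ₐ[L] M) →* Multiplicative (ZMod e))
    (k : ZMod e) (w : HeightOneSpectrum (𝓞 L)) :
    dshccF ψ k (Finsupp.single w 1) = k * dshccA ψ w := by
  unfold dshccF dshccA
  rw [AddMonoidHom.comp_apply, artin_single]
  simp [AddMonoidHom.mulLeft]

/-- (ii) the upper bound for the nontrivial characters (S55) -/
private theorem dshcc_C_le (hcomm : ∀ a b : M ≃ₐ[L] M, a * b = b * a) (B : Finset ℕ)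
    (hB : ∀ w, IsGoodPlace L B w → IsUnramifiedIn L M w)
    (𝔪 : Ideal (𝓞 L)) (h𝔪 : 𝔪 ≠ ⊥)
    (hB𝔪 : ∀ w : HeightOneSpectrum (𝓞 L), IsGoodPlace L B w → ¬ 𝔪 ≤ w.asIdeal)
    {e : ℕ} [NeZero e] (ψ : (M ≃ₐ[L] M) →* Multiplicative (ZMod e))
    (hψ : Function.Surjective ψ)
    (hprin : ∀ x : L, gdOneMod L 𝔪 x → artin L M ψ (divOf L x) = 0)
    (k : ZMod e) (hk : k ≠ 0) :
    ∃ C : ℝ, ∀ s : ℝ, 1 < s → s < 2 → dshccC ψ k s ≤ C := by
  have hp : ∀ x : L, gdOneMod L 𝔪 x → dshccF ψ k (divOf L x) = 0 := by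
    intro x hx
    unfold dshccF
    rw [AddMonoidHom.comp_apply, hprin x hx, map_zero]
  have hf : ∃ D : S14.Div L, gdPrimeTo L 𝔪 D ∧ dshccF ψ k D ≠ 0 := by
    obtain ⟨g₀, hg₀⟩ := hψ (Multiplicative.ofAdd 1)
    obtain ⟨w, hw, hz⟩ := fd_exists_frobAt_zpowers L M hcomm B hB g₀
    have hmem : g₀ ∈ Subgroup.zpowers (frobAt L M w) := hz ▸ Subgroup.mem_zpowers g₀
    obtain ⟨n, hn⟩ := Subgroup.mem_zpowers_iff.mp hmem
    have h1 : (n : ZMod e) * dshccA ψ w = 1 := by
      have h2 : ψ (frobAt L M w) ^ n = Multiplicative.ofAdd 1 := by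
        rw [← map_zpow, hn, hg₀]
      have h3 := congrArg Multiplicative.toAdd h2
      rw [toAdd_zpow, toAdd_ofAdd] at h3
      rw [← h3]
      unfold dshccA
      simp
    classical
    refine ⟨Finsupp.single w 1, ?_, ?_⟩
    · intro v hv
      by_cases hvw : v = w
      · exact absurd (hvw ▸ hv) (hB𝔪 w hw)
      · rw [Finsupp.single_apply, if_neg (Ne.symm hvw)]
    · rw [dshccF_single]
      intro h0
      apply hk
      calc k = k * ((n : ZMod e) * dshccA ψ w) := by rw [h1, mul_one]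
        _ = (n : ZMod e) * (k * dshccA ψ w) := by ring
        _ = 0 := by rw [h0, mul_zero]
  obtain ⟨C, hC⟩ := gd_primeSum_cos_le L 𝔪 h𝔪 (dshccF ψ k) hp hf
  refine ⟨C, fun s hs1 hs2 => ?_⟩
  have h := hC s hs1 hs2
  unfold dshccC dshccT
  convert h using 4 with w
  rw [dshccF_single]

/-- exchanging the finite sum over the characters with the sum over the places -/
private theorem dshcc_sum_tsum {e : ℕ} [NeZero e] (ψ : (M ≃ₐ[L] M) →* Multiplicative (ZMod e))
    (c : ZMod e → ℝ) {s : ℝ} (hs : 1 < s) :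
    ∑ k : ZMod e, c k * dshccC ψ k s =
      ∑' w : HeightOneSpectrum (𝓞 L), (∑ k : ZMod e, c k *
        Real.cos (2 * Real.pi * ((k * dshccA ψ w).val : ℝ) / (e : ℝ))) * nvPow L w s := by
  have h1 : ∀ k ∈ (Finset.univ : Finset (ZMod e)),
      Summable fun w => c k * dshccT ψ k s w := fun k _ => (dshcc_summable ψ k hs).mul_left _
  have h2 := Summable.tsum_finsetSum h1
  unfold dshccC
  simp_rw [← tsum_mul_left]
  rw [← h2]
  refine tsum_congr fun w => ?_
  rw [Finset.sum_mul]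
  refine Finset.sum_congr rfl fun k _ => ?_
  unfold dshccT
  ring

/-- (iii) `∑_k C_k = e ∑_{ψ(Frob_w) = 0} N(w)^(-s)` -/
private theorem dshcc_sum_C {e : ℕ} [NeZero e] (ψ : (M ≃ₐ[L] M) →* Multiplicative (ZMod e))
    {s : ℝ} (hs : 1 < s) :
    ∑ k : ZMod e, dshccC ψ k s =
      (e : ℝ) * ∑' w : HeightOneSpectrum (𝓞 L),
        Set.indicator {w | dshccA ψ w = 0} (fun w => nvPow L w s) w := by
  have h := dshcc_sum_tsum ψ (fun _ => 1) hs
  simp only [one_mul] at h
  rw [h, ← tsum_mul_left]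
  refine tsum_congr fun w => ?_
  have h2 := dsh_cos_orthogonality (0 : ZMod e) (dshccA ψ w)
  simp only [mul_zero, ZMod.val_zero, Nat.cast_zero, zero_div, Real.cos_zero, one_mul,
    neg_zero] at h2
  rw [h2]
  by_cases hw : dshccA ψ w = 0
  · rw [Set.indicator_of_mem (show w ∈ {w | dshccA ψ w = 0} from hw), if_pos hw]
    ring
  · rw [Set.indicator_of_notMem (show w ∉ {w | dshccA ψ w = 0} from hw), if_neg hw]
    ring

/-- (iv) orthogonality: `∑_k cos(2π k b/e) C_k = (e/2)(∑_{a_w = b} + ∑_{a_w = -b})` -/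
private theorem dshcc_orth {e : ℕ} [NeZero e] (ψ : (M ≃ₐ[L] M) →* Multiplicative (ZMod e))
    (b : ZMod e) {s : ℝ} (hs : 1 < s) :
    ∑ k : ZMod e, Real.cos (2 * Real.pi * ((k * b).val : ℝ) / (e : ℝ)) * dshccC ψ k s =
      (e : ℝ) / 2 * ((∑' w : HeightOneSpectrum (𝓞 L),
          Set.indicator {w | dshccA ψ w = b} (fun w => nvPow L w s) w) +
        ∑' w : HeightOneSpectrum (𝓞 L),
          Set.indicator {w | dshccA ψ w = -b} (fun w => nvPow L w s) w) := by
  rw [dshcc_sum_tsum ψ _ hs, ← (dshcc_summable_ind _ hs).tsum_add (dshcc_summable_ind _ hs),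
    ← tsum_mul_left]
  refine tsum_congr fun w => ?_
  rw [dsh_cos_orthogonality b (dshccA ψ w)]
  by_cases h1 : dshccA ψ w = b <;> by_cases h2 : dshccA ψ w = -b
  · rw [Set.indicator_of_mem (show w ∈ {w | dshccA ψ w = b} from h1),
      Set.indicator_of_mem (show w ∈ {w | dshccA ψ w = -b} from h2), if_pos h1, if_pos h2]
    ring
  · rw [Set.indicator_of_mem (show w ∈ {w | dshccA ψ w = b} from h1),
      Set.indicator_of_notMem (show w ∉ {w | dshccA ψ w = -b} from h2), if_pos h1, if_neg h2]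
    ring
  · rw [Set.indicator_of_notMem (show w ∉ {w | dshccA ψ w = b} from h1),
      Set.indicator_of_mem (show w ∈ {w | dshccA ψ w = -b} from h2), if_neg h1, if_pos h2]
    ring
  · rw [Set.indicator_of_notMem (show w ∉ {w | dshccA ψ w = b} from h1),
      Set.indicator_of_notMem (show w ∉ {w | dshccA ψ w = -b} from h2), if_neg h1, if_neg h2]
    ring

/-- (iii') the lower bound for `∑_k C_k` from the S56 split sum -/
private theorem dshcc_lower (hcomm : ∀ a b : M ≃ₐ[L] M, a * b = b * a) (B : Finset ℕ)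
    (hB : ∀ w, IsGoodPlace L B w → IsUnramifiedIn L M w)
    {e : ℕ} [NeZero e] (ψ : (M ≃ₐ[L] M) →* Multiplicative (ZMod e))
    (hψ : Function.Surjective ψ) :
    ∃ C : ℝ, ∀ s : ℝ, 1 < s → s < 2 →
      Real.log (1 / (s - 1)) - C ≤ (e : ℝ) * ∑' w : HeightOneSpectrum (𝓞 L),
        Set.indicator {w | dshccA ψ w = 0} (fun w => nvPow L w s) w := by
  obtain ⟨C, hC⟩ := fd_mem_sum L M hcomm B hB ψ.ker
  have hidx : ψ.ker.index = e := by
    rw [Subgroup.index_ker, MonoidHom.range_eq_top.mpr hψ, Subgroup.card_top]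
    show Nat.card (ZMod e) = e
    rw [Nat.card_eq_fintype_card, ZMod.card]
  refine ⟨C, fun s hs1 hs2 => ?_⟩
  have h := hC ⟨s, hs1, hs2⟩
  rw [hidx] at h
  have h1 := (abs_le.mp h).1
  unfold fdSumMem at h1
  have hle : (∑' x : HeightOneSpectrum (𝓞 L), Set.indicator
      {x | x ∈ {v | IsGoodPlace L B v} ∧ frobAt L M x ∈ ψ.ker} (fun v => nvPow L v s) x) ≤
      ∑' w : HeightOneSpectrum (𝓞 L),
        Set.indicator {w | dshccA ψ w = 0} (fun w => nvPow L w s) w := by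
    refine Summable.tsum_le_tsum (fun w => ?_) (dshcc_summable_ind _ hs1)
      (dshcc_summable_ind _ hs1)
    refine Set.indicator_le_indicator_of_subset ?_ (fun w => fi_nvPow_nonneg L w s) w
    rintro w ⟨-, hw⟩
    show dshccA ψ w = 0
    unfold dshccA
    rw [MonoidHom.mem_ker.mp hw]
    rfl
  have he : (0 : ℝ) ≤ (e : ℝ) := Nat.cast_nonneg e
  have := mul_le_mul_of_nonneg_left hle he
  simp only at h1
  linarith

/-- every `C_k`, `k ≠ 0`, is bounded on `(1,2)`, and `C_0 = log + O(1)` -/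
private theorem dshcc_C_bdd (hcomm : ∀ a b : M ≃ₐ[L] M, a * b = b * a) (B : Finset ℕ)
    (hB : ∀ w, IsGoodPlace L B w → IsUnramifiedIn L M w)
    (𝔪 : Ideal (𝓞 L)) (h𝔪 : 𝔪 ≠ ⊥)
    (hB𝔪 : ∀ w : HeightOneSpectrum (𝓞 L), IsGoodPlace L B w → ¬ 𝔪 ≤ w.asIdeal)
    {e : ℕ} [NeZero e] (ψ : (M ≃ₐ[L] M) →* Multiplicative (ZMod e))
    (hψ : Function.Surjective ψ)
    (hprin : ∀ x : L, gdOneMod L 𝔪 x → artin L M ψ (divOf L x) = 0) :
    ∃ C : ℝ, ∀ s : ℝ, 1 < s → s < 2 →
      |dshccC ψ 0 s - Real.log (1 / (s - 1))| ≤ C ∧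
        ∀ k : ZMod e, k ≠ 0 → |dshccC ψ k s| ≤ C := by
  classical
  obtain ⟨M1, hM1⟩ := primeSum_sub_log_bounded L
  obtain ⟨M0, hM0⟩ := dshcc_lower hcomm B hB ψ hψ
  have hU : ∀ k : ZMod e, ∃ C : ℝ, k ≠ 0 → ∀ s : ℝ, 1 < s → s < 2 → dshccC ψ k s ≤ C := by
    intro k
    by_cases hk : k = 0
    · exact ⟨0, fun h => absurd hk h⟩
    · obtain ⟨C, hC⟩ := dshcc_C_le hcomm B hB 𝔪 h𝔪 hB𝔪 ψ hψ hprin k hk
      exact ⟨C, fun _ => hC⟩
  choose U hU using hU
  set V : ℝ := ∑ k : ZMod e, |U k| with hV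
  have hUV : ∀ k : ZMod e, U k ≤ V := fun k =>
    (le_abs_self _).trans (Finset.single_le_sum (f := fun k => |U k|)
      (fun i _ => abs_nonneg _) (Finset.mem_univ k))
  have hV0 : 0 ≤ V := Finset.sum_nonneg fun i _ => abs_nonneg _
  have hM1' : 0 ≤ M1 := (abs_nonneg _).trans (hM1 (3 / 2) (by norm_num) (by norm_num))
  have heV : (0 : ℝ) ≤ (e : ℝ) * V := mul_nonneg (Nat.cast_nonneg e) hV0
  refine ⟨|M0| + M1 + (e : ℝ) * V + V, fun s hs1 hs2 => ⟨?_, fun k hk => ?_⟩⟩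
  · rw [dshcc_C_zero]
    have := abs_nonneg M0
    exact (hM1 s hs1 hs2).trans (by linarith)
  · have h4 : ∀ j : ZMod e, j ≠ 0 → dshccC ψ j s ≤ V := fun j hj =>
      (hU j hj s hs1 hs2).trans (hUV j)
    have hup : dshccC ψ k s ≤ V := h4 k hk
    -- lower bound
    have h1 := hM0 s hs1 hs2
    rw [← dshcc_sum_C ψ hs1] at h1
    have h0k : k ∈ Finset.univ.erase (0 : ZMod e) := Finset.mem_erase.mpr ⟨hk, Finset.mem_univ k⟩
    rw [← Finset.add_sum_erase _ _ (Finset.mem_univ (0 : ZMod e)),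
      ← Finset.add_sum_erase _ _ h0k] at h1
    have h2 : ∑ j ∈ (Finset.univ.erase (0 : ZMod e)).erase k, dshccC ψ j s ≤
        ∑ _j ∈ (Finset.univ.erase (0 : ZMod e)).erase k, V :=
      Finset.sum_le_sum fun j hj =>
        h4 j (Finset.ne_of_mem_erase (Finset.mem_of_mem_erase hj))
    rw [Finset.sum_const, nsmul_eq_mul] at h2
    have hcard : (((Finset.univ.erase (0 : ZMod e)).erase k).card : ℝ) ≤ (e : ℝ) := by
      have h5 := Finset.card_erase_le (s := Finset.univ.erase (0 : ZMod e)) (a := k)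
      have h6 := Finset.card_erase_le (s := (Finset.univ : Finset (ZMod e))) (a := 0)
      rw [Finset.card_univ, ZMod.card] at h6
      exact_mod_cast h5.trans h6
    have h3 := mul_le_mul_of_nonneg_right hcard hV0
    have h7 := (abs_le.mp (hM1 s hs1 hs2)).2
    rw [dshcc_C_zero] at h1
    have h8 := neg_abs_le M0
    have h9 := le_abs_self M0
    rw [abs_le]
    constructor <;> linarith

/-- the places with `ψ(Frob_w) = c`: good ones (`dshDS`) plus a bounded contribution -/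
private theorem dshcc_split (B : Finset ℕ) {e : ℕ}
    (ψ : (M ≃ₐ[L] M) →* Multiplicative (ZMod e)) (c : Multiplicative (ZMod e)) {s : ℝ}
    (hs : 1 < s) :
    dshDS L M B {h | ψ h = c} s ≤ ∑' w : HeightOneSpectrum (𝓞 L),
        Set.indicator {w | dshccA ψ w = Multiplicative.toAdd c} (fun w => nvPow L w s) w ∧
    (∑' w : HeightOneSpectrum (𝓞 L),
        Set.indicator {w | dshccA ψ w = Multiplicative.toAdd c} (fun w => nvPow L w s) w) ≤
      dshDS L M B {h | ψ h = c} s + ∑' w : HeightOneSpectrum (𝓞 L),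
        Set.indicator {w | ¬ IsGoodPlace L B w} (fun w => nvPow L w s) w := by
  unfold dshDS
  constructor
  · refine Summable.tsum_le_tsum (fun w => ?_) (dshcc_summable_ind _ hs)
      (dshcc_summable_ind _ hs)
    refine Set.indicator_le_indicator_of_subset ?_ (fun w => fi_nvPow_nonneg L w s) w
    rintro w ⟨-, hw⟩
    show dshccA ψ w = Multiplicative.toAdd c
    unfold dshccA
    rw [show ψ (frobAt L M w) = c from hw]
  · rw [← (dshcc_summable_ind _ hs).tsum_add (dshcc_summable_ind _ hs)]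
    refine Summable.tsum_le_tsum (fun w => ?_) (dshcc_summable_ind _ hs)
      ((dshcc_summable_ind _ hs).add (dshcc_summable_ind _ hs))
    by_cases hg : IsGoodPlace L B w
    · by_cases hw : dshccA ψ w = Multiplicative.toAdd c
      · have hmem : w ∈ {v | IsGoodPlace L B v ∧ frobAt L M v ∈ {h | ψ h = c}} := by
          refine ⟨hg, ?_⟩
          show ψ (frobAt L M w) = c
          exact Multiplicative.toAdd.injective hw
        rw [Set.indicator_of_mem (show w ∈ {w | dshccA ψ w = Multiplicative.toAdd c} from hw),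
          Set.indicator_of_mem hmem]
        have := Set.indicator_nonneg (s := {w | ¬ IsGoodPlace L B w})
          (f := fun w => nvPow L w s) (fun w _ => fi_nvPow_nonneg L w s) w
        linarith
      · rw [Set.indicator_of_notMem
          (show w ∉ {w | dshccA ψ w = Multiplicative.toAdd c} from hw)]
        exact add_nonneg
          (Set.indicator_nonneg (fun w _ => fi_nvPow_nonneg L w s) w)
          (Set.indicator_nonneg (fun w _ => fi_nvPow_nonneg L w s) w)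
    · rw [Set.indicator_of_mem (show w ∈ {w | ¬ IsGoodPlace L B w} from hg)]
      have h1 : Set.indicator {w | dshccA ψ w = Multiplicative.toAdd c}
          (fun w => nvPow L w s) w ≤ nvPow L w s :=
        Set.indicator_le_self' (fun _ _ => fi_nvPow_nonneg L w s) w
      have h2 := Set.indicator_nonneg
        (s := {v | IsGoodPlace L B v ∧ frobAt L M v ∈ {h | ψ h = c}})
        (f := fun w => nvPow L w s) (fun w _ => fi_nvPow_nonneg L w s) w
      linarith

end

/-- **(H2d) ANALYTIC CORE: Dirichlet's theorem for a cyclic ray class character.** -/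
theorem dsh_cyclic_char {L M : Type} [Field L] [NumberField L] [Field M] [NumberField M]
    [Algebra L M] [IsGalois L M] (hcomm : ∀ a b : M ≃ₐ[L] M, a * b = b * a) (B : Finset ℕ)
    (hB : ∀ w, IsGoodPlace L B w → IsUnramifiedIn L M w)
    (𝔪 : Ideal (𝓞 L)) (h𝔪 : 𝔪 ≠ ⊥)
    (hB𝔪 : ∀ w : HeightOneSpectrum (𝓞 L), IsGoodPlace L B w → ¬ 𝔪 ≤ w.asIdeal)
    {e : ℕ} [NeZero e] (ψ : (M ≃ₐ[L] M) →* Multiplicative (ZMod e))
    (hψ : Function.Surjective ψ)
    (hprin : ∀ x : L, gdOneMod L 𝔪 x → artin L M ψ (divOf L x) = 0)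
    (b : Multiplicative (ZMod e)) :
    ∃ C : ℝ, ∀ s : ℝ, 1 < s → s < 2 →
      |(e : ℝ) * (dshDS L M B {h | ψ h = b} s + dshDS L M B {h | ψ h = b⁻¹} s) -
        2 * Real.log (1 / (s - 1))| ≤ C := by
  classical
  obtain ⟨C1, hC1⟩ := dshcc_C_bdd hcomm B hB 𝔪 h𝔪 hB𝔪 ψ hψ hprin
  obtain ⟨M3, hM3⟩ := primeSum_not_good_le L B
  refine ⟨2 * ((e : ℝ) * C1) + 2 * ((e : ℝ) * M3), fun s hs1 hs2 => ?_⟩
  obtain ⟨h0, hk⟩ := hC1 s hs1 hs2
  have hC1' : 0 ≤ C1 := (abs_nonneg _).trans h0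
  have he0 : (0 : ℝ) ≤ (e : ℝ) := Nat.cast_nonneg e
  have he1 : (1 : ℝ) ≤ (e : ℝ) := by exact_mod_cast NeZero.one_le
  set b' : ZMod e := Multiplicative.toAdd b with hb'
  -- the twisted sum
  set T : ℝ := ∑ k : ZMod e,
    Real.cos (2 * Real.pi * ((k * b').val : ℝ) / (e : ℝ)) * dshccC ψ k s with hT
  have hTlog : |T - Real.log (1 / (s - 1))| ≤ (e : ℝ) * C1 := by
    have hsplit : T - Real.log (1 / (s - 1)) =
        (dshccC ψ 0 s - Real.log (1 / (s - 1))) + ∑ k ∈ Finset.univ.erase (0 : ZMod e),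
          Real.cos (2 * Real.pi * ((k * b').val : ℝ) / (e : ℝ)) * dshccC ψ k s := by
      rw [hT, ← Finset.add_sum_erase _ _ (Finset.mem_univ (0 : ZMod e))]
      simp only [zero_mul, ZMod.val_zero, Nat.cast_zero, mul_zero, zero_div, Real.cos_zero,
        one_mul]
      ring
    rw [hsplit]
    have h2 : |∑ k ∈ Finset.univ.erase (0 : ZMod e),
        Real.cos (2 * Real.pi * ((k * b').val : ℝ) / (e : ℝ)) * dshccC ψ k s| ≤
        ∑ _k ∈ Finset.univ.erase (0 : ZMod e), C1 := by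
      refine (Finset.abs_sum_le_sum_abs _ _).trans (Finset.sum_le_sum fun k hk' => ?_)
      rw [abs_mul]
      calc |Real.cos (2 * Real.pi * ((k * b').val : ℝ) / (e : ℝ))| * |dshccC ψ k s|
          ≤ 1 * C1 := mul_le_mul (Real.abs_cos_le_one _) (hk k (Finset.ne_of_mem_erase hk'))
            (abs_nonneg _) zero_le_one
        _ = C1 := one_mul _
    rw [Finset.sum_const, nsmul_eq_mul, Finset.card_erase_of_mem (Finset.mem_univ _),
      Finset.card_univ, ZMod.card] at h2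
    have h3 : ((e - 1 : ℕ) : ℝ) = (e : ℝ) - 1 := by
      rw [Nat.cast_sub NeZero.one_le, Nat.cast_one]
    rw [h3] at h2
    calc |dshccC ψ 0 s - Real.log (1 / (s - 1)) + _| ≤
        |dshccC ψ 0 s - Real.log (1 / (s - 1))| + |_| := abs_add_le _ _
      _ ≤ C1 + ((e : ℝ) - 1) * C1 := add_le_add h0 h2
      _ = (e : ℝ) * C1 := by ring
  have horth := dshcc_orth ψ b' hs1
  rw [← hT] at horth
  obtain ⟨hl1, hu1⟩ := dshcc_split B ψ b hs1
  obtain ⟨hl2, hu2⟩ := dshcc_split B ψ b⁻¹ hs1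
  rw [toAdd_inv, ← hb'] at hl2 hu2
  rw [← hb'] at hl1 hu1
  have hM := hM3 s hs1 hs2
  set P1 := ∑' w : HeightOneSpectrum (𝓞 L),
    Set.indicator {w | dshccA ψ w = b'} (fun w => nvPow L w s) w
  set P2 := ∑' w : HeightOneSpectrum (𝓞 L),
    Set.indicator {w | dshccA ψ w = -b'} (fun w => nvPow L w s) w
  set D1 := dshDS L M B {h | ψ h = b} s
  set D2 := dshDS L M B {h | ψ h = b⁻¹} s
  set bad := ∑' w : HeightOneSpectrum (𝓞 L),
    Set.indicator {w | ¬ IsGoodPlace L B w} (fun w => nvPow L w s) w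
  have hT2 : (e : ℝ) * (P1 + P2) = 2 * T := by rw [horth]; ring
  obtain ⟨hTl, hTu⟩ := abs_le.mp hTlog
  have hlow : (e : ℝ) * (D1 + D2) ≤ (e : ℝ) * (P1 + P2) :=
    mul_le_mul_of_nonneg_left (by linarith) he0
  have hupp : (e : ℝ) * (P1 + P2) ≤ (e : ℝ) * (D1 + D2 + 2 * M3) :=
    mul_le_mul_of_nonneg_left (by linarith) he0
  rw [abs_le]
  constructor
  · nlinarith
  · nlinarith

end Fermat.Agent.DS
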