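import Mathlib
import Fermat.Agent.S14.Density
import Fermat.Agent.S55.Global.Second.RayPrimeSum
import Fermat.Agent.S56.Frob.Hom

/-!
# Program DS, package H (Chebotarev in Dirichlet density): definitions

Language = S14 (`HeightOneSpectrum (𝓞 K)`, `IsGoodPlace K B v`, `frobAt K L v`, `nvPow K v s`,
`IsUnramifiedIn K L v`).  Everything analytic comes from S14 (`primeSum_sub_log_bounded`,
`primeSum_not_good_le`), S55/Global/Second (`gd_primeSum_cos_le`) and S56/Frob (`fd_split_sum`,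
`fd_exists_frobAt_zpowers`).

* `dshD K L B g s`   : `∑_{v good, Frob_v = g} N(v)^(-s)` (abelian `L/K`: `frobAt` is canonical);
* `dshDS K L B S s`  : `∑_{v good, Frob_v ∈ S} N(v)^(-s)` (`S` conjugation stable);
* `dshDN K L B r g a s` : `∑_{v good, Frob_v = g, N(v) ≡ ± a mod r} N(v)^(-s)` (crossing bookkeeping);
* `dshPrimeSum X s`  : `∑_{p prime, p ∈ X} p^(-s)`.
-/

set_option autoImplicit false

namespace Fermat.Agent.DS

open NumberField IsDedekindDomain Fermat.Agent.S14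

section

variable (K L : Type) [Field K] [NumberField K] [Field L] [NumberField L] [Algebra K L]
  [IsGalois K L]

/-- `∑_{v good, Frob_v = g} N(v)^(-s)`. -/
noncomputable def dshD (B : Finset ℕ) (g : L ≃ₐ[K] L) (s : ℝ) : ℝ :=
  ∑' v : HeightOneSpectrum (𝓞 K),
    Set.indicator {v | IsGoodPlace K B v ∧ frobAt K L v = g} (fun v => nvPow K v s) v

/-- `∑_{v good, Frob_v ∈ S} N(v)^(-s)`. -/
noncomputable def dshDS (B : Finset ℕ) (S : Set (L ≃ₐ[K] L)) (s : ℝ) : ℝ :=
  ∑' v : HeightOneSpectrum (𝓞 K),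
    Set.indicator {v | IsGoodPlace K B v ∧ frobAt K L v ∈ S} (fun v => nvPow K v s) v

/-- `∑_{v good, Frob_v = g, N(v) ≡ ± a mod r} N(v)^(-s)`: the good places with Frobenius `g` in `L/K`
whose absolute norm lies in the class `± a` of `(ℤ/r)ˣ/±1` (the bookkeeping of the crossing). -/
noncomputable def dshDN (B : Finset ℕ) (r : ℕ) (g : L ≃ₐ[K] L) (a : ZMod r) (s : ℝ) : ℝ :=
  ∑' v : HeightOneSpectrum (𝓞 K),
    Set.indicator {v | IsGoodPlace K B v ∧ frobAt K L v = g ∧
        ((Ideal.absNorm v.asIdeal : ZMod r) = a ∨ (Ideal.absNorm v.asIdeal : ZMod r) = -a)}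
      (fun v => nvPow K v s) v

end

/-- `∑_{p prime, p ∈ X} p^(-s)`. -/
noncomputable def dshPrimeSum (X : Set ℕ) (s : ℝ) : ℝ :=
  ∑' p : Nat.Primes, Set.indicator X (fun n : ℕ => (n : ℝ) ^ (-s)) (p : ℕ)

end Fermat.Agent.DS
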