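import Fermat.Agent.DS.H.DeuringB

/-!
# Program DS, package H, row H4a : `dsh_deuring` (Deuring's reduction) (helper27)

`E/ℚ` Galois, `σ ∈ G = Gal(E/ℚ)`, `K = E^⟨σ⟩`, `τ = σ` regarded in `Gal(E/K)`:
`|C_G(σ)| ∑_{u good, Frob_u ∈ C(σ)} N(u)^(-s) = ord(σ) ∑_{v good, Frob_v = τ} N(v)^(-s)`.
-/

set_option autoImplicit false

namespace Fermat.Agent.DS

open NumberField IsDedekindDomain Fermat.Agent.S14 Fermat.Agent.S56

/-- (H4a) -/
theorem dsh_deuring {E : Type} [Field E] [NumberField E] [IsGalois ℚ E] (B : Finset ℕ)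
    (hB : ∀ v, IsGoodPlace ℚ B v → IsUnramifiedIn ℚ E v) (σ : E ≃ₐ[ℚ] E)
    (K : IntermediateField ℚ E) (hK : K = IntermediateField.fixedField (Subgroup.zpowers σ))
    (τ : E ≃ₐ[K] E) (hτ : τ.restrictScalars ℚ = σ) {s : ℝ} (hs : 1 < s) :
    (Nat.card (Subgroup.centralizer {σ} : Subgroup (E ≃ₐ[ℚ] E)) : ℝ) *
        dshDS ℚ E B {h | ∃ g : E ≃ₐ[ℚ] E, h = g * σ * g⁻¹} s =
      (orderOf σ : ℝ) * dshD K E B τ s := by
  classical
  unfold dshDS dshD
  rw [← tsum_mul_left, ← tsum_mul_left]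
  symm
  have hsumK : Summable fun v : HeightOneSpectrum (𝓞 K) => nvPow K v s := primeSum_summable K hs
  refine fd_fibre_tsum_eq ℚ K ((hsumK.indicator _).mul_left _) fun u => ?_
  have : Finite {v : HeightOneSpectrum (𝓞 K) // placeBelow ℚ K v = u} :=
    (card_placesAbove_le ℚ K u).1
  have := Fintype.ofFinite {v : HeightOneSpectrum (𝓞 K) // placeBelow ℚ K v = u}
  rw [tsum_fintype]
  set S : Set (HeightOneSpectrum (𝓞 K)) := {v | IsGoodPlace K B v ∧ frobAt K E v = τ} with hS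
  by_cases hgood : IsGoodPlace ℚ B u
  · -- `u` good: every contributing `v` has the norm of `u`
    have hterm : ∀ v : {v : HeightOneSpectrum (𝓞 K) // placeBelow ℚ K v = u},
        (orderOf σ : ℝ) * Set.indicator S (fun v => nvPow K v s) v.1 =
          if v.1 ∈ S then (orderOf σ : ℝ) * nvPow ℚ u s else 0 := by
      intro v
      by_cases hv : v.1 ∈ S
      · rw [Set.indicator_of_mem hv, if_pos hv]
        have h1 := dshde_absNorm_below ℚ K v.1 hv.1.1
        rw [v.2] at h1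
        simp only [nvPow, h1]
      · rw [Set.indicator_of_notMem hv, if_neg hv, mul_zero]
    rw [Finset.sum_congr rfl (fun v _ => hterm v), Finset.sum_ite, Finset.sum_const_zero,
      add_zero, Finset.sum_const, nsmul_eq_mul]
    -- the number of contributing places
    have hcard : (Finset.univ.filter
        (fun v : {v : HeightOneSpectrum (𝓞 K) // placeBelow ℚ K v = u} => v.1 ∈ S)).card =
        Nat.card {v : HeightOneSpectrum (𝓞 K) //
          placeBelow ℚ K v = u ∧ (IsGoodPlace K B v ∧ frobAt K E v = τ)} := by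
      rw [← Fintype.card_subtype, ← Nat.card_eq_fintype_card]
      exact Nat.card_congr (Equiv.subtypeSubtypeEquivSubtypeInter
        (fun v : HeightOneSpectrum (𝓞 K) => placeBelow ℚ K v = u)
        (fun v => IsGoodPlace K B v ∧ frobAt K E v = τ))
    rw [hcard]
    by_cases hconj : frobAt ℚ E u ∈ {h | ∃ g : E ≃ₐ[ℚ] E, h = g * σ * g⁻¹}
    · rw [Set.indicator_of_mem (show u ∈ {v | IsGoodPlace ℚ B v ∧ frobAt ℚ E v ∈
          {h | ∃ g : E ≃ₐ[ℚ] E, h = g * σ * g⁻¹}} from ⟨hgood, hconj⟩)]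
      have hcount := dshde_count_conj B hB σ K hK τ hτ u hgood hconj
      rw [← hcount]
      push_cast
      ring
    · rw [Set.indicator_of_notMem (show u ∉ {v | IsGoodPlace ℚ B v ∧ frobAt ℚ E v ∈
          {h | ∃ g : E ≃ₐ[ℚ] E, h = g * σ * g⁻¹}} from fun h => hconj h.2)]
      have hempty := dshde_count_not B hB σ K hK τ hτ u hgood hconj
      rw [Nat.card_of_isEmpty]
      simp
  · -- `u` not good: no good place above it
    rw [Set.indicator_of_notMem (show u ∉ {v | IsGoodPlace ℚ B v ∧ frobAt ℚ E v ∈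
        {h | ∃ g : E ≃ₐ[ℚ] E, h = g * σ * g⁻¹}} from fun h => hgood h.1), mul_zero]
    refine Finset.sum_eq_zero fun v _ => ?_
    have hv : v.1 ∉ S := by
      rintro ⟨⟨hprime, hnot⟩, _⟩
      apply hgood
      have h1 := dshde_absNorm_below ℚ K v.1 hprime
      rw [v.2] at h1
      exact ⟨h1 ▸ hprime, h1 ▸ hnot⟩
    rw [Set.indicator_of_notMem hv, mul_zero]

end Fermat.Agent.DS
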