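import Fermat.Agent.DS.H.Defs
import Fermat.Agent.S14.CrossingAux
import Fermat.Agent.S56.Frob.Tower

/-!
# Program DS, package H, row H4a (Deuring reduction), file A: counting the primes with a given
Frobenius (helper27)

`L/K` Galois, `v` a place of `K` unramified in `L`, `σ ∈ Gal(L/K)`.
* `dshde_stabilizer_eq_zpowers` : the decomposition group of an unramified prime is `⟨Frob⟩`;
* `dshdeFrobPrimes v σ`         : the primes `P ∣ v` with `Frob_P = σ`;
* `dshde_frobAt_mem_conj`, `dshde_mem_of_conj` : it is non-empty iff `frobAt K L v ∈ C(σ)`;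
* `dshde_card_frobPrimes`       : then `#{P} * ord σ = |C_G(σ)|`.
-/

set_option autoImplicit false

namespace Fermat.Agent.DS

open NumberField IsDedekindDomain Fermat.Agent.S14 Fermat.Agent.S56
open scoped Pointwise

section loc

variable {K : Type*} [Field K] [NumberField K] {L : Type*} [Field L] [NumberField L] [Algebra K L]
  [IsGalois K L]

/-- at an unramified prime the decomposition group is generated by the Frobenius -/
theorem dshde_stabilizer_eq_zpowers (P : Ideal (𝓞 L)) [P.IsPrime] (hP0 : P ≠ ⊥)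
    [Algebra.IsUnramifiedAt (𝓞 K) P] {σ : L ≃ₐ[K] L} (hσ : IsArithFrobAt (𝓞 K) σ P) :
    MulAction.stabilizer (L ≃ₐ[K] L) P = Subgroup.zpowers σ := by
  have hle : Subgroup.zpowers σ ≤ MulAction.stabilizer (L ≃ₐ[K] L) P :=
    (Subgroup.zpowers_le).mpr hσ.mem_stabilizer
  have : P.LiesOver (P.under (𝓞 K)) := ⟨rfl⟩
  have hcard : Nat.card (MulAction.stabilizer (L ≃ₐ[K] L) P) = orderOf σ := by
    rw [Ideal.card_stabilizer_eq_card_inertia_mul_finrank (P.under (𝓞 K)) P,
      cross_inertia_eq_bot, Subgroup.card_bot, one_mul, artin_orderOf_frob P hP0 hσ]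
  symm
  apply Subgroup.eq_of_le_of_card_ge hle
  rw [hcard, Nat.card_zpowers]

/-- the primes above `v` at which `σ` is a Frobenius element -/
def dshdeFrobPrimes (v : HeightOneSpectrum (𝓞 K)) (σ : L ≃ₐ[K] L) : Set (Ideal (𝓞 L)) :=
  {P | P.IsPrime ∧ P.LiesOver v.asIdeal ∧ IsArithFrobAt (𝓞 K) σ P}

theorem dshde_ne_bot_of_liesOver (v : HeightOneSpectrum (𝓞 K)) (P : Ideal (𝓞 L))
    (hP : P.LiesOver v.asIdeal) : P ≠ ⊥ := by
  intro h
  have h1 : v.asIdeal = P.under (𝓞 K) := hP.over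
  rw [h, Ideal.under_bot] at h1
  exact v.ne_bot h1

/-- if some prime above `v` has Frobenius `σ` then `frobAt K L v` is conjugate to `σ` -/
theorem dshde_frobAt_mem_conj (v : HeightOneSpectrum (𝓞 K)) (hv : IsUnramifiedIn K L v)
    (σ : L ≃ₐ[K] L) (P : Ideal (𝓞 L)) (hP : P ∈ dshdeFrobPrimes v σ) :
    ∃ g : L ≃ₐ[K] L, frobAt K L v = g * σ * g⁻¹ := by
  obtain ⟨hprime, hlies, hfrob⟩ := hP
  have hunder : P.under (𝓞 K) = (primeAbove K L v).under (𝓞 K) := by
    rw [← (primeAbove_liesOver K L v).over, ← hlies.over]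
  obtain ⟨g, hg⟩ := Algebra.IsInvariant.exists_smul_of_under_eq (𝓞 K) (𝓞 L) (L ≃ₐ[K] L)
    P (primeAbove K L v) hunder
  refine ⟨g, ?_⟩
  have h1 := hfrob.conj g
  rw [← hg] at h1
  have : Algebra.IsUnramifiedAt (𝓞 K) (primeAbove K L v) := hv _ (primeAbove_liesOver K L v)
  exact artin_frob_unique (primeAbove K L v) (isArithFrobAt_frobAt K L v) h1

/-- if `frobAt K L v = g σ g⁻¹` then `g⁻¹ • primeAbove` has Frobenius `σ` -/
theorem dshde_mem_of_conj (v : HeightOneSpectrum (𝓞 K)) (σ g : L ≃ₐ[K] L)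
    (h : frobAt K L v = g * σ * g⁻¹) :
    g⁻¹ • primeAbove K L v ∈ dshdeFrobPrimes v σ := by
  refine ⟨Ideal.IsPrime.smul g⁻¹, inferInstance, ?_⟩
  have h1 := (isArithFrobAt_frobAt K L v).conj g⁻¹
  rw [h] at h1
  have h2 : g⁻¹ * (g * σ * g⁻¹) * g⁻¹⁻¹ = σ := by group
  rwa [h2] at h1

/-- the primes with Frobenius `σ` form one orbit under the centraliser of `σ` -/
theorem dshde_orbit_eq (v : HeightOneSpectrum (𝓞 K)) (hv : IsUnramifiedIn K L v)
    (σ : L ≃ₐ[K] L) (P₁ : Ideal (𝓞 L)) (hP₁ : P₁ ∈ dshdeFrobPrimes v σ) :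
    MulAction.orbit (Subgroup.centralizer ({σ} : Set (L ≃ₐ[K] L))) P₁ = dshdeFrobPrimes v σ := by
  obtain ⟨hprime₁, hlies₁, hfrob₁⟩ := hP₁
  ext P
  constructor
  · rintro ⟨⟨c, hc⟩, rfl⟩
    refine ⟨Ideal.IsPrime.smul c, inferInstance, ?_⟩
    have h1 := hfrob₁.conj c
    have h2 : c * σ * c⁻¹ = σ := by
      have := Subgroup.mem_centralizer_iff.mp hc σ rfl
      rw [← this]; group
    rw [h2] at h1
    exact h1
  · rintro ⟨hprime, hlies, hfrob⟩
    have hunder : P₁.under (𝓞 K) = P.under (𝓞 K) := by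
      rw [← hlies₁.over, ← hlies.over]
    obtain ⟨g, hg⟩ := Algebra.IsInvariant.exists_smul_of_under_eq (𝓞 K) (𝓞 L) (L ≃ₐ[K] L)
      P₁ P hunder
    have h1 := hfrob₁.conj g
    rw [← hg] at h1
    have : Algebra.IsUnramifiedAt (𝓞 K) P := hv P hlies
    have h2 : σ = g * σ * g⁻¹ := artin_frob_unique P hfrob h1
    have hgc : g ∈ Subgroup.centralizer ({σ} : Set (L ≃ₐ[K] L)) := by
      rw [Subgroup.mem_centralizer_iff]
      intro h hh
      rw [Set.mem_singleton_iff] at hh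
      subst hh
      have := congrArg (· * g) h2
      simpa [mul_assoc] using this
    exact ⟨⟨g, hgc⟩, hg.symm⟩

/-- the count: `#{P ∣ v : Frob_P = σ} * ord σ = |C_G(σ)|` as soon as the set is non-empty -/
theorem dshde_card_frobPrimes (v : HeightOneSpectrum (𝓞 K)) (hv : IsUnramifiedIn K L v)
    (σ : L ≃ₐ[K] L) (P₁ : Ideal (𝓞 L)) (hP₁ : P₁ ∈ dshdeFrobPrimes v σ) :
    Nat.card (dshdeFrobPrimes v σ) * orderOf σ =
      Nat.card (Subgroup.centralizer ({σ} : Set (L ≃ₐ[K] L))) := by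
  set C := Subgroup.centralizer ({σ} : Set (L ≃ₐ[K] L)) with hC
  have horb := dshde_orbit_eq v hv σ P₁ hP₁
  have hprime₁ : P₁.IsPrime := hP₁.1
  have hlies₁ : P₁.LiesOver v.asIdeal := hP₁.2.1
  have hfrob₁ := hP₁.2.2
  have : Algebra.IsUnramifiedAt (𝓞 K) P₁ := hv P₁ hlies₁
  have hstabG := dshde_stabilizer_eq_zpowers P₁ (dshde_ne_bot_of_liesOver v P₁ hlies₁) hfrob₁
  -- the stabiliser of `P₁` in `C`
  have hzle : Subgroup.zpowers σ ≤ C := by
    rw [Subgroup.zpowers_le, hC, Subgroup.mem_centralizer_iff]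
    intro h hh
    rw [Set.mem_singleton_iff] at hh
    rw [hh]
  have hstabC : Nat.card (MulAction.stabilizer C P₁) = orderOf σ := by
    have h1 : MulAction.stabilizer C P₁ = (Subgroup.zpowers σ).subgroupOf C := by
      ext c
      rw [MulAction.mem_stabilizer_iff, Subgroup.mem_subgroupOf, ← hstabG,
        MulAction.mem_stabilizer_iff]
      rfl
    rw [h1, Nat.card_congr (Subgroup.subgroupOfEquivOfLe hzle).toEquiv, Nat.card_zpowers]
  have h2 := Nat.card_congr (MulAction.orbitProdStabilizerEquivGroup C P₁)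
  rw [Nat.card_prod, hstabC] at h2
  rw [← h2, horb]

end loc

end Fermat.Agent.DS
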