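import Fermat.Agent.DS.H.DeuringA
import Fermat.Agent.S14.AuxFrob

/-!
# Program DS, package H, row H4a (Deuring reduction), file B: the tower `ℚ ⊆ K = E^⟨σ⟩ ⊆ E`
(helper27)

* `dshde_mem_zpowers`, `dshde_comm` : `Gal(E/K) = ⟨τ⟩`;
* `dshdeEquiv` : for a good rational place `u` unramified in `E`, the good places `v ∣ u` of `K`
  with `frobAt K E v = τ` correspond to the primes `P ∣ u` of `E` with Frobenius `σ`
  (`v ↦ primeAbove K E v`, `P ↦ P ∩ 𝓞 K`);
* `dshde_count` : hence `ord σ * #{v} = |C_G(σ)|` or `0` according as `frobAt ℚ E u ∈ C(σ)` or not.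
-/

set_option autoImplicit false

namespace Fermat.Agent.DS

open NumberField IsDedekindDomain Fermat.Agent.S14 Fermat.Agent.S56
open scoped Pointwise

section tower

variable {E : Type} [Field E] [NumberField E] [IsGalois ℚ E]

/-- `Gal(E/K)` is generated by `τ` -/
theorem dshde_mem_zpowers (σ : E ≃ₐ[ℚ] E) (K : IntermediateField ℚ E)
    (hK : K = IntermediateField.fixedField (Subgroup.zpowers σ))
    (τ : E ≃ₐ[K] E) (hτ : τ.restrictScalars ℚ = σ) (ρ : E ≃ₐ[K] E) :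
    ρ ∈ Subgroup.zpowers τ := by
  have h1 : ρ.restrictScalars ℚ ∈ K.fixingSubgroup := by
    rw [IntermediateField.mem_fixingSubgroup_iff]
    intro x hx
    exact ρ.commutes ⟨x, hx⟩
  have h2 : K.fixingSubgroup = Subgroup.zpowers σ := by
    rw [hK, IntermediateField.fixingSubgroup_fixedField]
  rw [h2] at h1
  obtain ⟨n, hn⟩ := Subgroup.mem_zpowers_iff.mp h1
  refine Subgroup.mem_zpowers_iff.mpr ⟨n, ?_⟩
  apply AlgEquiv.restrictScalars_injective ℚ
  rw [← hn, ← hτ]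
  exact (map_zpow (AlgEquiv.restrictScalarsHom ℚ : (E ≃ₐ[K] E) →* (E ≃ₐ[ℚ] E)) τ n)

theorem dshde_comm (σ : E ≃ₐ[ℚ] E) (K : IntermediateField ℚ E)
    (hK : K = IntermediateField.fixedField (Subgroup.zpowers σ))
    (τ : E ≃ₐ[K] E) (hτ : τ.restrictScalars ℚ = σ) (a b : E ≃ₐ[K] E) : a * b = b * a := by
  obtain ⟨m, rfl⟩ := Subgroup.mem_zpowers_iff.mp (dshde_mem_zpowers σ K hK τ hτ a)
  obtain ⟨n, rfl⟩ := Subgroup.mem_zpowers_iff.mp (dshde_mem_zpowers σ K hK τ hτ b)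
  exact (Commute.zpow_zpow_self τ m n).eq

end tower

section norms

variable (K : Type*) [Field K] [NumberField K] (L : Type*) [Field L] [NumberField L] [Algebra K L]

/-- a place with prime norm has the norm of the place below it -/
theorem dshde_absNorm_below (w : HeightOneSpectrum (𝓞 L))
    (hw : (Ideal.absNorm w.asIdeal).Prime) :
    Ideal.absNorm (placeBelow K L w).asIdeal = Ideal.absNorm w.asIdeal := by
  have hpow := absNorm_eq_pow_inertiaDeg K L w
  exact ((Nat.Prime.pow_eq_iff hw).mp hpow.symm).1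

theorem dshde_card_quot (I : Ideal (𝓞 K)) : Nat.card (𝓞 K ⧸ I) = Ideal.absNorm I := by
  rw [Ideal.absNorm_apply, Submodule.cardQuot_apply]

end norms

section bij

variable {E : Type} [Field E] [NumberField E] [IsGalois ℚ E]

/-- from a place of `K` to a prime of `E`: the chosen prime above a good place `v` of `K` with
`frobAt K E v = τ` has Frobenius `σ` over `ℚ` -/
theorem dshde_frob_of_place (σ : E ≃ₐ[ℚ] E) (K : IntermediateField ℚ E)
    (τ : E ≃ₐ[K] E) (hτ : τ.restrictScalars ℚ = σ) (v : HeightOneSpectrum (𝓞 K))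
    (hprime : (Ideal.absNorm v.asIdeal).Prime) (hfrob : frobAt K E v = τ) :
    IsArithFrobAt (𝓞 ℚ) σ (primeAbove K E v) := by
  have hγ := isArithFrobAt_frobAt K E v
  rw [hfrob] at hγ
  have hcard : Nat.card (𝓞 K ⧸ (primeAbove K E v).under (𝓞 K)) =
      Nat.card (𝓞 ℚ ⧸ (primeAbove K E v).under (𝓞 ℚ)) := by
    have h1 : (primeAbove K E v).under (𝓞 K) = v.asIdeal :=
      ((primeAbove_liesOver K E v).over).symm
    have h2 : (primeAbove K E v).under (𝓞 ℚ) = (placeBelow ℚ K v).asIdeal := by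
      show _ = v.asIdeal.under (𝓞 ℚ)
      rw [← h1, Ideal.under_under]
    rw [h1, h2, dshde_card_quot, dshde_card_quot, dshde_absNorm_below ℚ K v hprime]
  have := auxfrob_restrictScalars (K := ℚ) (F := K) (M := E) hγ hcard
  rwa [hτ] at this

/-- from a prime of `E` to a place of `K`: if `σ` is a Frobenius at `P` over `ℚ` then the residue
field of `P ∩ 𝓞 K` is the prime field -/
theorem dshde_card_under (σ : E ≃ₐ[ℚ] E) (K : IntermediateField ℚ E)
    (τ : E ≃ₐ[K] E) (hτ : τ.restrictScalars ℚ = σ) (P : Ideal (𝓞 E)) [P.IsPrime] (hP0 : P ≠ ⊥)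
    (hfrob : IsArithFrobAt (𝓞 ℚ) σ P) :
    Nat.card (𝓞 K ⧸ P.under (𝓞 K)) = Nat.card (𝓞 ℚ ⧸ P.under (𝓞 ℚ)) := by
  set q := Nat.card (𝓞 ℚ ⧸ P.under (𝓞 ℚ)) with hq
  set p' : Ideal (𝓞 K) := P.under (𝓞 K) with hp'
  have hp'0 : p' ≠ ⊥ := fun h => hP0 (Ideal.eq_bot_of_comap_eq_bot (R := 𝓞 K) h)
  set v : HeightOneSpectrum (𝓞 K) := ⟨p', inferInstance, hp'0⟩ with hv
  have hpmax : p'.IsMaximal := Ring.DimensionLEOne.maximalOfPrime hp'0 inferInstance
  have hfin : Finite (𝓞 K ⧸ p') := Ideal.finiteQuotientOfFreeOfNeBot _ hp'0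
  let _ : Field (𝓞 K ⧸ p') := Ideal.Quotient.field p'
  -- `q = N(u)` and `card = q ^ f`
  have hunder : (placeBelow ℚ K v).asIdeal = P.under (𝓞 ℚ) := by
    show p'.under (𝓞 ℚ) = _
    rw [hp', Ideal.under_under]
  have hqN : q = Ideal.absNorm (placeBelow ℚ K v).asIdeal := by
    rw [hq, dshde_card_quot, hunder]
  have hq1 : 1 < q := by
    rw [hqN]; exact artin_one_lt_absNorm ℚ _
  have hpow : Nat.card (𝓞 K ⧸ p') = q ^ (p'.inertiaDeg (𝓞 ℚ)) := by
    rw [dshde_card_quot, hqN]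
    exact absNorm_eq_pow_inertiaDeg ℚ K v
  have hfpos : 0 < p'.inertiaDeg (𝓞 ℚ) := Ideal.inertiaDeg_pos p' (𝓞 ℚ)
  -- every element of the residue field is fixed by `x ↦ x ^ q`
  have hfix : ∀ y : 𝓞 K ⧸ p', y ^ q = y := by
    intro y
    obtain ⟨x, rfl⟩ := Ideal.Quotient.mk_surjective y
    rw [← map_pow, eq_comm, Ideal.Quotient.eq, hp', Ideal.under_def, Ideal.mem_comap, map_sub,
      map_pow]
    have h := hfrob (algebraMap (𝓞 K) (𝓞 E) x)
    have h2 : (MulSemiringAction.toAlgHom (𝓞 ℚ) (𝓞 E) σ) (algebraMap (𝓞 K) (𝓞 E) x) =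
        algebraMap (𝓞 K) (𝓞 E) x := by
      apply RingOfIntegers.ext
      show σ (algebraMap K E (x : K)) = algebraMap K E (x : K)
      rw [← hτ]
      exact τ.commutes (x : K)
    rw [h2] at h
    exact h
  have hle : Nat.card (𝓞 K ⧸ p') ≤ q := auxfrob_card_le_of_pow_eq hq1 hfix
  have hge : q ≤ Nat.card (𝓞 K ⧸ p') := by
    rw [hpow]
    exact Nat.le_self_pow hfpos.ne' q
  exact le_antisymm hle hge

/-- … and `τ` is a Frobenius at `P` over `K` -/
theorem dshde_frob_over (σ : E ≃ₐ[ℚ] E) (K : IntermediateField ℚ E)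
    (τ : E ≃ₐ[K] E) (hτ : τ.restrictScalars ℚ = σ) (P : Ideal (𝓞 E)) [P.IsPrime] (hP0 : P ≠ ⊥)
    (hfrob : IsArithFrobAt (𝓞 ℚ) σ P) : IsArithFrobAt (𝓞 K) τ P := by
  have hcard := dshde_card_under σ K τ hτ P hP0 hfrob
  intro x
  have h := hfrob x
  rw [← hcard] at h
  subst hτ
  exact h

end bij

section count

variable {E : Type} [Field E] [NumberField E] [IsGalois ℚ E]

/-- a place of `K` above a rational place unramified in `E` is unramified in `E` -/
theorem dshde_unramified_above (K : IntermediateField ℚ E) (u : HeightOneSpectrum (𝓞 ℚ))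
    (hu : IsUnramifiedIn ℚ E u) (v : HeightOneSpectrum (𝓞 K)) (hv : placeBelow ℚ K v = u) :
    IsUnramifiedIn K E v := by
  intro Q hQ hlies
  have h1 : v.asIdeal.LiesOver u.asIdeal := ⟨(congrArg HeightOneSpectrum.asIdeal hv).symm⟩
  have h2 : Q.LiesOver u.asIdeal := Ideal.LiesOver.trans Q v.asIdeal u.asIdeal
  have h3 : Algebra.IsUnramifiedAt (𝓞 ℚ) Q := hu Q h2
  exact Algebra.IsUnramifiedAt.of_restrictScalars (𝓞 ℚ) Q

/-- **the bijection**: good places of `K` above `u` with Frobenius `τ` ↔ primes of `E` above `u`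
with Frobenius `σ` -/
noncomputable def dshdeEquiv (B : Finset ℕ) (σ : E ≃ₐ[ℚ] E) (K : IntermediateField ℚ E)
    (hK : K = IntermediateField.fixedField (Subgroup.zpowers σ))
    (τ : E ≃ₐ[K] E) (hτ : τ.restrictScalars ℚ = σ) (u : HeightOneSpectrum (𝓞 ℚ))
    (hu : IsUnramifiedIn ℚ E u) (hgood : IsGoodPlace ℚ B u) :
    {v : HeightOneSpectrum (𝓞 K) //
        placeBelow ℚ K v = u ∧ (IsGoodPlace K B v ∧ frobAt K E v = τ)} ≃
      ↥(dshdeFrobPrimes (K := ℚ) (L := E) u σ) where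
  toFun v := ⟨primeAbove K E v.1, primeAbove_isPrime K E v.1, by
      have h1 : v.1.asIdeal.LiesOver u.asIdeal :=
        ⟨(congrArg HeightOneSpectrum.asIdeal v.2.1).symm⟩
      exact Ideal.LiesOver.trans (primeAbove K E v.1) v.1.asIdeal u.asIdeal,
    dshde_frob_of_place σ K τ hτ v.1 v.2.2.1.1 v.2.2.2⟩
  invFun P := by
    have hprime : P.1.IsPrime := P.2.1
    have hlies : P.1.LiesOver u.asIdeal := P.2.2.1
    have hP0 : P.1 ≠ ⊥ := dshde_ne_bot_of_liesOver u P.1 hlies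
    have hp'0 : P.1.under (𝓞 K) ≠ ⊥ := fun h => hP0 (Ideal.eq_bot_of_comap_eq_bot (R := 𝓞 K) h)
    have hbelow : placeBelow ℚ K ⟨P.1.under (𝓞 K), inferInstance, hp'0⟩ = u := by
      apply HeightOneSpectrum.ext
      show (P.1.under (𝓞 K)).under (𝓞 ℚ) = u.asIdeal
      rw [Ideal.under_under]
      exact hlies.over.symm
    have hcard := dshde_card_under σ K τ hτ P.1 hP0 P.2.2.2
    have hnorm : Ideal.absNorm (P.1.under (𝓞 K)) = Ideal.absNorm u.asIdeal := by
      rw [← dshde_card_quot, hcard, dshde_card_quot, ← hlies.over]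
    refine ⟨⟨P.1.under (𝓞 K), inferInstance, hp'0⟩, hbelow, ⟨?_, ?_⟩, ?_⟩
    · show (Ideal.absNorm (P.1.under (𝓞 K))).Prime
      rw [hnorm]; exact hgood.1
    · show Ideal.absNorm (P.1.under (𝓞 K)) ∉ B
      rw [hnorm]; exact hgood.2
    · have hv := dshde_unramified_above K u hu ⟨P.1.under (𝓞 K), inferInstance, hp'0⟩ hbelow
      exact (frobAt_eq_of_isArithFrobAt K E (dshde_comm σ K hK τ hτ)
        ⟨P.1.under (𝓞 K), inferInstance, hp'0⟩ hv P.1 ⟨rfl⟩ τ
        (dshde_frob_over σ K τ hτ P.1 hP0 P.2.2.2)).symm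
  left_inv v := by
    apply Subtype.ext
    apply HeightOneSpectrum.ext
    exact ((primeAbove_liesOver K E v.1).over).symm
  right_inv P := by
    apply Subtype.ext
    have hprime : P.1.IsPrime := P.2.1
    have hlies : P.1.LiesOver u.asIdeal := P.2.2.1
    have hP0 : P.1 ≠ ⊥ := dshde_ne_bot_of_liesOver u P.1 hlies
    have hp'0 : P.1.under (𝓞 K) ≠ ⊥ := fun h => hP0 (Ideal.eq_bot_of_comap_eq_bot (R := 𝓞 K) h)
    set v : HeightOneSpectrum (𝓞 K) := ⟨P.1.under (𝓞 K), inferInstance, hp'0⟩ with hv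
    show primeAbove K E v = P.1
    have hunder : P.1.under (𝓞 K) = (primeAbove K E v).under (𝓞 K) :=
      (primeAbove_liesOver K E v).over
    obtain ⟨ρ, hρ⟩ := Algebra.IsInvariant.exists_smul_of_under_eq (𝓞 K) (𝓞 E) (E ≃ₐ[K] E)
      P.1 (primeAbove K E v) hunder
    have hτstab : τ ∈ MulAction.stabilizer (E ≃ₐ[K] E) P.1 :=
      (dshde_frob_over σ K τ hτ P.1 hP0 P.2.2.2).mem_stabilizer
    have hρstab : ρ ∈ MulAction.stabilizer (E ≃ₐ[K] E) P.1 :=
      (Subgroup.zpowers_le.mpr hτstab) (dshde_mem_zpowers σ K hK τ hτ ρ)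
    rw [hρ]
    exact hρstab

/-- **the count**, case `frobAt ℚ E u ∈ C(σ)` -/
theorem dshde_count_conj (B : Finset ℕ) (hB : ∀ v, IsGoodPlace ℚ B v → IsUnramifiedIn ℚ E v)
    (σ : E ≃ₐ[ℚ] E) (K : IntermediateField ℚ E)
    (hK : K = IntermediateField.fixedField (Subgroup.zpowers σ))
    (τ : E ≃ₐ[K] E) (hτ : τ.restrictScalars ℚ = σ) (u : HeightOneSpectrum (𝓞 ℚ))
    (hgood : IsGoodPlace ℚ B u)
    (hconj : frobAt ℚ E u ∈ {h | ∃ g : E ≃ₐ[ℚ] E, h = g * σ * g⁻¹}) :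
    orderOf σ * Nat.card {v : HeightOneSpectrum (𝓞 K) //
        placeBelow ℚ K v = u ∧ (IsGoodPlace K B v ∧ frobAt K E v = τ)} =
      Nat.card (Subgroup.centralizer ({σ} : Set (E ≃ₐ[ℚ] E))) := by
  have hu := hB u hgood
  rw [Nat.card_congr (dshdeEquiv B σ K hK τ hτ u hu hgood)]
  obtain ⟨g, hg⟩ := hconj
  have hmem := dshde_mem_of_conj u σ g hg
  rw [mul_comm]
  exact dshde_card_frobPrimes u hu σ _ hmem

/-- **the count**, case `frobAt ℚ E u ∉ C(σ)` -/
theorem dshde_count_not (B : Finset ℕ) (hB : ∀ v, IsGoodPlace ℚ B v → IsUnramifiedIn ℚ E v)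
    (σ : E ≃ₐ[ℚ] E) (K : IntermediateField ℚ E)
    (hK : K = IntermediateField.fixedField (Subgroup.zpowers σ))
    (τ : E ≃ₐ[K] E) (hτ : τ.restrictScalars ℚ = σ) (u : HeightOneSpectrum (𝓞 ℚ))
    (hgood : IsGoodPlace ℚ B u)
    (hconj : frobAt ℚ E u ∉ {h | ∃ g : E ≃ₐ[ℚ] E, h = g * σ * g⁻¹}) :
    IsEmpty {v : HeightOneSpectrum (𝓞 K) //
        placeBelow ℚ K v = u ∧ (IsGoodPlace K B v ∧ frobAt K E v = τ)} := by
  have hu := hB u hgood
  have hempty : IsEmpty ↥(dshdeFrobPrimes (K := ℚ) (L := E) u σ) := by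
    constructor
    rintro ⟨P, hP⟩
    exact hconj (dshde_frobAt_mem_conj u hu σ P hP)
  exact (dshdeEquiv B σ K hK τ hτ u hu hgood).isEmpty

end count

end Fermat.Agent.DS
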