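import Fermat.Agent.DS.H.Book
import Fermat.Agent.DS.H.Abelian
import Fermat.Agent.DS.H.Deuring

/-!
# Program DS, package H, row H4: Chebotarev for Galois extensions of `ℚ`

`dsh_chebotarev_nf` VERBATIM as in `DS/H/Spec.lean`, from H3' `dsh_abelian`, H4a `dsh_deuring`
and H0b `dsh_DS_eq_sum`.  Helper lemmas carry the prefix `dshnf_`.

Route: for `σ ∈ G = Gal(E/ℚ)`, `K = E^⟨σ⟩`, `τ = σ ∈ Gal(E/K) = ⟨τ⟩` (cyclic of order
`ord σ = [E:K]`), Deuring for `σ` and `σ⁻¹` plus the abelian case for `E/K` give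
`|C_G(σ)| (D(C(σ)) + D(C(σ⁻¹))) = 2 log + O(ε log + 1)`; the class equation
`∑_{σ ∈ S, h ∈ C(σ)} |C_G(σ)| = |G| [h ∈ S]` sums this up over `σ ∈ S`.
-/

set_option autoImplicit false

namespace Fermat.Agent.DS

open NumberField IsDedekindDomain Fermat.Agent.S14

section tower

variable (K F L : Type) [Field K] [NumberField K] [Field F] [NumberField F] [Field L]
  [NumberField L] [Algebra K F] [Algebra F L] [Algebra K L] [IsScalarTower K F L]

omit [NumberField K] [NumberField F] [NumberField L] in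
/-- a place `w` of `F` above a place of `K` unramified in `L` is unramified in `L` -/
theorem dshnf_isUnramifiedIn_up (w : HeightOneSpectrum (𝓞 F))
    (hv : IsUnramifiedIn K L (placeBelow K F w)) : IsUnramifiedIn F L w := by
  intro P hP hlies
  have h0 : w.asIdeal.LiesOver (placeBelow K F w).asIdeal := ⟨rfl⟩
  have h1 : P.LiesOver (placeBelow K F w).asIdeal :=
    Ideal.LiesOver.trans P w.asIdeal (placeBelow K F w).asIdeal
  have h2 : Algebra.IsUnramifiedAt (𝓞 K) P := hv P h1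
  exact Algebra.FormallyUnramified.of_restrictScalars (R := 𝓞 K) (A := 𝓞 F)
    (B := Localization.AtPrime P)

/-- a good place of `F` lies above a good place of `K` -/
theorem dshnf_isGoodPlace_below (B : Finset ℕ) (w : HeightOneSpectrum (𝓞 F))
    (hw : IsGoodPlace F B w) : IsGoodPlace K B (placeBelow K F w) := by
  have hpow := absNorm_eq_pow_inertiaDeg K F w
  obtain ⟨hprime, hnot⟩ := hw
  obtain ⟨h1, -⟩ := (Nat.Prime.pow_eq_iff hprime).mp hpow.symm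
  exact ⟨h1 ▸ hprime, h1 ▸ hnot⟩

end tower

section grp

variable {G : Type*} [Group G]

/-- the conjugacy class of `σ`, in the shape used by `dsh_deuring` -/
def dshnfCl (σ : G) : Set G := {h | ∃ g : G, h = g * σ * g⁻¹}

theorem dshnf_cl_eq_orbit (σ : G) : dshnfCl σ = MulAction.orbit (ConjAct G) σ := by
  ext h
  constructor
  · rintro ⟨g, rfl⟩
    exact ⟨ConjAct.toConjAct g, ConjAct.toConjAct_smul g σ⟩
  · rintro ⟨g, rfl⟩
    exact ⟨ConjAct.ofConjAct g, ConjAct.smul_def g σ⟩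

/-- orbit-stabiliser: `|C(σ)| |C_G(σ)| = |G|` -/
theorem dshnf_card_cl_mul (σ : G) :
    Nat.card (dshnfCl σ) * Nat.card (Subgroup.centralizer {σ} : Subgroup G) = Nat.card G := by
  rw [dshnf_cl_eq_orbit, Subgroup.nat_card_centralizer_nat_card_stabilizer,
    Nat.card_coe_set_eq, ← MulAction.index_stabilizer, mul_comm, Subgroup.card_mul_index]
  exact Nat.card_congr ConjAct.ofConjAct.toEquiv

theorem dshnf_self_mem_cl (σ : G) : σ ∈ dshnfCl σ := ⟨1, by simp⟩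

theorem dshnf_cl_eq_of_mem {σ h : G} (hh : h ∈ dshnfCl σ) : dshnfCl h = dshnfCl σ := by
  obtain ⟨g, rfl⟩ := hh
  ext x
  constructor
  · rintro ⟨k, rfl⟩
    exact ⟨k * g, by simp [mul_assoc]⟩
  · rintro ⟨k, rfl⟩
    exact ⟨k * g⁻¹, by simp [mul_assoc]⟩

theorem dshnf_mem_cl_comm {σ h : G} : h ∈ dshnfCl σ ↔ σ ∈ dshnfCl h := by
  constructor
  · rintro ⟨g, rfl⟩
    exact ⟨g⁻¹, by simp [mul_assoc]⟩
  · rintro ⟨g, rfl⟩
    exact ⟨g⁻¹, by simp [mul_assoc]⟩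

theorem dshnf_card_centralizer_of_mem [Finite G] {σ h : G} (hh : h ∈ dshnfCl σ) :
    Nat.card (Subgroup.centralizer {h} : Subgroup G) =
      Nat.card (Subgroup.centralizer {σ} : Subgroup G) := by
  have h1 := dshnf_card_cl_mul σ
  have h2 := dshnf_card_cl_mul h
  rw [dshnf_cl_eq_of_mem hh, ← h1] at h2
  have h3 : 0 < Nat.card (dshnfCl σ) := by
    have : Nonempty (dshnfCl σ) := ⟨⟨σ, dshnf_self_mem_cl σ⟩⟩
    exact Nat.card_pos
  exact Nat.eq_of_mul_eq_mul_left h3 h2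

theorem dshnf_centralizer_inv (σ : G) :
    (Subgroup.centralizer {σ⁻¹} : Subgroup G) = Subgroup.centralizer {σ} := by
  ext g
  simp only [Subgroup.mem_centralizer_iff, Set.mem_singleton_iff, forall_eq]
  constructor
  · intro h
    have := congrArg (fun x => σ * x * σ) h
    simpa [mul_assoc] using this.symm
  · intro h
    have := congrArg (fun x => σ⁻¹ * x * σ⁻¹) h
    simpa [mul_assoc] using this.symm

open Classical in
/-- the class equation in the form used below: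
`∑_{σ ∈ S, h ∈ C(σ)} |C_G(σ)| = |G| [h ∈ S]` for a conjugation stable `S`. -/
theorem dshnf_sum_centralizer [Fintype G] (S : Set G)
    (hconj : ∀ g h, h ∈ S → g * h * g⁻¹ ∈ S) (h : G) :
    (∑ σ : G, if σ ∈ S ∧ h ∈ dshnfCl σ then
        (Nat.card (Subgroup.centralizer {σ} : Subgroup G) : ℝ) else 0) =
      if h ∈ S then (Nat.card G : ℝ) else 0 := by
  by_cases hS : h ∈ S
  · rw [if_pos hS]
    have h1 : ∀ σ : G, (if σ ∈ S ∧ h ∈ dshnfCl σ then
        (Nat.card (Subgroup.centralizer {σ} : Subgroup G) : ℝ) else 0) =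
        if σ ∈ dshnfCl h then (Nat.card (Subgroup.centralizer {h} : Subgroup G) : ℝ) else 0 := by
      intro σ
      by_cases hσ : σ ∈ dshnfCl h
      · have hσS : σ ∈ S := by
          obtain ⟨g, rfl⟩ := hσ
          exact hconj g h hS
        rw [if_pos ⟨hσS, dshnf_mem_cl_comm.mp hσ⟩, if_pos hσ,
          dshnf_card_centralizer_of_mem hσ]
      · rw [if_neg hσ, if_neg]
        rintro ⟨-, h2⟩
        exact hσ (dshnf_mem_cl_comm.mp h2)
    simp_rw [h1]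
    rw [Finset.sum_ite, Finset.sum_const, Finset.sum_const_zero, add_zero, nsmul_eq_mul,
      ← dshnf_card_cl_mul h, Nat.cast_mul]
    congr 2
    rw [Nat.card_eq_fintype_card, Fintype.card_subtype]
  · rw [if_neg hS]
    refine Finset.sum_eq_zero fun σ _ => ?_
    rw [if_neg]
    rintro ⟨h1, g, rfl⟩
    exact hS (hconj g σ h1)

end grp

/-- the pair `(C(σ), C(σ⁻¹))`: Deuring's reduction to the cyclic extension `E/E^⟨σ⟩`. -/
theorem dshnf_pair {E : Type} [Field E] [NumberField E] [IsGalois ℚ E] (B : Finset ℕ)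
    (hB : ∀ v, IsGoodPlace ℚ B v → IsUnramifiedIn ℚ E v) (σ : E ≃ₐ[ℚ] E) (ε : ℝ) (hε : 0 < ε) :
    ∃ C : ℝ, ∀ s : ℝ, 1 < s → s < 2 →
      |(Nat.card (Subgroup.centralizer {σ} : Subgroup (E ≃ₐ[ℚ] E)) : ℝ) *
            dshDS ℚ E B (dshnfCl σ) s +
          (Nat.card (Subgroup.centralizer {σ⁻¹} : Subgroup (E ≃ₐ[ℚ] E)) : ℝ) *
            dshDS ℚ E B (dshnfCl σ⁻¹) s -
        2 * Real.log (1 / (s - 1))| ≤ ε * Real.log (1 / (s - 1)) + C := by
  obtain ⟨K, hK⟩ : ∃ K : IntermediateField ℚ E,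
      K = IntermediateField.fixedField (Subgroup.zpowers σ) := ⟨_, rfl⟩
  have hfix : K.fixingSubgroup = Subgroup.zpowers σ := by
    rw [hK, IntermediateField.fixingSubgroup_fixedField]
  have hmem : σ ∈ K.fixingSubgroup := by
    rw [hfix]; exact Subgroup.mem_zpowers σ
  obtain ⟨τ, hτdef⟩ : ∃ τ : E ≃ₐ[K] E, τ = IntermediateField.fixingSubgroupEquiv K ⟨σ, hmem⟩ :=
    ⟨_, rfl⟩
  have hτ : τ.restrictScalars ℚ = σ := by
    rw [hτdef]; ext x; rfl
  have hτ' : (τ⁻¹).restrictScalars ℚ = σ⁻¹ := by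
    rw [← hτ]; ext x; rfl
  have hcomm : ∀ a b : E ≃ₐ[K] E, a * b = b * a := by
    intro a b
    obtain ⟨a', rfl⟩ := (IntermediateField.fixingSubgroupEquiv K).surjective a
    obtain ⟨b', rfl⟩ := (IntermediateField.fixingSubgroupEquiv K).surjective b
    rw [← map_mul, ← map_mul]
    congr 1
    have ha : (a' : E ≃ₐ[ℚ] E) ∈ Subgroup.zpowers σ := hfix ▸ a'.2
    have hb : (b' : E ≃ₐ[ℚ] E) ∈ Subgroup.zpowers σ := hfix ▸ b'.2
    obtain ⟨i, hi⟩ := ha
    obtain ⟨j, hj⟩ := hb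
    apply Subtype.ext
    show (a' : E ≃ₐ[ℚ] E) * b' = b' * a'
    rw [← hi, ← hj]
    simp only [← zpow_add, add_comm]
  have hBK : ∀ v, IsGoodPlace K B v → IsUnramifiedIn K E v := fun v hv =>
    dshnf_isUnramifiedIn_up ℚ K E v (hB _ (dshnf_isGoodPlace_below ℚ K B v hv))
  have hfin : (Module.finrank K E : ℝ) = (orderOf σ : ℝ) := by
    rw [hK, IntermediateField.finrank_fixedField_eq_card, Nat.card_zpowers]
  obtain ⟨C, hC⟩ := dsh_abelian (K := K) (E := E) hcomm B hBK τ ε hε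
  refine ⟨C, fun s hs1 hs2 => ?_⟩
  have h1 := dsh_deuring B hB σ K hK τ hτ hs1
  have h2 := dsh_deuring B hB σ⁻¹ K (by rw [hK, Subgroup.zpowers_inv]) τ⁻¹ hτ' hs1
  rw [orderOf_inv] at h2
  have h3 := hC s hs1 hs2
  rw [hfin] at h3
  unfold dshnfCl
  rw [h1, h2, ← mul_add]
  exact h3

open Classical in
/-- H0b as a sum over the whole (finite) Galois group -/
theorem dshnf_DS_eq {K L : Type} [Field K] [NumberField K] [Field L] [NumberField L]
    [Algebra K L] [IsGalois K L] [Fintype (L ≃ₐ[K] L)] (B : Finset ℕ) (T : Set (L ≃ₐ[K] L))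
    {s : ℝ} (hs : 1 < s) :
    dshDS K L B T s = ∑ h : L ≃ₐ[K] L, if h ∈ T then dshD K L B h s else 0 := by
  rw [dsh_DS_eq_sum B T hs, finsum_eq_sum_of_fintype, ← Finset.sum_filter]
  exact (Finset.sum_subtype (Finset.univ.filter (· ∈ T)) (by simp)
    (fun h => dshD K L B h s)).symm

/-- **(H4)** Chebotarev for Galois extensions of `ℚ` (conjugation- and inversion-stable sets). -/
theorem dsh_chebotarev_nf {E : Type} [Field E] [NumberField E] [IsGalois ℚ E] (B : Finset ℕ)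
    (hB : ∀ v, IsGoodPlace ℚ B v → IsUnramifiedIn ℚ E v) (S : Set (E ≃ₐ[ℚ] E))
    (hconj : ∀ g h, h ∈ S → g * h * g⁻¹ ∈ S) (hinv : ∀ h ∈ S, h⁻¹ ∈ S) (ε : ℝ) (hε : 0 < ε) :
    ∃ C : ℝ, ∀ s : ℝ, 1 < s → s < 2 →
      |(Nat.card (E ≃ₐ[ℚ] E) : ℝ) * dshDS ℚ E B S s -
        (Nat.card S : ℝ) * Real.log (1 / (s - 1))| ≤ ε * Real.log (1 / (s - 1)) + C := by
  classical
  have : Fintype (E ≃ₐ[ℚ] E) := Fintype.ofFinite _
  have hGpos : (0 : ℝ) < (Nat.card (E ≃ₐ[ℚ] E) : ℝ) := by exact_mod_cast Nat.card_pos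
  have hε' : 0 < ε / (Nat.card (E ≃ₐ[ℚ] E) : ℝ) := div_pos hε hGpos
  choose Cσ hCσ using fun σ : E ≃ₐ[ℚ] E => dshnf_pair B hB σ _ hε'
  refine ⟨∑ σ : E ≃ₐ[ℚ] E, |Cσ σ|, fun s hs1 hs2 => ?_⟩
  set Lg : ℝ := Real.log (1 / (s - 1)) with hLg
  have hLg0 : 0 ≤ Lg := by
    apply Real.log_nonneg
    rw [le_div_iff₀ (by linarith)]
    linarith
  -- the function `a σ = |C_G(σ)| D(C(σ))`
  set a : (E ≃ₐ[ℚ] E) → ℝ := fun σ =>
    (Nat.card (Subgroup.centralizer {σ} : Subgroup (E ≃ₐ[ℚ] E)) : ℝ) *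
      dshDS ℚ E B (dshnfCl σ) s with ha
  -- (1) the class equation
  have hsum1 : (∑ σ : E ≃ₐ[ℚ] E, if σ ∈ S then a σ else 0) =
      (Nat.card (E ≃ₐ[ℚ] E) : ℝ) * dshDS ℚ E B S s := by
    have h1 : ∀ σ : E ≃ₐ[ℚ] E, (if σ ∈ S then a σ else 0) =
        ∑ h : E ≃ₐ[ℚ] E, dshD ℚ E B h s * (if σ ∈ S ∧ h ∈ dshnfCl σ then
          (Nat.card (Subgroup.centralizer {σ} : Subgroup (E ≃ₐ[ℚ] E)) : ℝ) else 0) := by
      intro σ
      by_cases hσ : σ ∈ S
      · rw [if_pos hσ, ha]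
        simp only [hσ, true_and]
        rw [dshnf_DS_eq B _ hs1, Finset.mul_sum]
        refine Finset.sum_congr rfl fun h _ => ?_
        by_cases hh : h ∈ dshnfCl σ
        · rw [if_pos hh, if_pos hh, mul_comm]
        · rw [if_neg hh, if_neg hh, mul_zero, mul_zero]
      · rw [if_neg hσ]
        simp only [hσ, false_and, if_false, mul_zero, Finset.sum_const_zero]
    simp_rw [h1]
    rw [Finset.sum_comm]
    simp_rw [← Finset.mul_sum, dshnf_sum_centralizer S hconj]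
    rw [dshnf_DS_eq B S hs1, Finset.mul_sum]
    refine Finset.sum_congr rfl fun h _ => ?_
    by_cases hh : h ∈ S
    · rw [if_pos hh, if_pos hh, mul_comm]
    · rw [if_neg hh, if_neg hh, mul_zero, mul_zero]
  -- (2) reindexing by inversion
  have hsum2 : (∑ σ : E ≃ₐ[ℚ] E, if σ ∈ S then a σ⁻¹ else 0) =
      ∑ σ : E ≃ₐ[ℚ] E, if σ ∈ S then a σ else 0 := by
    refine Fintype.sum_equiv (Equiv.inv _) _ _ fun σ => ?_
    have hiff : σ⁻¹ ∈ S ↔ σ ∈ S := ⟨fun h => by simpa using hinv _ h, hinv σ⟩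
    simp only [Equiv.inv_apply, hiff]
  -- the number of elements of `S`
  have hcard : (∑ σ : E ≃ₐ[ℚ] E, if σ ∈ S then (1 : ℝ) else 0) = (Nat.card S : ℝ) := by
    rw [Finset.sum_ite, Finset.sum_const, Finset.sum_const_zero, add_zero, nsmul_eq_mul, mul_one,
      Nat.card_eq_fintype_card, Fintype.card_subtype]
  -- (3) sum the estimates of `dshnf_pair`
  have hkey : 2 * ((Nat.card (E ≃ₐ[ℚ] E) : ℝ) * dshDS ℚ E B S s - (Nat.card S : ℝ) * Lg) =
      ∑ σ : E ≃ₐ[ℚ] E, if σ ∈ S then (a σ + a σ⁻¹ - 2 * Lg) else 0 := by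
    have : ∀ σ : E ≃ₐ[ℚ] E, (if σ ∈ S then (a σ + a σ⁻¹ - 2 * Lg) else 0) =
        (if σ ∈ S then a σ else 0) + (if σ ∈ S then a σ⁻¹ else 0) -
          2 * Lg * (if σ ∈ S then (1 : ℝ) else 0) := by
      intro σ
      by_cases hσ : σ ∈ S
      · simp only [if_pos hσ, mul_one]
      · simp only [if_neg hσ, mul_zero, add_zero, sub_zero]
    simp_rw [this]
    rw [Finset.sum_sub_distrib, Finset.sum_add_distrib, ← Finset.mul_sum, hsum2, hsum1, hcard]
    ring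
  have hbound : ∀ σ : E ≃ₐ[ℚ] E, |if σ ∈ S then (a σ + a σ⁻¹ - 2 * Lg) else 0| ≤
      ε / (Nat.card (E ≃ₐ[ℚ] E) : ℝ) * Lg + |Cσ σ| := by
    intro σ
    have h0 : 0 ≤ ε / (Nat.card (E ≃ₐ[ℚ] E) : ℝ) * Lg + |Cσ σ| :=
      add_nonneg (mul_nonneg hε'.le hLg0) (abs_nonneg _)
    by_cases hσ : σ ∈ S
    · rw [if_pos hσ]
      exact (hCσ σ s hs1 hs2).trans (add_le_add_right (le_abs_self _) _)
    · rw [if_neg hσ, abs_zero]
      exact h0
  have hfinal : |2 * ((Nat.card (E ≃ₐ[ℚ] E) : ℝ) * dshDS ℚ E B S s - (Nat.card S : ℝ) * Lg)| ≤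
      ε * Lg + ∑ σ : E ≃ₐ[ℚ] E, |Cσ σ| := by
    rw [hkey]
    refine (Finset.abs_sum_le_sum_abs _ _).trans ?_
    refine (Finset.sum_le_sum fun σ _ => hbound σ).trans ?_
    rw [Finset.sum_add_distrib, Finset.sum_const, Finset.card_univ, nsmul_eq_mul,
      ← Nat.card_eq_fintype_card]
    have : (Nat.card (E ≃ₐ[ℚ] E) : ℝ) * (ε / (Nat.card (E ≃ₐ[ℚ] E) : ℝ) * Lg) = ε * Lg := by
      field_simp
    rw [this]
  rw [abs_mul, abs_two] at hfinal
  have h0 : 0 ≤ ∑ σ : E ≃ₐ[ℚ] E, |Cσ σ| := Finset.sum_nonneg fun σ _ => abs_nonneg _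
  have h1 : 0 ≤ ε * Lg := mul_nonneg hε.le hLg0
  linarith

end Fermat.Agent.DS
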