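import Fermat.Agent.DS.H.NF
import Fermat.Agent.S55.SB.Unram
import Fermat.Prelude.Def_GaloisRep_Residual
import Fermat.Prelude.Def_FLTPrelim_Ramification

/-!
# Program DS, package H, row H5: the interface consumed by DS Section 8 (Prelude language)

`dsh_chebotarev` and `dsh_chebotarev_tendsto` VERBATIM as in `DS/H/Spec.lean`, from H4
`dsh_chebotarev_nf`.  Helper lemmas carry the prefix `dshtp_`.

Route: `E = ℚ̄^{ker ρ}` (finite Galois over `ℚ`, `Gal(E/ℚ) ≃ G` through `ρ`, `dshtp_setup`);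
places of `ℚ` = prime numbers (`Rat.HeightOneSpectrum.primesEquiv`, `dshtp_tsum_eq`); for a place
`u` of `ℚ` unramified in `E` with `N(u) = p`: every Prelude Frobenius element over `p` restricts to
a conjugate of `frobAt ℚ E u` (`dshtp_frob_conj`), `frobAt ℚ E u` is such a restriction
(`dshtp_exists_frob`) and inertia over `p` restricts trivially (`dshtp_inertia`).
-/

set_option autoImplicit false

namespace Fermat.Agent.DS

open NumberField IsDedekindDomain Fermat.Agent.S14 Fermat.Agent.S54 Fermat.Agent.S55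
  Fermat.Agent.S56

local notation "Qb" => AlgebraicClosure ℚ
local notation "Γℚ" => (AlgebraicClosure ℚ ≃ₐ[ℚ] AlgebraicClosure ℚ)

local instance dshtp_isAlgebraic : Algebra.IsAlgebraic ℚ (AlgebraicClosure ℚ) :=
  AlgebraicClosure.isAlgebraic ℚ
local instance dshtp_isAlgClosure : IsAlgClosure ℚ (AlgebraicClosure ℚ) :=
  ⟨inferInstance, inferInstance⟩
local instance dshtp_normal : Normal ℚ (AlgebraicClosure ℚ) :=
  IsAlgClosure.normal ℚ (AlgebraicClosure ℚ)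
local instance dshtp_isGalois : IsGalois ℚ (AlgebraicClosure ℚ) := inferInstance

/-! ## places of `ℚ` and prime numbers -/

/-- absolute norm of a place of `ℚ` = the corresponding prime number -/
theorem dshtp_absNorm (v : HeightOneSpectrum (𝓞 ℚ)) :
    Ideal.absNorm v.asIdeal = ((Rat.HeightOneSpectrum.primesEquiv v : Nat.Primes) : ℕ) := by
  show _ = Rat.HeightOneSpectrum.natGenerator v
  have h1 := Rat.HeightOneSpectrum.span_natGenerator v
  have h2 : Nat.card (𝓞 ℚ ⧸ v.asIdeal) =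
      Nat.card (ℤ ⧸ v.asIdeal.map (Rat.IsIntegralClosure.intEquiv (𝓞 ℚ))) :=
    Nat.card_congr (Ideal.quotientEquiv v.asIdeal _ (Rat.IsIntegralClosure.intEquiv (𝓞 ℚ))
      rfl).toEquiv
  rw [Ideal.absNorm_apply, Submodule.cardQuot_apply, h2, ← h1,
    Nat.card_congr (Int.quotientSpanNatEquivZMod _).toEquiv, Nat.card_zmod]

/-- the place of `ℚ` at a prime number -/
noncomputable def dshtpPlace (p : Nat.Primes) : HeightOneSpectrum (𝓞 ℚ) :=
  Rat.HeightOneSpectrum.primesEquiv.symm p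

theorem dshtp_absNorm_place (p : Nat.Primes) :
    Ideal.absNorm (dshtpPlace p).asIdeal = (p : ℕ) := by
  rw [dshtp_absNorm, dshtpPlace, Equiv.apply_symm_apply]

/-- the set of prime numbers attached to a set of places of `ℚ` -/
def dshtpSet (T : Set (HeightOneSpectrum (𝓞 ℚ))) : Set ℕ :=
  {n | ∃ hn : n.Prime, dshtpPlace ⟨n, hn⟩ ∈ T}

theorem dshtp_mem_set_iff (T : Set (HeightOneSpectrum (𝓞 ℚ))) (p : Nat.Primes) :
    (p : ℕ) ∈ dshtpSet T ↔ dshtpPlace p ∈ T :=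
  ⟨fun ⟨_, h⟩ => h, fun h => ⟨p.2, h⟩⟩

/-- a sum over places of `ℚ` is a sum over prime numbers -/
theorem dshtp_tsum_eq (T : Set (HeightOneSpectrum (𝓞 ℚ))) (s : ℝ) :
    (∑' v : HeightOneSpectrum (𝓞 ℚ), Set.indicator T (fun v => nvPow ℚ v s) v) =
      dshPrimeSum (dshtpSet T) s := by
  unfold dshPrimeSum
  rw [← Equiv.tsum_eq (Rat.HeightOneSpectrum.primesEquiv (R := 𝓞 ℚ)).symm]
  refine tsum_congr fun p => ?_
  by_cases hp : dshtpPlace p ∈ T
  · rw [Set.indicator_of_mem (show (Rat.HeightOneSpectrum.primesEquiv (R := 𝓞 ℚ)).symm p ∈ T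
      from hp), Set.indicator_of_mem ((dshtp_mem_set_iff T p).mpr hp)]
    show ((Ideal.absNorm (dshtpPlace p).asIdeal : ℕ) : ℝ) ^ (-s) = _
    rw [dshtp_absNorm_place]
  · rw [Set.indicator_of_notMem (show (Rat.HeightOneSpectrum.primesEquiv (R := 𝓞 ℚ)).symm p ∉ T
      from hp), Set.indicator_of_notMem (fun h => hp ((dshtp_mem_set_iff T p).mp h))]

theorem dshtp_summable (X : Set ℕ) {s : ℝ} (hs : 1 < s) :
    Summable fun p : Nat.Primes => Set.indicator X (fun n : ℕ => (n : ℝ) ^ (-s)) (p : ℕ) := by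
  have h : Summable fun p : Nat.Primes => ((p : ℕ) : ℝ) ^ (-s) :=
    Nat.Primes.summable_rpow.mpr (by linarith)
  refine Summable.of_nonneg_of_le (fun p => Set.indicator_nonneg (fun n _ => ?_) _)
    (fun p => ?_) h
  · positivity
  · exact Set.indicator_le_self' (fun n _ => by positivity) _

theorem dshtp_primeSum_mono {X Y : Set ℕ} (h : ∀ p : ℕ, p.Prime → p ∈ X → p ∈ Y) {s : ℝ}
    (hs : 1 < s) : dshPrimeSum X s ≤ dshPrimeSum Y s := by
  unfold dshPrimeSum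
  refine Summable.tsum_le_tsum (fun p => ?_) (dshtp_summable X hs) (dshtp_summable Y hs)
  by_cases hp : (p : ℕ) ∈ X
  · rw [Set.indicator_of_mem hp, Set.indicator_of_mem (h p p.2 hp)]
  · rw [Set.indicator_of_notMem hp]
    exact Set.indicator_nonneg (fun n _ => by positivity) _

theorem dshtp_primeSum_congr {X Y : Set ℕ} (h : ∀ p : ℕ, p.Prime → (p ∈ X ↔ p ∈ Y)) (s : ℝ) :
    dshPrimeSum X s = dshPrimeSum Y s := by
  unfold dshPrimeSum
  refine tsum_congr fun p => ?_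
  by_cases hp : (p : ℕ) ∈ X
  · rw [Set.indicator_of_mem hp, Set.indicator_of_mem ((h p p.2).mp hp)]
  · rw [Set.indicator_of_notMem hp, Set.indicator_of_notMem (fun h' => hp ((h p p.2).mpr h'))]

/-- `log (1/(s-1))` is unbounded on `(1,2)` -/
theorem dshtp_limit {c C : ℝ}
    (h : ∀ s : ℝ, 1 < s → s < 2 → c * Real.log (1 / (s - 1)) ≤ C) : c ≤ 0 := by
  by_contra hc
  push Not at hc
  set t : ℝ := |C| / c + 1 with ht
  have ht0 : 0 < t := by positivity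
  have h1 : 0 < Real.exp (-t) := Real.exp_pos _
  have h2 : Real.exp (-t) < 1 := by
    rw [Real.exp_lt_one_iff]
    linarith
  have h3 := h (1 + Real.exp (-t)) (by linarith) (by linarith)
  rw [add_sub_cancel_left, one_div, ← Real.exp_neg, neg_neg, Real.log_exp] at h3
  have h4 : c * t = |C| + c := by
    rw [ht]
    field_simp
  have h5 := le_abs_self C
  linarith

/-! ## the kernel field -/

/-- the kernel field: a finite Galois `E/ℚ` inside `ℚ̄` with `Gal(E/ℚ) ≃ G` compatibly with `ρ` -/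
theorem dshtp_setup {G : Type} [Group G] (ρ : Γℚ →* G) (hρ : GaloisFactorsThroughFiniteLevel ρ)
    (hsurj : Function.Surjective ρ) :
    ∃ (E : IntermediateField ℚ Qb) (_ : NumberField ↥E) (_ : IsGalois ℚ ↥E)
      (ι : (↥E ≃ₐ[ℚ] ↥E) ≃* G),
      ∀ g : Γℚ, ι (AlgEquiv.restrictNormalHom (F := ℚ) (K₁ := Qb) ↥E g) = ρ g := by
  obtain ⟨L, hL, h1⟩ := hρ
  have hle : L.fixingSubgroup ≤ ρ.ker := fun σ hσ => by
    rw [MonoidHom.mem_ker]
    exact h1 σ (fun x hx => (IntermediateField.mem_fixingSubgroup_iff L σ).mp hσ x hx)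
  have hf : IsOpen (ρ.ker : Set Γℚ) :=
    Subgroup.isOpen_mono hle (IntermediateField.fixingSubgroup_isOpen L)
  set U : Subgroup Γℚ := ρ.ker with hU
  set E : IntermediateField ℚ Qb := IntermediateField.fixedField U with hE
  have hfix : E.fixingSubgroup = U := fdh_fixingSubgroup U hf
  have hfd : FiniteDimensional ℚ ↥E := fdh_finiteDimensional U hf
  have hnf : NumberField ↥E := { to_charZero := inferInstance, to_finiteDimensional := hfd }
  have hgal : IsGalois ℚ ↥E := fdh_isGalois' U hf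
  have hker : ∀ g : Γℚ, AlgEquiv.restrictNormalHom (F := ℚ) (K₁ := Qb) ↥E g = 1 ↔ ρ g = 1 := by
    intro g
    rw [← MonoidHom.mem_ker (f := ρ), ← hU, ← hfix, IntermediateField.mem_fixingSubgroup_iff]
    constructor
    · intro h x hx
      have h1 := AlgEquiv.restrictNormal_commutes g ↥E ⟨x, hx⟩
      have h2 : (AlgEquiv.restrictNormalHom (F := ℚ) (K₁ := Qb) ↥E g) ⟨x, hx⟩ = ⟨x, hx⟩ := by
        rw [h]
        rfl
      have h3 : (g.restrictNormal ↥E) ⟨x, hx⟩ = ⟨x, hx⟩ := h2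
      rw [h3] at h1
      exact h1.symm
    · intro h
      ext x
      have h1 := AlgEquiv.restrictNormal_commutes g ↥E x
      exact h1.trans (h x x.2)
  have hres : Function.Surjective (AlgEquiv.restrictNormalHom (F := ℚ) (K₁ := Qb) ↥E) :=
    AlgEquiv.restrictNormalHom_surjective (F := ℚ) (K₁ := ↥E) Qb
  have hkereq : (AlgEquiv.restrictNormalHom (F := ℚ) (K₁ := Qb) ↥E).ker = ρ.ker := by
    ext g
    rw [MonoidHom.mem_ker, MonoidHom.mem_ker, hker]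
  refine ⟨E, hnf, hgal,
    ((QuotientGroup.quotientKerEquivOfSurjective _ hres).symm.trans
      (QuotientGroup.quotientMulEquivOfEq hkereq)).trans
      (QuotientGroup.quotientKerEquivOfSurjective ρ hsurj), fun g => ?_⟩
  have h2 : (QuotientGroup.quotientKerEquivOfSurjective _ hres).symm
      (AlgEquiv.restrictNormalHom (F := ℚ) (K₁ := Qb) ↥E g) = QuotientGroup.mk g := by
    rw [MulEquiv.symm_apply_eq]
    rfl
  rw [MulEquiv.trans_apply, MulEquiv.trans_apply, h2, QuotientGroup.quotientMulEquivOfEq_mk]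
  rfl

/-! ## Frobenius elements and inertia at an unramified prime -/

section frob

variable (E : IntermediateField ℚ Qb) [NumberField ↥E]

omit [NumberField ↥E] in
/-- the chosen prime above `u` contains the norm of `u` -/
theorem dshtp_natCast_mem_primeAbove (u : HeightOneSpectrum (𝓞 ℚ)) :
    ((Ideal.absNorm u.asIdeal : ℕ) : 𝓞 ↥E) ∈ primeAbove ℚ ↥E u := by
  have h1 : ((Ideal.absNorm u.asIdeal : ℕ) : 𝓞 ℚ) ∈ u.asIdeal := Ideal.absNorm_mem _
  have h0 : u.asIdeal = (primeAbove ℚ ↥E u).under (𝓞 ℚ) := (primeAbove_liesOver ℚ ↥E u).over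
  have h2 : ((Ideal.absNorm u.asIdeal : ℕ) : 𝓞 ℚ) ∈ (primeAbove ℚ ↥E u).under (𝓞 ℚ) := h0 ▸ h1
  have h3 := Ideal.mem_comap.mp h2
  rwa [map_natCast] at h3

/-- the prime below a valuation subring over `N(u)` lies over `u` -/
theorem dshtp_under_fdBelow (u : HeightOneSpectrum (𝓞 ℚ)) (hp : (Ideal.absNorm u.asIdeal).Prime)
    (A : ValuationSubring Qb) (hA : A.LiesOverPrime (Ideal.absNorm u.asIdeal)) :
    (fdBelow E A).under (𝓞 ℚ) = u.asIdeal := by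
  have hmem : ((Ideal.absNorm u.asIdeal : ℕ) : 𝓞 ↥E) ∈ fdBelow E A := by
    rw [mem_fdBelow_iff, map_natCast]
    exact hA
  rw [fd_under_eq_of_natCast_mem E hp (primeAbove ℚ ↥E u) (fdBelow E A)
    (dshtp_natCast_mem_primeAbove E u) hmem]
  exact ((primeAbove_liesOver ℚ ↥E u).over).symm

omit [NumberField ↥E] in
theorem dshtp_card_quot (u : HeightOneSpectrum (𝓞 ℚ)) :
    Nat.card (𝓞 ℚ ⧸ u.asIdeal) = Ideal.absNorm u.asIdeal := by
  rw [Ideal.absNorm_apply, Submodule.cardQuot_apply]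

variable [IsGalois ℚ ↥E]

open scoped Pointwise in
/-- (K1) every Frobenius element over `N(u)` restricts to a conjugate of `frobAt ℚ E u` -/
theorem dshtp_frob_conj (u : HeightOneSpectrum (𝓞 ℚ)) (hu : IsUnramifiedIn ℚ ↥E u) {q : ℕ}
    (hq : Ideal.absNorm u.asIdeal = q) (hp : q.Prime)
    (A : ValuationSubring Qb) (hA : A.LiesOverPrime q) (φ : Γℚ) (hφ : A.IsFrobeniusAt φ q) :
    ∃ τ : ↥E ≃ₐ[ℚ] ↥E, AlgEquiv.restrictNormalHom (F := ℚ) (K₁ := Qb) ↥E φ =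
      τ * frobAt ℚ ↥E u * τ⁻¹ := by
  subst hq
  have hunder := dshtp_under_fdBelow E u hp A hA
  have hunder' : (primeAbove ℚ ↥E u).under (𝓞 ℚ) = (fdBelow E A).under (𝓞 ℚ) := by
    rw [hunder]
    exact ((primeAbove_liesOver ℚ ↥E u).over).symm
  obtain ⟨τ, hτ⟩ := Algebra.IsInvariant.exists_smul_of_under_eq (𝓞 ℚ) (𝓞 ↥E) (↥E ≃ₐ[ℚ] ↥E)
    (primeAbove ℚ ↥E u) (fdBelow E A) hunder'
  refine ⟨τ, ?_⟩
  have h3 := fd_isArithFrobAt_of_isFrobeniusAt E A φ _ hφ (by rw [hunder, dshtp_card_quot])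
  have h4 := (isArithFrobAt_frobAt ℚ ↥E u).conj τ
  rw [← hτ] at h4
  have : Algebra.IsUnramifiedAt (𝓞 ℚ) (fdBelow E A) := hu _ ⟨hunder.symm⟩
  exact artin_frob_unique (fdBelow E A) h3 h4

/-- (K2) `frobAt ℚ E u` is the restriction of a Frobenius element over `N(u)` -/
theorem dshtp_exists_frob (u : HeightOneSpectrum (𝓞 ℚ)) (hu : IsUnramifiedIn ℚ ↥E u) {q : ℕ}
    (hq : Ideal.absNorm u.asIdeal = q) (hp : q.Prime) :
    ∃ A : ValuationSubring Qb, A.LiesOverPrime q ∧ ∃ φ : Γℚ, A.IsFrobeniusAt φ q ∧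
      AlgEquiv.restrictNormalHom (F := ℚ) (K₁ := Qb) ↥E φ = frobAt ℚ ↥E u := by
  subst hq
  obtain ⟨A, hA⟩ := fd_exists_valuationSubring E (primeAbove ℚ ↥E u) (primeAbove_ne_bot ℚ ↥E u)
  have hAq : A.LiesOverPrime (Ideal.absNorm u.asIdeal) := by
    have h1 := (mem_fdBelow_iff E A _).mp (hA ▸ dshtp_natCast_mem_primeAbove E u)
    rwa [map_natCast] at h1
  obtain ⟨φ, hφ⟩ := exists_isFrobeniusAt_algebraicClosure A hp hAq
  refine ⟨A, hAq, φ, hφ, ?_⟩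
  have hunder := dshtp_under_fdBelow E u hp A hAq
  have h3 := fd_isArithFrobAt_of_isFrobeniusAt E A φ _ hφ (by rw [hunder, dshtp_card_quot])
  rw [hA] at h3
  have : Algebra.IsUnramifiedAt (𝓞 ℚ) (primeAbove ℚ ↥E u) := hu _ (primeAbove_liesOver ℚ ↥E u)
  exact artin_frob_unique (primeAbove ℚ ↥E u) h3 (isArithFrobAt_frobAt ℚ ↥E u)

/-- (K3) inertia over `N(u)` restricts trivially to `E` -/
theorem dshtp_inertia (u : HeightOneSpectrum (𝓞 ℚ)) (hu : IsUnramifiedIn ℚ ↥E u) {q : ℕ}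
    (hq : Ideal.absNorm u.asIdeal = q) (hp : q.Prime)
    (A : ValuationSubring Qb) (hA : A.LiesOverPrime q) (σ : Γℚ)
    (hσ : σ ∈ A.inertiaSubgroupIn ℚ) :
    AlgEquiv.restrictNormalHom (F := ℚ) (K₁ := Qb) ↥E σ = 1 := by
  subst hq
  have hunder := dshtp_under_fdBelow E u hp A hA
  have h1 := sbur_restrictNormal_mem_inertia E A σ hσ
  have heq : sburPrimeBelow E A = fdBelow E A := by
    ext x
    rw [mem_sburPrimeBelow_iff, mem_fdBelow_iff]
    rfl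
  rw [heq] at h1
  have : Algebra.IsUnramifiedAt (𝓞 ℚ) (fdBelow E A) := hu _ ⟨hunder.symm⟩
  have h2 := sbur_card_inertia_rel ℚ ↥E (fdBelow E A)
  rw [Ideal.ramificationIdx_eq_one (fdBelow E A) (𝓞 ℚ)] at h2
  have h3 : Ideal.inertia (↥E ≃ₐ[ℚ] ↥E) (fdBelow E A) = ⊥ := Subgroup.card_eq_one.mp h2
  rw [h3, Subgroup.mem_bot] at h1
  exact h1

end frob

/-! ## the dictionary `places with Frobenius in S` = `primes with Frobenius in S` -/

section ident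

variable {G : Type} [Group G] (ρ : Γℚ →* G) (E : IntermediateField ℚ Qb) [NumberField ↥E]
  [IsGalois ℚ ↥E] (ι : (↥E ≃ₐ[ℚ] ↥E) ≃* G)
  (hι : ∀ g : Γℚ, ι (AlgEquiv.restrictNormalHom (F := ℚ) (K₁ := Qb) ↥E g) = ρ g)
  (S : Set G) (hconj : ∀ g h, h ∈ S → g * h * g⁻¹ ∈ S)
  (B : Finset ℕ) (hB : ∀ v, IsGoodPlace ℚ B v → IsUnramifiedIn ℚ ↥E v)

include hι hconj hB

/-- a good place with Frobenius in `S`: the prime is not in `B`, `ρ` is unramified there and ALL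
Frobenius elements land in `S` -/
theorem dshtp_of_mem (p : Nat.Primes)
    (hp : IsGoodPlace ℚ B (dshtpPlace p) ∧ frobAt ℚ ↥E (dshtpPlace p) ∈ {τ | ι τ ∈ S}) :
    (p : ℕ) ∉ B ∧
      (∀ A : ValuationSubring Qb, A.LiesOverPrime p → ∀ σ ∈ A.inertiaSubgroupIn ℚ, ρ σ = 1) ∧
      (∀ A : ValuationSubring Qb, A.LiesOverPrime p → ∀ φ : Γℚ, A.IsFrobeniusAt φ p →
        ρ φ ∈ S) := by
  obtain ⟨hgood, hfrob⟩ := hp
  have hu := hB _ hgood
  have hq := dshtp_absNorm_place p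
  refine ⟨hq ▸ hgood.2, fun A hA σ hσ => ?_, fun A hA φ hφ => ?_⟩
  · rw [← hι, dshtp_inertia E _ hu hq p.2 A hA σ hσ, map_one]
  · obtain ⟨τ, hτ⟩ := dshtp_frob_conj E _ hu hq p.2 A hA φ hφ
    rw [← hι, hτ, map_mul, map_mul, map_inv]
    exact hconj _ _ hfrob

/-- a prime outside `B` with SOME Frobenius element in `S` gives a good place with Frobenius in
`S` -/
theorem dshtp_mem_of_exists (p : Nat.Primes) (hpB : (p : ℕ) ∉ B) (A : ValuationSubring Qb)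
    (hA : A.LiesOverPrime p) (φ : Γℚ) (hφ : A.IsFrobeniusAt φ p) (hS : ρ φ ∈ S) :
    IsGoodPlace ℚ B (dshtpPlace p) ∧ frobAt ℚ ↥E (dshtpPlace p) ∈ {τ | ι τ ∈ S} := by
  have hq := dshtp_absNorm_place p
  have hgood : IsGoodPlace ℚ B (dshtpPlace p) := ⟨hq.symm ▸ p.2, hq.symm ▸ hpB⟩
  refine ⟨hgood, ?_⟩
  have hu := hB _ hgood
  obtain ⟨τ, hτ⟩ := dshtp_frob_conj E _ hu hq p.2 A hA φ hφ
  have h1 : frobAt ℚ ↥E (dshtpPlace p) =
      τ⁻¹ * AlgEquiv.restrictNormalHom (F := ℚ) (K₁ := Qb) ↥E φ * τ⁻¹⁻¹ := by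
    rw [hτ]
    group
  show ι (frobAt ℚ ↥E (dshtpPlace p)) ∈ S
  rw [h1, map_mul, map_mul, map_inv (f := ι) (τ⁻¹), hι]
  exact hconj _ _ hS

/-- the prime sum attached to the places counted by `dshDS` is the sum over the primes outside
`B` having a Frobenius element in `S` -/
theorem dshtp_DS_eq (s : ℝ) :
    dshDS ℚ ↥E B {τ | ι τ ∈ S} s =
      dshPrimeSum {p | p ∉ B ∧ ∃ A : ValuationSubring (AlgebraicClosure ℚ),
          A.LiesOverPrime p ∧ ∃ φ : Γℚ, A.IsFrobeniusAt φ p ∧ ρ φ ∈ S} s := by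
  unfold dshDS
  rw [dshtp_tsum_eq]
  refine dshtp_primeSum_congr (fun p hp => ?_) s
  rw [dshtp_mem_set_iff _ ⟨p, hp⟩]
  constructor
  · intro h
    obtain ⟨h1, -, h3⟩ := dshtp_of_mem ρ E ι hι S hconj B hB ⟨p, hp⟩ h
    obtain ⟨A, hA, φ, hφ⟩ := exists_liesOverPrime_and_isFrobeniusAt p hp
    exact ⟨h1, A, hA, φ, hφ, h3 A hA φ hφ⟩
  · rintro ⟨h1, A, hA, φ, hφ, hS⟩
    exact dshtp_mem_of_exists ρ E ι hι S hconj B hB ⟨p, hp⟩ h1 A hA φ hφ hS

end ident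

/-! ## the top statements -/

/-- (H5') the two-sided density statement. -/
theorem dsh_chebotarev_tendsto {G : Type} [Group G] [Finite G] (ρ : Γℚ →* G)
    (hρ : GaloisFactorsThroughFiniteLevel ρ) (hsurj : Function.Surjective ρ) (S : Set G)
    (hconj : ∀ g h, h ∈ S → g * h * g⁻¹ ∈ S) (hinv : ∀ h ∈ S, h⁻¹ ∈ S) :
    ∃ B : Finset ℕ, ∀ ε : ℝ, 0 < ε → ∃ C : ℝ, ∀ s : ℝ, 1 < s → s < 2 →
      |(Nat.card G : ℝ) * dshPrimeSum {p | p ∉ B ∧ ∃ A : ValuationSubring (AlgebraicClosure ℚ),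
          A.LiesOverPrime p ∧ ∃ φ : Γℚ, A.IsFrobeniusAt φ p ∧ ρ φ ∈ S} s -
        (Nat.card S : ℝ) * Real.log (1 / (s - 1))| ≤ ε * Real.log (1 / (s - 1)) + C := by
  obtain ⟨E, hnf, hgal, ι, hι⟩ := dshtp_setup ρ hρ hsurj
  have hB : ∀ v, IsGoodPlace ℚ (fdBad ℚ ↥E ∅) v → IsUnramifiedIn ℚ ↥E v :=
    fd_isUnramifiedIn_of_fdBad ℚ ↥E ∅
  have hconj' : ∀ g h : ↥E ≃ₐ[ℚ] ↥E, h ∈ {τ | ι τ ∈ S} → g * h * g⁻¹ ∈ {τ | ι τ ∈ S} := by
    intro g h hh
    show ι (g * h * g⁻¹) ∈ S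
    rw [map_mul, map_mul, map_inv]
    exact hconj _ _ hh
  have hinv' : ∀ h ∈ {τ : ↥E ≃ₐ[ℚ] ↥E | ι τ ∈ S}, h⁻¹ ∈ {τ | ι τ ∈ S} := by
    intro h hh
    show ι h⁻¹ ∈ S
    rw [map_inv]
    exact hinv _ hh
  have hcardG : Nat.card (↥E ≃ₐ[ℚ] ↥E) = Nat.card G := Nat.card_congr ι.toEquiv
  have hcardS : Nat.card {τ : ↥E ≃ₐ[ℚ] ↥E | ι τ ∈ S} = Nat.card S :=
    Nat.card_congr (ι.toEquiv.subtypeEquiv fun τ => Iff.rfl)
  refine ⟨fdBad ℚ ↥E ∅, fun ε hε => ?_⟩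
  obtain ⟨C, hC⟩ := dsh_chebotarev_nf (fdBad ℚ ↥E ∅) hB {τ | ι τ ∈ S} hconj' hinv' ε hε
  refine ⟨C, fun s hs1 hs2 => ?_⟩
  have h := hC s hs1 hs2
  rw [hcardG, hcardS, dshtp_DS_eq ρ E ι hι S hconj _ hB s] at h
  exact h

/-- **(H5) TOP of package H.**  `ρ : G_ℚ → G` onto a finite group with open kernel, `S ⊆ G`
stable under conjugation and inversion, `X` a set of primes containing every `p ∉ B` one of whose
Frobenius elements lands in `S`.  If `∑_{p ∈ X} p^(-s) ≤ η log (1/(s-1)) + M` on `(1,2)` then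
`|S| ≤ η |G|`. -/
theorem dsh_chebotarev {G : Type} [Group G] [Finite G] (ρ : Γℚ →* G)
    (hρ : GaloisFactorsThroughFiniteLevel ρ) (hsurj : Function.Surjective ρ) (S : Set G)
    (hconj : ∀ g h, h ∈ S → g * h * g⁻¹ ∈ S) (hinv : ∀ h ∈ S, h⁻¹ ∈ S) (B : Finset ℕ)
    (X : Set ℕ)
    (hX : ∀ p : ℕ, p.Prime → p ∉ B → ∀ A : ValuationSubring (AlgebraicClosure ℚ),
      A.LiesOverPrime p → ∀ φ : Γℚ, A.IsFrobeniusAt φ p → ρ φ ∈ S → p ∈ X)
    (η M : ℝ) (hbound : ∀ s : ℝ, 1 < s → s < 2 →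
      dshPrimeSum X s ≤ η * Real.log (1 / (s - 1)) + M) :
    (Nat.card S : ℝ) ≤ η * (Nat.card G : ℝ) := by
  obtain ⟨E, hnf, hgal, ι, hι⟩ := dshtp_setup ρ hρ hsurj
  set B' : Finset ℕ := fdBad ℚ ↥E B with hB'
  have hB : ∀ v, IsGoodPlace ℚ B' v → IsUnramifiedIn ℚ ↥E v :=
    fd_isUnramifiedIn_of_fdBad ℚ ↥E B
  have hconj' : ∀ g h : ↥E ≃ₐ[ℚ] ↥E, h ∈ {τ | ι τ ∈ S} → g * h * g⁻¹ ∈ {τ | ι τ ∈ S} := by
    intro g h hh
    show ι (g * h * g⁻¹) ∈ S
    rw [map_mul, map_mul, map_inv]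
    exact hconj _ _ hh
  have hinv' : ∀ h ∈ {τ : ↥E ≃ₐ[ℚ] ↥E | ι τ ∈ S}, h⁻¹ ∈ {τ | ι τ ∈ S} := by
    intro h hh
    show ι h⁻¹ ∈ S
    rw [map_inv]
    exact hinv _ hh
  have hcardG : Nat.card (↥E ≃ₐ[ℚ] ↥E) = Nat.card G := Nat.card_congr ι.toEquiv
  have hcardS : Nat.card {τ : ↥E ≃ₐ[ℚ] ↥E | ι τ ∈ S} = Nat.card S :=
    Nat.card_congr (ι.toEquiv.subtypeEquiv fun τ => Iff.rfl)
  have hG0 : (0 : ℝ) ≤ (Nat.card G : ℝ) := Nat.cast_nonneg _
  refine le_of_forall_pos_le_add fun ε hε => ?_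
  obtain ⟨C, hC⟩ := dsh_chebotarev_nf B' hB {τ | ι τ ∈ S} hconj' hinv' ε hε
  have key : ∀ s : ℝ, 1 < s → s < 2 →
      ((Nat.card S : ℝ) - ε - η * (Nat.card G : ℝ)) * Real.log (1 / (s - 1)) ≤
        C + (Nat.card G : ℝ) * M := by
    intro s hs1 hs2
    have h := hC s hs1 hs2
    rw [hcardG, hcardS, dshtp_DS_eq ρ E ι hι S hconj _ hB s] at h
    have h1 : dshPrimeSum {p | p ∉ B' ∧ ∃ A : ValuationSubring (AlgebraicClosure ℚ),
        A.LiesOverPrime p ∧ ∃ φ : Γℚ, A.IsFrobeniusAt φ p ∧ ρ φ ∈ S} s ≤ dshPrimeSum X s := by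
      refine dshtp_primeSum_mono (fun p hp hmem => ?_) hs1
      obtain ⟨hpB, A, hA, φ, hφ, hS⟩ := hmem
      exact hX p hp (fun hmem => hpB (fd_subset_fdBad ℚ ↥E B hmem)) A hA φ hφ hS
    have h2 := hbound s hs1 hs2
    have h3 := (abs_le.mp h).1
    have h4 : (Nat.card G : ℝ) * dshPrimeSum {p | p ∉ B' ∧
        ∃ A : ValuationSubring (AlgebraicClosure ℚ),
        A.LiesOverPrime p ∧ ∃ φ : Γℚ, A.IsFrobeniusAt φ p ∧ ρ φ ∈ S} s ≤
        (Nat.card G : ℝ) * (η * Real.log (1 / (s - 1)) + M) :=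
      mul_le_mul_of_nonneg_left (h1.trans h2) hG0
    nlinarith [h3, h4]
  have := dshtp_limit key
  linarith

end Fermat.Agent.DS
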