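import Fermat.Agent.DS.H.Top
import Fermat.Agent.DS.F.Defs

/-!
# Program DS, package H: the TOP in the exact shape of helper17's black box `DsChebotarev`
(`Fermat/Agent/DS/K/Defs.lean`, amended version: `N ≠ 0`, `S` stable under inversion).

`dsh_DsChebotarev` = `DS/H/SpecTop.lean` PLUS the hypothesis `hN : N ≠ 0` (the statement of
SpecTop is false for `N = 0`: `DsfPrime 0` is empty).  `DsUnramAt ρ p` is unfolded.
-/

set_option autoImplicit false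

namespace Fermat.Agent.DS

open NumberField IsDedekindDomain Fermat.Agent.S14 Fermat.Agent.S56

local notation "Γℚ" => (AlgebraicClosure ℚ ≃ₐ[ℚ] AlgebraicClosure ℚ)

/-- comparison of a prime sum with a sum over a set of primes not dividing `N` -/
theorem dshtp_primeSum_le_tsum {N : ℕ} (Y : Set ℕ) (T : Set (DsfPrime N))
    (hY : ∀ p : Nat.Primes, (p : ℕ) ∈ Y → ∃ h : ¬ (p : ℕ) ∣ N, (⟨p, p.2, h⟩ : DsfPrime N) ∈ T)
    {s : ℝ} (hs : 1 < s)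
    (hsum : Summable (fun p : T => (((p : DsfPrime N) : ℕ) : ℝ) ^ (-s))) :
    dshPrimeSum Y s ≤ ∑' p : T, (((p : DsfPrime N) : ℕ) : ℝ) ^ (-s) := by
  have h1 : dshPrimeSum Y s =
      ∑' x : {p : Nat.Primes | (p : ℕ) ∈ Y}, (((x : Nat.Primes) : ℕ) : ℝ) ^ (-s) := by
    unfold dshPrimeSum
    rw [tsum_subtype {p : Nat.Primes | (p : ℕ) ∈ Y} (fun p : Nat.Primes => ((p : ℕ) : ℝ) ^ (-s))]
    refine tsum_congr fun p => ?_
    by_cases hp : (p : ℕ) ∈ Y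
    · rw [Set.indicator_of_mem hp,
        Set.indicator_of_mem (show p ∈ {p : Nat.Primes | (p : ℕ) ∈ Y} from hp)]
    · rw [Set.indicator_of_notMem hp,
        Set.indicator_of_notMem (show p ∉ {p : Nat.Primes | (p : ℕ) ∈ Y} from hp)]
  rw [h1]
  have hsum' : Summable fun x : {p : Nat.Primes | (p : ℕ) ∈ Y} =>
      (((x : Nat.Primes) : ℕ) : ℝ) ^ (-s) :=
    (Nat.Primes.summable_rpow.mpr (by linarith : -s < -1)).subtype _
  refine Summable.tsum_le_tsum_of_inj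
    (fun x : {p : Nat.Primes | (p : ℕ) ∈ Y} =>
      (⟨⟨(x : Nat.Primes), (x : Nat.Primes).2, (hY x.1 x.2).choose⟩,
        (hY x.1 x.2).choose_spec⟩ : T)) ?_ (fun c _ => ?_) (fun x => le_rfl) hsum' hsum
  · intro x y hxy
    have h2 := congrArg (fun t : T => (((t : DsfPrime N) : ℕ))) hxy
    exact Subtype.ext (Subtype.ext h2)
  · positivity

/-- **(H5'') = `DsChebotarev` of the K-Spec.** -/
theorem dsh_DsChebotarev (G : Type) [Group G] [Finite G] (ρ : Γℚ →* G)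
    (hρ : GaloisFactorsThroughFiniteLevel ρ) (hsurj : Function.Surjective ρ) (N : ℕ)
    (hN : N ≠ 0) (S : Set G)
    (hconj : ∀ g h : G, g ∈ S → h * g * h⁻¹ ∈ S) (hinv : ∀ g ∈ S, g⁻¹ ∈ S) (δ : ℝ) (hδ : 0 < δ) :
    ∃ C : ℝ, ∀ s : ℝ, 1 < s → s ≤ 2 → ∀ T : Set (DsfPrime N),
      (∀ p : DsfPrime N,
        (∀ A : ValuationSubring (AlgebraicClosure ℚ), A.LiesOverPrime p →
          ∀ σ ∈ A.inertiaSubgroupIn ℚ, ρ σ = 1) →
        (∀ A : ValuationSubring (AlgebraicClosure ℚ), A.LiesOverPrime p →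
          ∀ σ : Γℚ, A.IsFrobeniusAt σ p → ρ σ ∈ S) → p ∈ T) →
      Summable (fun p : T => (((p : DsfPrime N) : ℕ) : ℝ) ^ (-s)) →
      ((Nat.card S : ℝ) / Nat.card G - δ) * Real.log (1 / (s - 1)) - C ≤
        ∑' p : T, (((p : DsfPrime N) : ℕ) : ℝ) ^ (-s) := by
  obtain ⟨E, hnf, hgal, ι, hι⟩ := dshtp_setup ρ hρ hsurj
  have hconj₀ : ∀ g h : G, h ∈ S → g * h * g⁻¹ ∈ S := fun g h hh => hconj h g hh
  set B' : Finset ℕ := fdBad ℚ ↥E N.primeFactors with hB'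
  have hB : ∀ v, IsGoodPlace ℚ B' v → IsUnramifiedIn ℚ ↥E v :=
    fd_isUnramifiedIn_of_fdBad ℚ ↥E N.primeFactors
  have hconj' : ∀ g h : ↥E ≃ₐ[ℚ] ↥E, h ∈ {τ | ι τ ∈ S} → g * h * g⁻¹ ∈ {τ | ι τ ∈ S} := by
    intro g h hh
    show ι (g * h * g⁻¹) ∈ S
    rw [map_mul, map_mul, map_inv]
    exact hconj₀ _ _ hh
  have hinv' : ∀ h ∈ {τ : ↥E ≃ₐ[ℚ] ↥E | ι τ ∈ S}, h⁻¹ ∈ {τ | ι τ ∈ S} := by
    intro h hh
    show ι h⁻¹ ∈ S
    rw [map_inv]
    exact hinv _ hh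
  have hcardG : Nat.card (↥E ≃ₐ[ℚ] ↥E) = Nat.card G := Nat.card_congr ι.toEquiv
  have hcardS : Nat.card {τ : ↥E ≃ₐ[ℚ] ↥E | ι τ ∈ S} = Nat.card S :=
    Nat.card_congr (ι.toEquiv.subtypeEquiv fun τ => Iff.rfl)
  have hGpos : (0 : ℝ) < (Nat.card G : ℝ) := by exact_mod_cast Nat.card_pos
  obtain ⟨C, hC⟩ := dsh_chebotarev_nf B' hB {τ | ι τ ∈ S} hconj' hinv' (δ * (Nat.card G : ℝ))
    (mul_pos hδ hGpos)
  refine ⟨|C| / (Nat.card G : ℝ), fun s hs1 hs2 T hT hsum => ?_⟩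
  have hC0 : 0 ≤ |C| / (Nat.card G : ℝ) := div_nonneg (abs_nonneg _) hGpos.le
  have hT0 : 0 ≤ ∑' p : T, (((p : DsfPrime N) : ℕ) : ℝ) ^ (-s) :=
    tsum_nonneg fun p => by positivity
  rcases eq_or_lt_of_le hs2 with rfl | hs2'
  · have : Real.log (1 / ((2 : ℝ) - 1)) = 0 := by norm_num
    rw [this, mul_zero]
    linarith
  have h := hC s hs1 hs2'
  rw [hcardG, hcardS] at h
  -- the sum over places is at most the sum over `T`
  have hle : dshDS ℚ ↥E B' {τ | ι τ ∈ S} s ≤ ∑' p : T, (((p : DsfPrime N) : ℕ) : ℝ) ^ (-s) := by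
    unfold dshDS
    rw [dshtp_tsum_eq]
    refine dshtp_primeSum_le_tsum _ T (fun p hp => ?_) hs1 hsum
    rw [dshtp_mem_set_iff] at hp
    obtain ⟨h1, h2, h3⟩ := dshtp_of_mem ρ E ι hι S hconj₀ B' hB p hp
    have hpN : ¬ (p : ℕ) ∣ N := fun hdvd =>
      h1 (fd_subset_fdBad ℚ ↥E N.primeFactors (Nat.mem_primeFactors.mpr ⟨p.2, hdvd, hN⟩))
    exact ⟨hpN, hT ⟨p, p.2, hpN⟩ h2 h3⟩
  have h3 := (abs_le.mp h).1
  have h4 : (Nat.card G : ℝ) * dshDS ℚ ↥E B' {τ | ι τ ∈ S} s ≤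
      (Nat.card G : ℝ) * ∑' p : T, (((p : DsfPrime N) : ℕ) : ℝ) ^ (-s) :=
    mul_le_mul_of_nonneg_left hle hGpos.le
  have h5 : ((Nat.card S : ℝ) / Nat.card G - δ) * Real.log (1 / (s - 1)) - |C| / (Nat.card G : ℝ)
      = ((Nat.card S : ℝ) * Real.log (1 / (s - 1)) -
          δ * (Nat.card G : ℝ) * Real.log (1 / (s - 1)) - |C|) / (Nat.card G : ℝ) := by
    field_simp
  rw [h5, div_le_iff₀ hGpos]
  have h6 := le_abs_self C
  linarith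

end Fermat.Agent.DS
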