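import Fermat.Agent.DS.H.TopK
import Fermat.Agent.DS.K.Defs

/-!
# Program DS, package H ⟶ package K: the black box `DsChebotarev` of `DS/K/Defs.lean` holds.
-/

set_option autoImplicit false

namespace Fermat.Agent.DS

/-- **(H)-out**: helper17's predicate `DsChebotarev` (`DS/K/Defs.lean`, 329e3b3). -/
theorem dsh_DsChebotarev_holds : DsChebotarev :=
  fun G _ _ ρ hρ hsurj N hN S hconj hinv δ hδ =>
    dsh_DsChebotarev G ρ hρ hsurj N hN S hconj hinv δ hδ

end Fermat.Agent.DS
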